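import Fermat.Prelude.Def_GroupCohomology_ContinuousH1
import Mathlib.FieldTheory.Galois.Infinite
import Mathlib.FieldTheory.Normal.Closure


/-!
# Inhomogeneous cochains in low degree: levels, cup products, connecting cocycles

Cochain level tools for the level-constant cohomology of `r : G →* Γ_ℚ`: smooth modules, cup
products in degrees `(1,1)`, connecting cocycles and their compatibility with cup products.
-/

set_option autoImplicit false

noncomputable section

open CategoryTheory groupCohomology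

namespace FLTAgent.LocalDuality

variable {k G : Type} [CommRing k] [Group G]
variable (r : G →* (AlgebraicClosure ℚ ≃ₐ[ℚ] AlgebraicClosure ℚ))

/-- The subgroup of `G` cut out by a level `F`. -/
def levelSubgroup (F : IntermediateField ℚ (AlgebraicClosure ℚ)) : Subgroup G :=
  F.fixingSubgroup.comap r

theorem mem_levelSubgroup {F : IntermediateField ℚ (AlgebraicClosure ℚ)} {g : G} :
    g ∈ levelSubgroup r F ↔ r g ∈ F.fixingSubgroup := Iff.rfl

theorem levelSubgroup_anti {F F' : IntermediateField ℚ (AlgebraicClosure ℚ)} (h : F ≤ F') :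
    levelSubgroup r F' ≤ levelSubgroup r F :=
  Subgroup.comap_mono (IntermediateField.fixingSubgroup_antitone h)

/-- Every level is contained in a Galois level, whose subgroup is normal. -/
theorem exists_normal_level (F : IntermediateField ℚ (AlgebraicClosure ℚ))
    [FiniteDimensional ℚ F] :
    ∃ F' : IntermediateField ℚ (AlgebraicClosure ℚ), FiniteDimensional ℚ F' ∧ F ≤ F' ∧
      (levelSubgroup r F').Normal := by
  refine ⟨IntermediateField.normalClosure ℚ F (AlgebraicClosure ℚ), inferInstance,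
    F.le_normalClosure, ?_⟩
  have : Algebra.IsAlgebraic ℚ (AlgebraicClosure ℚ) := AlgebraicClosure.isAlgebraic ℚ
  have : IsAlgClosure ℚ (AlgebraicClosure ℚ) := ⟨inferInstance, inferInstance⟩
  have : Normal ℚ (AlgebraicClosure ℚ) := IsAlgClosure.normal ℚ (AlgebraicClosure ℚ)
  have : Normal ℚ (IntermediateField.normalClosure ℚ F (AlgebraicClosure ℚ)) :=
    normalClosure.normal ℚ F (AlgebraicClosure ℚ)
  have : (IntermediateField.normalClosure ℚ F (AlgebraicClosure ℚ)).fixingSubgroup.Normal := by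
    rw [← IntermediateField.restrictNormalHom_ker]
    exact MonoidHom.normal_ker _
  exact Subgroup.Normal.comap ‹_› r

/-- A representation is smooth if it is trivial on some level. -/
def IsSmooth (A : Rep k G) : Prop :=
  ∃ F : IntermediateField ℚ (AlgebraicClosure ℚ), FiniteDimensional ℚ F ∧
    ∀ s ∈ levelSubgroup r F, A.ρ s = 1

/-- `d₁₂` unfolded. -/
theorem d₁₂_apply {A : Rep k G} (f : G → A) (g h : G) :
    (d₁₂ A).hom f (g, h) = A.ρ g (f h) - f (g * h) + f g := rfl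

/-- `d₀₁` unfolded. -/
theorem d₀₁_apply {A : Rep k G} (a : A) (g : G) : (d₀₁ A).hom a g = A.ρ g a - a := rfl

theorem d₀₁_mem_cocycles₁ {A : Rep k G} (a : A) : (d₀₁ A).hom a ∈ cocycles₁ A := by
  rw [mem_cocycles₁_iff]
  intro g h
  simp [map_mul, map_sub]

variable {r}

theorem isLevelConstant₁_d₀₁ {A : Rep k G} (hA : IsSmooth r A) (a : A) :
    IsLevelConstant₁ r ((d₀₁ A).hom a) := by
  obtain ⟨F, hF, h⟩ := hA
  refine ⟨F, hF, fun g s hs => ?_⟩
  simp [map_mul, h s hs]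

/-- Common refinement of finitely many levels. -/
theorem exists_normal_sup {F F' : IntermediateField ℚ (AlgebraicClosure ℚ)}
    (hF : FiniteDimensional ℚ F) (hF' : FiniteDimensional ℚ F') :
    ∃ E : IntermediateField ℚ (AlgebraicClosure ℚ), FiniteDimensional ℚ E ∧
      (levelSubgroup r E).Normal ∧ levelSubgroup r E ≤ levelSubgroup r F ∧
      levelSubgroup r E ≤ levelSubgroup r F' := by
  have := hF; have := hF'
  obtain ⟨E, hE, hle, hn⟩ := exists_normal_level r (F ⊔ F')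
  exact ⟨E, hE, hn, levelSubgroup_anti r (le_sup_left.trans hle),
    levelSubgroup_anti r (le_sup_right.trans hle)⟩

theorem isLevelConstant₂_d₁₂ {A : Rep k G} (hA : IsSmooth r A) {f : G → A}
    (hf : IsLevelConstant₁ r f) : IsLevelConstant₂ r ((d₁₂ A).hom f) := by
  obtain ⟨F₁, hF₁, h₁⟩ := hA
  obtain ⟨F₂, hF₂, h₂⟩ := hf
  obtain ⟨E, hE, hn, hle₁, hle₂⟩ := exists_normal_sup (r := r) hF₁ hF₂
  refine ⟨E, hE, fun g g' s s' hs hs' => ?_⟩
  have hA1 : A.ρ (g * s) = A.ρ g := by rw [map_mul, h₁ s (hle₁ hs), mul_one]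
  have hc : g'⁻¹ * s * g' ∈ levelSubgroup r E := by
    simpa using hn.conj_mem s hs g'⁻¹
  have hp : g * s * (g' * s') = (g * g') * (g'⁻¹ * s * g' * s') := by group
  rw [d₁₂_apply, d₁₂_apply, hA1, h₂ g' s' (hle₂ hs'), h₂ g s (hle₂ hs), hp,
    h₂ _ _ (hle₂ (mul_mem hc hs'))]

section Cup

variable {A B C : Rep k G} (β : A →ₗ[k] B →ₗ[k] C)

/-- Equivariance of a bilinear map. -/
def IsEquivariantBilin : Prop :=
  ∀ (g : G) (a : A) (b : B), β (A.ρ g a) (B.ρ g b) = C.ρ g (β a b)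

/-- Cup product of two one-cochains. -/
def cup₁₁ (x : G → A) (y : G → B) : G × G → C := fun p => β (x p.1) (B.ρ p.1 (y p.2))

theorem cup₁₁_apply (x : G → A) (y : G → B) (g h : G) :
    cup₁₁ β x y (g, h) = β (x g) (B.ρ g (y h)) := rfl

variable {β}

theorem cup₁₁_add_left (x x' : G → A) (y : G → B) :
    cup₁₁ β (x + x') y = cup₁₁ β x y + cup₁₁ β x' y := by
  ext p; simp [cup₁₁]

theorem cup₁₁_smul_left (c : k) (x : G → A) (y : G → B) :
    cup₁₁ β (c • x) y = c • cup₁₁ β x y := by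
  ext p; simp [cup₁₁]

theorem cup₁₁_add_right (x : G → A) (y y' : G → B) :
    cup₁₁ β x (y + y') = cup₁₁ β x y + cup₁₁ β x y' := by
  ext p; simp [cup₁₁]

theorem cup₁₁_smul_right (c : k) (x : G → A) (y : G → B) :
    cup₁₁ β x (c • y) = c • cup₁₁ β x y := by
  ext p; simp [cup₁₁]

theorem cup₁₁_mem_cocycles₂ (hβ : IsEquivariantBilin β) {x : G → A} {y : G → B}
    (hx : x ∈ cocycles₁ A) (hy : y ∈ cocycles₁ B) : cup₁₁ β x y ∈ cocycles₂ C := by
  rw [mem_cocycles₁_iff] at hx hy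
  rw [mem_cocycles₂_iff]
  intro g h j
  simp only [cup₁₁_apply]
  rw [← hβ, hx g h, hy h j, map_mul]
  simp only [map_add, LinearMap.add_apply, Module.End.mul_apply]
  abel

theorem isLevelConstant₂_cup₁₁ (hB : IsSmooth r B) {x : G → A} {y : G → B}
    (hx : IsLevelConstant₁ r x) (hy : IsLevelConstant₁ r y) :
    IsLevelConstant₂ r (cup₁₁ β x y) := by
  obtain ⟨F₁, hF₁, h₁⟩ := hB
  obtain ⟨F₂, hF₂, h₂⟩ := hx
  obtain ⟨F₃, hF₃, h₃⟩ := hy
  have := hF₁; have := hF₂; have := hF₃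
  refine ⟨F₁ ⊔ F₂ ⊔ F₃, inferInstance, fun g g' s s' hs hs' => ?_⟩
  simp only [cup₁₁_apply]
  rw [h₂ g s (levelSubgroup_anti r (le_sup_of_le_left le_sup_right) hs),
    h₃ g' s' (levelSubgroup_anti r le_sup_right hs'), map_mul,
    h₁ s (levelSubgroup_anti r (le_sup_of_le_left le_sup_left) hs), mul_one]

theorem cup₁₁_mem_levelCocycles₂ (hβ : IsEquivariantBilin β) (hB : IsSmooth r B)
    {x : G → A} {y : G → B} (hx : x ∈ cocycles₁ A) (hx' : IsLevelConstant₁ r x)
    (hy : y ∈ cocycles₁ B) (hy' : IsLevelConstant₁ r y) :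
    cup₁₁ β x y ∈ levelCocycles₂ r C :=
  ⟨cup₁₁_mem_cocycles₂ hβ hx hy, isLevelConstant₂_cup₁₁ hB hx' hy'⟩

/-- A coboundary times a cocycle is a coboundary. -/
theorem cup₁₁_d₀₁_left (hβ : IsEquivariantBilin β) (a : A) {y : G → B} (hy : y ∈ cocycles₁ B) :
    cup₁₁ β ((d₀₁ A).hom a) y = (d₁₂ C).hom (fun g => β a (y g)) := by
  rw [mem_cocycles₁_iff] at hy
  ext ⟨g, h⟩
  simp only [cup₁₁_apply, d₀₁_hom_apply, d₁₂_hom_apply, map_sub, LinearMap.sub_apply]
  rw [hβ, hy g h]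
  simp only [map_add]
  abel

/-- A cocycle times a coboundary is a coboundary. -/
theorem cup₁₁_d₀₁_right (hβ : IsEquivariantBilin β) {x : G → A} (hx : x ∈ cocycles₁ A) (b : B) :
    cup₁₁ β x ((d₀₁ B).hom b) = (d₁₂ C).hom (fun g => - β (x g) (B.ρ g b)) := by
  rw [mem_cocycles₁_iff] at hx
  ext ⟨g, h⟩
  simp only [cup₁₁_apply, d₀₁_hom_apply, d₁₂_hom_apply, map_sub, map_neg]
  rw [← hβ, hx g h, map_mul]
  simp only [map_add, LinearMap.add_apply, Module.End.mul_apply]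
  abel

/-- Graded commutativity. -/
theorem cup₁₁_flip (hβ : IsEquivariantBilin β) {x : G → A} {y : G → B}
    (hx : x ∈ cocycles₁ A) (hy : y ∈ cocycles₁ B) :
    cup₁₁ β x y + cup₁₁ β.flip y x = (d₁₂ C).hom (fun g => - β (x g) (y g)) := by
  rw [mem_cocycles₁_iff] at hx hy
  ext ⟨g, h⟩
  simp only [Pi.add_apply, cup₁₁_apply, d₁₂_hom_apply, LinearMap.flip_apply, map_neg]
  rw [← hβ, hx g h, hy g h]
  simp only [map_add, LinearMap.add_apply]
  abel

end Cup

section Connecting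

variable {A A' B B' C C' P : Rep k G}
  (ι : A →ₗ[k] B) (π : B →ₗ[k] C) (ι' : C' →ₗ[k] B') (π' : B' →ₗ[k] A')
  (βA : A →ₗ[k] A' →ₗ[k] P) (βB : B →ₗ[k] B' →ₗ[k] P) (βC : C →ₗ[k] C' →ₗ[k] P)

variable {ι π ι' π' βA βB βC}

/-- Compatibility of the connecting maps `H⁰(C) → H¹(A)` and `H¹(A') → H²(C')` with the cup
product: if `ι x = d b` with `π b = c` and `π' yt = y`, `d yt = ι' z`, then
`x ∪ y + c ∪ z` is the coboundary of `g ↦ b ∪ yt(g)`. -/
theorem delta₀₁_compat (hβB : IsEquivariantBilin βB)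
    (hA : ∀ a b', βA a (π' b') = βB (ι a) b') (hC : ∀ b c', βB b (ι' c') = βC (π b) c')
    (hπ' : ∀ (g : G) (b' : B'), π' (B'.ρ g b') = A'.ρ g (π' b'))
    {b : B} {x : G → A} (hx : ∀ g, ι (x g) = (d₀₁ B).hom b g)
    {yt : G → B'} {z : G × G → C'} (hz : ∀ p, ι' (z p) = (d₁₂ B').hom yt p) :
    cup₁₁ βA x (fun g => π' (yt g)) + (fun p => βC (π b) (z p))
      = (d₁₂ P).hom (fun g => βB b (yt g)) := by
  ext ⟨g, h⟩
  simp only [Pi.add_apply, cup₁₁_apply, d₁₂_hom_apply]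
  rw [← hπ', hA, hx, d₀₁_hom_apply, ← hC, hz, d₁₂_hom_apply, map_sub, LinearMap.sub_apply, hβB]
  simp only [map_sub, map_add]
  abel

/-- Compatibility of the connecting maps `H¹(C) → H²(A)` and `H⁰(A') → H¹(C')` with the cup
product. -/
theorem delta₁₀_compat (hβB : IsEquivariantBilin βB)
    (hA : ∀ a b', βA a (π' b') = βB (ι a) b') (hC : ∀ b c', βB b (ι' c') = βC (π b) c')
    (hι' : ∀ (g : G) (c' : C'), ι' (C'.ρ g c') = B'.ρ g (ι' c'))
    (hππ : ∀ a, π (ι a) = 0)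
    {c : G → B} {w : G × G → A} (hw : ∀ p, ι (w p) = (d₁₂ B).hom c p)
    {b' : B'} {u : G → C'} (hu : ∀ g, ι' (u g) = (d₀₁ B').hom b' g) :
    (fun p => βA (w p) (π' b')) - cup₁₁ βC (fun g => π (c g)) u
      = (d₁₂ P).hom (fun g => βB (c g) (B'.ρ g b')) := by
  ext ⟨g, h⟩
  have hkill : βB (ι (w (g, h))) (B'.ρ (g * h) b') = βB (ι (w (g, h))) b' := by
    have h0 : βB (ι (w (g, h))) (ι' (u (g * h))) = 0 := by rw [hC, hππ]; simp
    rw [hu, d₀₁_hom_apply, map_sub, sub_eq_zero] at h0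
    exact h0
  simp only [Pi.sub_apply, cup₁₁_apply, d₁₂_hom_apply]
  rw [hA, ← hkill, hw, d₁₂_hom_apply, ← hC, hι', hu, d₀₁_hom_apply, ← hβB, map_mul]
  simp only [map_sub, map_add, LinearMap.sub_apply, LinearMap.add_apply, Module.End.mul_apply]
  abel

end Connecting

end FLTAgent.LocalDuality
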