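import Fermat.Prelude.Def_GaloisRep_CompletionBridge
import Fermat.Agent.LocalDuality.Cochain
import Mathlib.Analysis.Normed.Field.Approximation
import Mathlib.Analysis.Normed.Field.Krasner
import Mathlib.NumberTheory.Padics.Complex
import Mathlib.FieldTheory.PrimitiveElement

/-!
# Levels versus finite extensions of `ℚ_q`

By Krasner's lemma every finite extension of `ℚ_q` inside `PadicAlgCl q` is generated by algebraic
numbers, so level-constant functions on the local Galois group are the locally constant ones.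
-/

set_option autoImplicit false

noncomputable section

open Polynomial
open scoped IntermediateField

namespace FLTAgent.LocalDuality

variable (q : ℕ) [Fact q.Prime]

/-- The absolute Galois group of `ℚ_q`. -/
abbrev LocalGal : Type := PadicAlgCl q ≃ₐ[ℚ_[q]] PadicAlgCl q

/-- The map from the local to the global Galois group. -/
abbrev toGlobal : LocalGal q →* (AlgebraicClosure ℚ ≃ₐ[ℚ] AlgebraicClosure ℚ) :=
  localGaloisToGlobal q

instance isAlgebraic_algClosureRat : Algebra.IsAlgebraic ℚ (AlgebraicClosure ℚ) :=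
  AlgebraicClosure.isAlgebraic ℚ

instance normal_padicAlgCl : Normal ℚ_[q] (PadicAlgCl q) :=
  IsAlgClosure.normal ℚ_[q] (PadicAlgCl q)

instance isGalois_padicAlgCl : IsGalois ℚ_[q] (PadicAlgCl q) := ⟨⟩

instance isKrasner_padicAlgCl : IsKrasner ℚ_[q] (PadicAlgCl q) :=
  IsKrasner.of_completeSpace_of_normal _ _

/-- Every element of `PadicAlgCl q` lies in the field generated over `ℚ_q` by an algebraic
number. -/
theorem exists_mem_adjoin_padicEmbedding (a : PadicAlgCl q) :
    ∃ b : AlgebraicClosure ℚ, a ∈ ℚ_[q]⟮padicEmbedding q b⟯ := by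
  classical
  have hint : IsIntegral ℚ_[q] a := Algebra.IsIntegral.isIntegral a
  set f := minpoly ℚ_[q] a with hf
  set S : Finset (PadicAlgCl q) := ((f.aroots (PadicAlgCl q)).toFinset).erase a with hS
  obtain ⟨δ, hδ, hδS⟩ : ∃ δ : ℝ, 0 < δ ∧ ∀ a' ∈ S, δ ≤ ‖a - a'‖ := by
    rcases S.eq_empty_or_nonempty with h | h
    · exact ⟨1, one_pos, by simp [h]⟩
    · obtain ⟨a₀, ha₀, hmin⟩ := S.exists_min_image (fun x => ‖a - x‖) h
      exact ⟨‖a - a₀‖, norm_pos_iff.mpr (sub_ne_zero.mpr (Finset.ne_of_mem_erase ha₀).symm), hmin⟩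
  have hdeg : f.natDegree ≠ 0 := (minpoly.natDegree_pos hint).ne'
  set ε : ℝ := (δ / (max ‖a‖ 1)) ^ f.natDegree / (f.natDegree + 1) with hε
  have hεpos : 0 < ε := by positivity
  have hd : DenseRange (algebraMap ℚ ℚ_[q]) := by
    have : (algebraMap ℚ ℚ_[q] : ℚ → ℚ_[q]) = fun r : ℚ => (r : ℚ_[q]) :=
      funext fun r => eq_ratCast _ r
    rw [this]
    exact Padic.denseRange_ratCast q
  obtain ⟨g, gmon, gdeg, gcoeff⟩ :=
    exists_monic_and_natDegree_eq_and_norm_map_algebraMap_coeff_sub_lt hd (minpoly.monic hint)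
      hεpos
  obtain ⟨b, hb, hab⟩ := exists_aroots_norm_sub_lt_of_norm_coeff_sub_lt hεpos
    (minpoly.aeval ℚ_[q] a) (minpoly.monic hint) (gmon.map _)
    (by rw [natDegree_map]; exact gdeg.symm) gcoeff (IsAlgClosed.splits _)
  have hab' : ‖a - b‖ < δ := by
    rw [hε] at hab
    rw [← Real.rpow_natCast, ← mul_comm_div, div_self, one_mul,
      ← Real.rpow_mul (div_pos hδ (by positivity)).le, mul_inv_cancel₀] at hab
    · rwa [Real.rpow_one, div_mul_cancel₀ _ (by positivity : (max ‖a‖ 1) > 0).ne'] at hab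
    · exact_mod_cast hdeg
    · positivity
  have hmem : a ∈ ℚ_[q]⟮b⟯ := by
    refine IsKrasner.krasner (Algebra.IsSeparable.isSeparable ℚ_[q] a) (IsAlgClosed.splits _)
      (Algebra.IsIntegral.isIntegral b) fun a' hconj hne => lt_of_lt_of_le hab' (hδS a' ?_)
    rw [hS, Finset.mem_erase, Multiset.mem_toFinset, Polynomial.mem_aroots]
    exact ⟨hne.symm, minpoly.ne_zero hint, hconj.aeval_eq_zero⟩
  obtain ⟨b₀, rfl⟩ : ∃ b₀, padicEmbedding q b₀ = b := by
    have h0 : (g.map (algebraMap ℚ (PadicAlgCl q))).IsRoot b := by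
      rw [Polynomial.mem_aroots] at hb
      rw [IsRoot.def, eval_map, ← aeval_def]
      have := hb.2
      rwa [aeval_map_algebraMap] at this
    have hsp : (g.map (algebraMap ℚ (AlgebraicClosure ℚ))).Splits := IsAlgClosed.splits _
    have hroots := hsp.roots_map (padicEmbedding q).toRingHom
    have hmap : (g.map (algebraMap ℚ (AlgebraicClosure ℚ))).map (padicEmbedding q).toRingHom
        = g.map (algebraMap ℚ (PadicAlgCl q)) := by
      rw [Polynomial.map_map]
      congr 1
      exact (padicEmbedding q).comp_algebraMap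
    rw [hmap] at hroots
    have hb' : b ∈ (g.map (algebraMap ℚ (PadicAlgCl q))).roots :=
      (mem_roots (Polynomial.map_ne_zero gmon.ne_zero)).mpr h0
    rw [hroots, Multiset.mem_map] at hb'
    obtain ⟨b₀, -, h⟩ := hb'
    exact ⟨b₀, h⟩
  exact ⟨b₀, hmem⟩

/-- The algebraic numbers are dense in `PadicAlgCl q`. -/
theorem denseRange_padicEmbedding : DenseRange (padicEmbedding q) := by
  intro a
  obtain ⟨b, hb⟩ := exists_mem_adjoin_padicEmbedding q a
  set S : Subfield (PadicAlgCl q) := (padicEmbedding q).toRingHom.fieldRange.topologicalClosure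
    with hS
  have hbase : ∀ x : ℚ_[q], algebraMap ℚ_[q] (PadicAlgCl q) x ∈ S := by
    intro x
    have hc : Continuous (algebraMap ℚ_[q] (PadicAlgCl q)) := continuous_algebraMap _ _
    refine map_mem_closure hc (Padic.denseRange_ratCast q x) ?_
    rintro _ ⟨r, rfl⟩
    exact ⟨r, by simp⟩
  show a ∈ closure (Set.range (padicEmbedding q))
  have key : a ∈ S := by
    induction hb using IntermediateField.adjoin_induction with
    | mem x hx =>
      rw [Set.mem_singleton_iff.mp hx]
      exact Subfield.le_topologicalClosure _ ⟨b, rfl⟩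
    | algebraMap x => exact hbase x
    | add x y _ _ hx hy => exact add_mem hx hy
    | inv x _ hx => exact inv_mem hx
    | mul x y _ _ hx hy => exact mul_mem hx hy
  exact key

/-- A level fixing a given finite extension of `ℚ_q`. -/
theorem exists_level_le (E : IntermediateField ℚ_[q] (PadicAlgCl q))
    [FiniteDimensional ℚ_[q] E] :
    ∃ F : IntermediateField ℚ (AlgebraicClosure ℚ), FiniteDimensional ℚ F ∧
      levelSubgroup (toGlobal q) F ≤ E.fixingSubgroup := by
  obtain ⟨a, ha⟩ := Field.exists_primitive_element ℚ_[q] E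
  obtain ⟨b, hb⟩ := exists_mem_adjoin_padicEmbedding q (a : PadicAlgCl q)
  refine ⟨ℚ⟮b⟯, IntermediateField.adjoin.finiteDimensional (Algebra.IsIntegral.isIntegral b),
    fun τ hτ => ?_⟩
  have hfix : τ (padicEmbedding q b) = padicEmbedding q b := by
    rw [← padicEmbedding_localGaloisToGlobal]
    congr 1
    exact (IntermediateField.mem_fixingSubgroup_iff _ _).mp (mem_levelSubgroup _ |>.mp hτ) b
      (IntermediateField.mem_adjoin_simple_self ℚ b)
  have hE : E ≤ ℚ_[q]⟮padicEmbedding q b⟯ := by
    have : ℚ_[q]⟮(a : PadicAlgCl q)⟯ = E := by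
      have := congrArg IntermediateField.lift ha
      rwa [IntermediateField.lift_adjoin_simple, IntermediateField.lift_top] at this
    rw [← this]
    exact IntermediateField.adjoin_simple_le_iff.mpr hb
  refine IntermediateField.fixingSubgroup_antitone hE ?_
  rw [IntermediateField.mem_fixingSubgroup_iff]
  intro x hx
  induction hx using IntermediateField.adjoin_induction with
  | mem x hx => rw [Set.mem_singleton_iff.mp hx, hfix]
  | algebraMap x => exact τ.commutes x
  | add x y _ _ hx hy => rw [map_add, hx, hy]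
  | inv x _ hx => rw [map_inv₀, hx]
  | mul x y _ _ hx hy => rw [map_mul, hx, hy]

/-- A finite extension of `ℚ_q` below a given level. -/
theorem exists_field_le_level (F : IntermediateField ℚ (AlgebraicClosure ℚ))
    [FiniteDimensional ℚ F] :
    ∃ E : IntermediateField ℚ_[q] (PadicAlgCl q), FiniteDimensional ℚ_[q] E ∧
      E.fixingSubgroup ≤ levelSubgroup (toGlobal q) F := by
  obtain ⟨a, ha⟩ := Field.exists_primitive_element ℚ F
  refine ⟨ℚ_[q]⟮padicEmbedding q (a : AlgebraicClosure ℚ)⟯,
    IntermediateField.adjoin.finiteDimensional (Algebra.IsIntegral.isIntegral _), fun τ hτ => ?_⟩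
  have hfix : toGlobal q τ (a : AlgebraicClosure ℚ) = a := by
    refine (padicEmbedding q).toRingHom.injective ?_
    show padicEmbedding q _ = padicEmbedding q _
    rw [padicEmbedding_localGaloisToGlobal]
    exact (IntermediateField.mem_fixingSubgroup_iff _ _).mp hτ _
      (IntermediateField.mem_adjoin_simple_self ℚ_[q] _)
  rw [mem_levelSubgroup, IntermediateField.mem_fixingSubgroup_iff]
  intro x hx
  have key : ∀ y : F,
      y ∈ (⊤ : IntermediateField ℚ F) → toGlobal q τ (y : AlgebraicClosure ℚ) = y := by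
    rw [← ha]
    intro y hy
    induction hy using IntermediateField.adjoin_induction with
    | mem x hx => rw [Set.mem_singleton_iff.mp hx, hfix]
    | algebraMap r => rw [eq_ratCast, SubfieldClass.coe_ratCast, map_ratCast]
    | add x y _ _ hx hy =>
      change toGlobal q τ ((x : AlgebraicClosure ℚ) + y) = (x : AlgebraicClosure ℚ) + y
      rw [map_add, hx, hy]
    | inv x _ hx =>
      change toGlobal q τ (x : AlgebraicClosure ℚ)⁻¹ = (x : AlgebraicClosure ℚ)⁻¹
      rw [map_inv₀, hx]
    | mul x y _ _ hx hy =>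
      change toGlobal q τ ((x : AlgebraicClosure ℚ) * y) = (x : AlgebraicClosure ℚ) * y
      rw [map_mul, hx, hy]
  exact key ⟨x, hx⟩ IntermediateField.mem_top

variable {q}

/-- `j : G → LocalGal q` identifies `G` with the Galois group of `E`. -/
structure IsFieldGroup {G : Type} [Group G] (j : G →* LocalGal q)
    (E : IntermediateField ℚ_[q] (PadicAlgCl q)) : Prop where
  injective : Function.Injective j
  range_eq : j.range = E.fixingSubgroup
  finite : FiniteDimensional ℚ_[q] E

namespace IsFieldGroup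

variable {G : Type} [Group G] {j : G →* LocalGal q}
  {E : IntermediateField ℚ_[q] (PadicAlgCl q)} (h : IsFieldGroup j E)

theorem mem_fixingSubgroup (h : IsFieldGroup j E) (g : G) : j g ∈ E.fixingSubgroup :=
  h.range_eq ▸ ⟨g, rfl⟩

theorem apply_of_mem (h : IsFieldGroup j E) (g : G) {x : PadicAlgCl q} (hx : x ∈ E) :
    j g x = x :=
  (IntermediateField.mem_fixingSubgroup_iff _ _).mp (h.mem_fixingSubgroup g) x hx

theorem mem_of_fixed (h : IsFieldGroup j E) {x : PadicAlgCl q} (hx : ∀ g : G, j g x = x) :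
    x ∈ E := by
  rw [← InfiniteGalois.fixedField_fixingSubgroup E, IntermediateField.mem_fixedField_iff]
  intro τ hτ
  obtain ⟨g, rfl⟩ := h.range_eq ▸ hτ
  exact hx g

theorem exists_eq (h : IsFieldGroup j E) {τ : LocalGal q} (hτ : τ ∈ E.fixingSubgroup) :
    ∃ g, j g = τ := by rw [← h.range_eq] at hτ; exact hτ

/-- The subgroup of `G` fixing an intermediate field. -/
theorem sub (h : IsFieldGroup j E) {E' : IntermediateField ℚ_[q] (PadicAlgCl q)}
    [FiniteDimensional ℚ_[q] E'] (hle : E ≤ E') :
    IsFieldGroup (j.comp (E'.fixingSubgroup.comap j).subtype) E' := by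
  refine ⟨fun a b hab => Subtype.ext (h.injective hab), ?_, inferInstance⟩
  refine le_antisymm ?_ fun τ hτ => ?_
  · rintro _ ⟨g, rfl⟩; exact g.2
  · obtain ⟨g, rfl⟩ := h.exists_eq (IntermediateField.fixingSubgroup_antitone hle hτ)
    exact ⟨⟨g, hτ⟩, rfl⟩

end IsFieldGroup

end FLTAgent.LocalDuality
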