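import Fermat.Agent.LocalDuality.Transfer

/-!
# Level-constant cohomology classes in degrees one and two

Functoriality, cup products, restriction, corestriction, connecting maps and the exactness
properties needed for dévissage, on `continuousH1` and `continuousH2`.
-/

set_option autoImplicit false

noncomputable section

open CategoryTheory groupCohomology

namespace FLTAgent.LocalDuality

variable {k G : Type} [CommRing k] [Group G]
  {r : G →* (AlgebraicClosure ℚ ≃ₐ[ℚ] AlgebraicClosure ℚ)}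

/-- Descend a linear map along a surjective linear map. -/
def descendLin {R V W U : Type*} [Ring R] [AddCommGroup V] [Module R V] [AddCommGroup W]
    [Module R W] [AddCommGroup U] [Module R U] (q : V →ₗ[R] W) (hq : Function.Surjective q)
    (f : V →ₗ[R] U) (h : ∀ v, q v = 0 → f v = 0) : W →ₗ[R] U where
  toFun w := f (Function.surjInv hq w)
  map_add' w w' := by
    rw [← map_add, ← sub_eq_zero, ← map_sub]
    exact h _ (by simp [Function.surjInv_eq])
  map_smul' c w := by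
    rw [RingHom.id_apply, ← map_smul, ← sub_eq_zero, ← map_sub]
    exact h _ (by simp [Function.surjInv_eq])

theorem descendLin_apply {R V W U : Type*} [Ring R] [AddCommGroup V] [Module R V]
    [AddCommGroup W] [Module R W] [AddCommGroup U] [Module R U] (q : V →ₗ[R] W)
    (hq : Function.Surjective q) (f : V →ₗ[R] U) (h : ∀ v, q v = 0 → f v = 0) (v : V) :
    descendLin q hq f h (q v) = f v := by
  show f (Function.surjInv hq (q v)) = f v
  rw [← sub_eq_zero, ← map_sub]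
  exact h _ (by simp [Function.surjInv_eq])

section Classes

variable (r) (A : Rep k G)

/-- The class of a level-constant one-cocycle. -/
def cls₁ : levelCocycles₁ r A →ₗ[k] continuousH1 r A :=
  ((H1π A).hom ∘ₗ (levelCocycles₁ r A).subtype).codRestrict _ fun c =>
    H1π_mem_continuousH1 r A c.2

/-- The class of a level-constant two-cocycle. -/
def cls₂ : levelCocycles₂ r A →ₗ[k] continuousH2 r A := continuousH2π r A

variable {r A}

/-- Bundle a level-constant one-cocycle. -/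
def mkZ₁ (f : G → A) (hf : f ∈ cocycles₁ A) (hf' : IsLevelConstant₁ r f) : levelCocycles₁ r A :=
  ⟨⟨f, hf⟩, hf'⟩

/-- Bundle a level-constant two-cocycle. -/
def mkZ₂ (f : G × G → A) (hf : f ∈ cocycles₂ A) (hf' : IsLevelConstant₂ r f) :
    levelCocycles₂ r A :=
  ⟨f, hf, hf'⟩

/-- Every class comes from a cocycle of finite level. -/
theorem cls₁_surjective : Function.Surjective (cls₁ r A) := by
  rintro ⟨x, hx⟩
  obtain ⟨c, hc, rfl⟩ := (mem_continuousH1_iff r A x).1 hx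
  exact ⟨⟨c, hc⟩, rfl⟩

theorem cls₂_surjective : Function.Surjective (cls₂ r A) := Submodule.mkQ_surjective _

theorem cls₁_eq_zero_iff {c : levelCocycles₁ r A} :
    cls₁ r A c = 0 ↔ ∃ a : A, (d₀₁ A).hom a = (c.1 : G → A) := by
  refine Subtype.ext_iff.trans ?_
  exact (H1π_eq_zero_iff c.1).trans Iff.rfl

theorem cls₁_eq_iff {c c' : levelCocycles₁ r A} :
    cls₁ r A c = cls₁ r A c' ↔ ∃ a : A, (d₀₁ A).hom a = (c.1 : G → A) - (c'.1 : G → A) := by
  rw [← sub_eq_zero, ← map_sub, cls₁_eq_zero_iff]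
  rfl

theorem cls₂_eq_zero_iff {c : levelCocycles₂ r A} :
    cls₂ r A c = 0 ↔ ∃ f : G → A, IsLevelConstant₁ r f ∧ (d₁₂ A).hom f = (c : G × G → A) :=
  (continuousH2π_eq_zero_iff r A c).trans (mem_levelCoboundaries₂_iff r A _)

theorem cls₂_eq_iff {c c' : levelCocycles₂ r A} :
    cls₂ r A c = cls₂ r A c' ↔ ∃ f : G → A, IsLevelConstant₁ r f ∧
      (d₁₂ A).hom f = (c : G × G → A) - (c' : G × G → A) := by
  rw [← sub_eq_zero, ← map_sub, cls₂_eq_zero_iff]
  rfl

theorem zc (c : levelCocycles₁ r A) : (c.1 : G → A) ∈ cocycles₁ A := c.1.2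

theorem zl (c : levelCocycles₁ r A) : IsLevelConstant₁ r (c.1 : G → A) := c.2

theorem cocycles₁_comp {B : Rep k G} (φ : A →ₗ[k] B)
    (hφ : ∀ (g : G) (a : A), φ (A.ρ g a) = B.ρ g (φ a)) {f : G → A} (hf : f ∈ cocycles₁ A) :
    φ ∘ f ∈ cocycles₁ B := by
  rw [mem_cocycles₁_iff] at hf ⊢
  intro g h
  simp [hf g h, hφ]

theorem cocycles₂_comp {B : Rep k G} (φ : A →ₗ[k] B)
    (hφ : ∀ (g : G) (a : A), φ (A.ρ g a) = B.ρ g (φ a)) {f : G × G → A} (hf : f ∈ cocycles₂ A) :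
    φ ∘ f ∈ cocycles₂ B := by
  rw [mem_cocycles₂_iff] at hf ⊢
  intro g h j
  simp only [Function.comp_apply, ← map_add, hf g h j, ← hφ]

theorem d₀₁_comp {B : Rep k G} (φ : A →ₗ[k] B)
    (hφ : ∀ (g : G) (a : A), φ (A.ρ g a) = B.ρ g (φ a)) (a : A) :
    φ ∘ (d₀₁ A).hom a = (d₀₁ B).hom (φ a) := by
  funext g; simp [d₀₁_hom_apply, hφ]

theorem d₁₂_comp {B : Rep k G} (φ : A →ₗ[k] B)
    (hφ : ∀ (g : G) (a : A), φ (A.ρ g a) = B.ρ g (φ a)) (f : G → A) :
    φ ∘ (d₁₂ A).hom f = (d₁₂ B).hom (φ ∘ f) := by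
  funext p; simp [d₁₂_hom_apply, hφ]

end Classes

section Map

variable {A B : Rep k G} (φ : A →ₗ[k] B) (hφ : ∀ (g : G) (a : A), φ (A.ρ g a) = B.ρ g (φ a))

variable (r) in
/-- Functoriality of level-constant one-cocycles in the module. -/
def mapZ₁ : levelCocycles₁ r A →ₗ[k] levelCocycles₁ r B where
  toFun c := mkZ₁ (φ ∘ (c.1 : G → A)) (cocycles₁_comp φ hφ (zc c)) (IsLevelConstant₁.comp (zl c) φ)
  map_add' _ _ := Subtype.ext (Subtype.ext (funext fun _ => map_add φ _ _))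
  map_smul' _ _ := Subtype.ext (Subtype.ext (funext fun _ => map_smul φ _ _))

variable (r) in
/-- Functoriality of `continuousH1` in the module. -/
def mapH₁ : continuousH1 r A →ₗ[k] continuousH1 r B :=
  descendLin (V := levelCocycles₁ r A) (W := continuousH1 r A) (cls₁ r A) cls₁_surjective
    (cls₁ r B ∘ₗ mapZ₁ r φ hφ) fun c hc => by
    obtain ⟨a, ha⟩ := cls₁_eq_zero_iff.1 hc
    rw [LinearMap.comp_apply, cls₁_eq_zero_iff]
    exact ⟨φ a, by rw [← d₀₁_comp φ hφ, ha]; rfl⟩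

theorem mapH₁_cls (c : levelCocycles₁ r A) :
    mapH₁ r φ hφ (cls₁ r A c) = cls₁ r B (mapZ₁ r φ hφ c) :=
  descendLin_apply (V := levelCocycles₁ r A) (W := continuousH1 r A) (cls₁ r A) _ _ _ c

variable (r) in
/-- Functoriality of `continuousH2` in the module. -/
def mapH₂ : continuousH2 r A →ₗ[k] continuousH2 r B :=
  continuousH2Map (rH := r) (rG := r) (MonoidHom.id G) (fun _ => rfl) φ fun g a => hφ g a

theorem mapH₂_cls (c : levelCocycles₂ r A) :
    mapH₂ r φ hφ (cls₂ r A c)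
      = cls₂ r B (mkZ₂ (φ ∘ (c : G × G → A)) (cocycles₂_comp φ hφ c.2.1) (c.2.2.comp φ)) :=
  rfl

end Map

section Cup

variable {A B C : Rep k G} {β : A →ₗ[k] B →ₗ[k] C}
  (hβ : IsEquivariantBilin β) (hB : IsSmooth r B)

/-- Cup product of level-constant one-cocycles, as a class. -/
def cupZ (x : levelCocycles₁ r A) (y : levelCocycles₁ r B) : continuousH2 r C :=
  cls₂ r C ⟨cup₁₁ β (x.1 : G → A) (y.1 : G → B),
    cup₁₁_mem_levelCocycles₂ hβ hB (zc x) x.2 (zc y) y.2⟩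

theorem cupZ_add_left (x x' : levelCocycles₁ r A) (y : levelCocycles₁ r B) :
    cupZ hβ hB (x + x') y = cupZ hβ hB x y + cupZ hβ hB x' y := by
  rw [cupZ, cupZ, cupZ, ← map_add]
  congr 1
  exact Subtype.ext (cup₁₁_add_left (x.1 : G → A) x'.1 y.1)

theorem cupZ_smul_left (c : k) (x : levelCocycles₁ r A) (y : levelCocycles₁ r B) :
    cupZ hβ hB (c • x) y = c • cupZ hβ hB x y := by
  rw [cupZ, cupZ, ← map_smul]
  congr 1
  exact Subtype.ext (cup₁₁_smul_left c (x.1 : G → A) y.1)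

theorem cupZ_add_right (x : levelCocycles₁ r A) (y y' : levelCocycles₁ r B) :
    cupZ hβ hB x (y + y') = cupZ hβ hB x y + cupZ hβ hB x y' := by
  rw [cupZ, cupZ, cupZ, ← map_add]
  congr 1
  exact Subtype.ext (cup₁₁_add_right (x.1 : G → A) y.1 y'.1)

theorem cupZ_smul_right (c : k) (x : levelCocycles₁ r A) (y : levelCocycles₁ r B) :
    cupZ hβ hB x (c • y) = c • cupZ hβ hB x y := by
  rw [cupZ, cupZ, ← map_smul]
  congr 1
  exact Subtype.ext (cup₁₁_smul_right c (x.1 : G → A) y.1)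

theorem cupZ_congr {x x' : levelCocycles₁ r A} {y y' : levelCocycles₁ r B}
    (hx : cls₁ r A x = cls₁ r A x') (hy : cls₁ r B y = cls₁ r B y') :
    cupZ hβ hB x y = cupZ hβ hB x' y' := by
  obtain ⟨a, ha⟩ := cls₁_eq_iff.1 hx
  obtain ⟨b, hb⟩ := cls₁_eq_iff.1 hy
  rw [cupZ, cupZ, cls₂_eq_iff]
  refine ⟨(fun g => β a ((y.1 : G → B) g)) + fun g => - β ((x'.1 : G → A) g) (B.ρ g b), ?_, ?_⟩
  · refine IsLevelConstant₁.add (IsLevelConstant₁.comp (zl y) (β a)) ?_
    obtain ⟨F₁, hF₁, h₁⟩ := hB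
    obtain ⟨F₂, hF₂, h₂⟩ : IsLevelConstant₁ r (x'.1 : G → A) := x'.2
    have := hF₁; have := hF₂
    refine ⟨F₁ ⊔ F₂, inferInstance, fun g s hs => ?_⟩
    simp only [h₂ g s (levelSubgroup_anti r le_sup_right hs), map_mul,
      h₁ s (levelSubgroup_anti r le_sup_left hs), mul_one]
  · rw [map_add]
    refine (congrArg₂ (· + ·) (cup₁₁_d₀₁_left hβ a (zc y)).symm
      (cup₁₁_d₀₁_right hβ (zc x') b).symm).trans ?_
    rw [ha, hb]
    funext p
    simp only [Pi.add_apply, Pi.sub_apply, cup₁₁, map_sub, LinearMap.sub_apply]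
    abel

variable (r) in
/-- The cup product on level-constant classes in degree `(1,1)`. -/
def cup : continuousH1 r A →ₗ[k] continuousH1 r B →ₗ[k] continuousH2 r C :=
  LinearMap.mk₂ k
    (fun x y => cupZ hβ hB (Function.surjInv cls₁_surjective x)
      (Function.surjInv cls₁_surjective y))
    (fun x x' y => by
      rw [← cupZ_add_left]
      exact cupZ_congr hβ hB (by simp [map_add, Function.surjInv_eq]) rfl)
    (fun c x y => by
      rw [← cupZ_smul_left]
      exact cupZ_congr hβ hB (by simp [map_smul, Function.surjInv_eq]) rfl)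
    (fun x y y' => by
      rw [← cupZ_add_right]
      exact cupZ_congr hβ hB rfl (by simp [map_add, Function.surjInv_eq]))
    (fun c x y => by
      rw [← cupZ_smul_right]
      exact cupZ_congr hβ hB rfl (by simp [map_smul, Function.surjInv_eq]))

theorem cup_cls (x : levelCocycles₁ r A) (y : levelCocycles₁ r B) :
    cup r hβ hB (cls₁ r A x) (cls₁ r B y) = cupZ hβ hB x y :=
  cupZ_congr hβ hB (Function.surjInv_eq _ _) (Function.surjInv_eq _ _)

theorem cup_flip (hA : IsSmooth r A) (hβ' : IsEquivariantBilin β.flip)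
    (x : continuousH1 r A) (y : continuousH1 r B) :
    cup r hβ' hA y x = - cup r hβ hB x y := by
  obtain ⟨x, rfl⟩ := cls₁_surjective x
  obtain ⟨y, rfl⟩ := cls₁_surjective y
  rw [cup_cls, cup_cls, cupZ, cupZ, ← map_neg, cls₂_eq_iff]
  obtain ⟨F₁, hF₁, h₁⟩ : IsLevelConstant₁ r (x.1 : G → A) := x.2
  obtain ⟨F₂, hF₂, h₂⟩ : IsLevelConstant₁ r (y.1 : G → B) := y.2
  have := hF₁; have := hF₂
  refine ⟨fun g => - β ((x.1 : G → A) g) ((y.1 : G → B) g),
    ⟨F₁ ⊔ F₂, inferInstance, fun g s hs => ?_⟩, ?_⟩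
  · simp only [h₁ g s (levelSubgroup_anti r le_sup_left hs),
      h₂ g s (levelSubgroup_anti r le_sup_right hs)]
  · refine (cup₁₁_flip hβ (zc x) (zc y)).symm.trans ?_
    show _ = _ - -_
    rw [sub_neg_eq_add, add_comm]

end Cup

section Naturality

variable {A A' B B' P : Rep k G} {βA : A →ₗ[k] A' →ₗ[k] P} {βB : B →ₗ[k] B' →ₗ[k] P}

theorem cup_adjoint (hA : IsEquivariantBilin βA) (hA' : IsSmooth r A')
    (hB : IsEquivariantBilin βB) (hB' : IsSmooth r B')
    (φ : A →ₗ[k] B) (hφ : ∀ (g : G) (a : A), φ (A.ρ g a) = B.ρ g (φ a))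
    (ψ : B' →ₗ[k] A') (hψ : ∀ (g : G) (b : B'), ψ (B'.ρ g b) = A'.ρ g (ψ b))
    (hadj : ∀ a b', βA a (ψ b') = βB (φ a) b')
    (x : continuousH1 r A) (y : continuousH1 r B') :
    cup r hA hA' x (mapH₁ r ψ hψ y) = cup r hB hB' (mapH₁ r φ hφ x) y := by
  obtain ⟨x, rfl⟩ := cls₁_surjective x
  obtain ⟨y, rfl⟩ := cls₁_surjective y
  rw [mapH₁_cls, mapH₁_cls, cup_cls, cup_cls, cupZ, cupZ]
  congr 1
  refine Subtype.ext (funext fun p => ?_)
  show βA ((x.1 : G → A) p.1) (A'.ρ p.1 (ψ ((y.1 : G → B') p.2)))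
    = βB (φ ((x.1 : G → A) p.1)) (B'.ρ p.1 ((y.1 : G → B') p.2))
  rw [← hψ, hadj]

end Naturality

section ResCor

variable (H : Subgroup G) {A : Rep k G}

theorem isSmooth_res (hA : IsSmooth r A) :
    IsSmooth (r.comp H.subtype) (Rep.res H.subtype A) := by
  obtain ⟨F, hF, h⟩ := hA
  exact ⟨F, hF, fun s hs => h s hs⟩

variable (r A) in
/-- Restriction of level-constant one-cocycles. -/
def resZ₁ : levelCocycles₁ r A →ₗ[k]
    levelCocycles₁ (r.comp H.subtype) (Rep.res H.subtype A) where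
  toFun c := mkZ₁ (fun h : H => (c.1 : G → A) (h : G))
    ((mem_cocycles₁_iff (A := Rep.res H.subtype A) _).2 fun g h =>
      (mem_cocycles₁_iff _).1 (zc c) g h)
    (IsLevelConstant₁.precomp (rH := r) H.subtype (fun _ => rfl) c.2)
  map_add' _ _ := rfl
  map_smul' _ _ := rfl

variable (r A) in
/-- Restriction on `continuousH1`. -/
def resH₁ : continuousH1 r A →ₗ[k]
    continuousH1 (r.comp H.subtype) (Rep.res H.subtype A) :=
  descendLin (V := levelCocycles₁ r A) (W := continuousH1 r A) (cls₁ r A) cls₁_surjective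
    (cls₁ _ _ ∘ₗ resZ₁ r H A) fun c hc => by
    obtain ⟨a, ha⟩ := cls₁_eq_zero_iff.1 hc
    rw [LinearMap.comp_apply, cls₁_eq_zero_iff]
    exact ⟨a, funext fun h => congrFun ha (h : G)⟩

theorem resH₁_cls (c : levelCocycles₁ r A) :
    resH₁ r H A (cls₁ r A c) = cls₁ _ _ (resZ₁ r H A c) :=
  descendLin_apply (V := levelCocycles₁ r A) (W := continuousH1 r A) (cls₁ r A) _ _ _ c

variable (r A) in
/-- Restriction on `continuousH2`. -/
def resH₂ : continuousH2 r A →ₗ[k]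
    continuousH2 (r.comp H.subtype) (Rep.res H.subtype A) :=
  continuousH2Map (rH := r) (rG := r.comp H.subtype) H.subtype (fun _ => rfl)
    (LinearMap.id : A →ₗ[k] Rep.res H.subtype A) (fun _ _ => rfl)

theorem resH₂_cls (c : levelCocycles₂ r A) :
    resH₂ r H A (cls₂ r A c) = cls₂ (r.comp H.subtype) (Rep.res H.subtype A)
      (mkZ₂ (fun p => (c : G × G → A) ((p.1 : G), (p.2 : G)))
        ((mem_cocycles₂_iff (A := Rep.res H.subtype A) _).2 fun g h j =>
          (mem_cocycles₂_iff _).1 c.2.1 g h j)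
        (IsLevelConstant₂.precomp (rH := r) H.subtype (fun _ => rfl) c.2.2)) :=
  rfl

variable [Fintype (G ⧸ H)]
  (hH : ∃ F : IntermediateField ℚ (AlgebraicClosure ℚ),
    FiniteDimensional ℚ F ∧ levelSubgroup r F ≤ H)

variable (A) in
/-- Corestriction of level-constant one-cocycles. -/
def corZ₁ : levelCocycles₁ (r.comp H.subtype) (Rep.res H.subtype A) →ₗ[k] levelCocycles₁ r A where
  toFun c := mkZ₁ (cor₁ H A (c.1 : H → A)) (cor₁_mem_cocycles₁ (zc c))
    (isLevelConstant₁_cor₁ hH c.2)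
  map_add' _ _ := Subtype.ext (Subtype.ext (map_add (cor₁ H A) _ _))
  map_smul' _ _ := Subtype.ext (Subtype.ext (map_smul (cor₁ H A) _ _))

variable (A) in
/-- Corestriction on `continuousH1`. -/
def corH₁ : continuousH1 (r.comp H.subtype) (Rep.res H.subtype A) →ₗ[k] continuousH1 r A :=
  descendLin (V := levelCocycles₁ (r.comp H.subtype) (Rep.res H.subtype A))
    (W := continuousH1 (r.comp H.subtype) (Rep.res H.subtype A))
    (cls₁ (r.comp H.subtype) (Rep.res H.subtype A)) cls₁_surjective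
    (cls₁ r A ∘ₗ corZ₁ H A hH) fun c hc => by
    obtain ⟨a, ha⟩ := cls₁_eq_zero_iff.1 hc
    rw [LinearMap.comp_apply, cls₁_eq_zero_iff]
    exact ⟨cor₀ H A a, by rw [← cor₁_d₀₁, ha]; rfl⟩

theorem corH₁_cls (c : levelCocycles₁ (r.comp H.subtype) (Rep.res H.subtype A)) :
    corH₁ H A hH (cls₁ _ _ c) = cls₁ r A (corZ₁ H A hH c) :=
  descendLin_apply (V := levelCocycles₁ (r.comp H.subtype) (Rep.res H.subtype A))
    (W := continuousH1 (r.comp H.subtype) (Rep.res H.subtype A))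
    (cls₁ (r.comp H.subtype) (Rep.res H.subtype A)) _ _ _ c

variable (A) in
/-- Corestriction of level-constant two-cocycles. -/
def corZ₂ : levelCocycles₂ (r.comp H.subtype) (Rep.res H.subtype A) →ₗ[k] levelCocycles₂ r A where
  toFun c := mkZ₂ (cor₂ H A (c : H × H → A)) (cor₂_mem_cocycles₂ c.2.1)
    (isLevelConstant₂_cor₂ hH c.2.2)
  map_add' _ _ := Subtype.ext (map_add (cor₂ H A) _ _)
  map_smul' _ _ := Subtype.ext (map_smul (cor₂ H A) _ _)

variable (A) in
/-- Corestriction on `continuousH2`. -/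
def corH₂ : continuousH2 (r.comp H.subtype) (Rep.res H.subtype A) →ₗ[k] continuousH2 r A :=
  Submodule.mapQ _ _ (corZ₂ H A hH) fun c hc => by
    obtain ⟨f, hf, hfc⟩ := (mem_levelCoboundaries₂_iff _ _ _).1 hc
    refine (mem_levelCoboundaries₂_iff _ _ _).2 ⟨cor₁ H A f, isLevelConstant₁_cor₁ hH hf, ?_⟩
    exact (cor₂_d₁₂ f).symm.trans (congrArg (cor₂ H A) hfc)

theorem corH₂_cls (c : levelCocycles₂ (r.comp H.subtype) (Rep.res H.subtype A)) :
    corH₂ H A hH (cls₂ _ _ c) = cls₂ r A (corZ₂ H A hH c) := rfl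

theorem corH₁_resH₁ (x : continuousH1 r A) :
    corH₁ H A hH (resH₁ r H A x) = H.index • x := by
  obtain ⟨c, rfl⟩ := cls₁_surjective x
  rw [resH₁_cls, corH₁_cls, ← map_nsmul, cls₁_eq_iff]
  refine ⟨∑ x : G ⧸ H, (c.1 : G → A) x.out, ?_⟩
  show _ = cor₁ H A (fun h : H => (c.1 : G → A) (h : G)) - H.index • (c.1 : G → A)
  rw [cor₁_res (zc c), add_sub_cancel_left]

theorem isLevelConstant₁_corResCochain {z : G × G → A} (hz : IsLevelConstant₂ r z)
    (hH : ∃ F : IntermediateField ℚ (AlgebraicClosure ℚ),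
      FiniteDimensional ℚ F ∧ levelSubgroup r F ≤ H) :
    IsLevelConstant₁ r (corResCochain (H := H) z) := by
  obtain ⟨F₁, hF₁, h₁⟩ := hH
  obtain ⟨F₂, hF₂, h₂⟩ := hz
  obtain ⟨E, hE, hn, hle₁, hle₂⟩ := exists_normal_sup (r := r) hF₁ hF₂
  refine ⟨E, hE, fun g s hs => ?_⟩
  refine Finset.sum_congr rfl fun x _ => ?_
  obtain ⟨hfix, t, ht, he⟩ := cosetShift_mul_of_mem (N := levelSubgroup r E) (hle₁.trans h₁)
    g (s := s) hs x
  rw [mul_smul, hfix, he, Subgroup.coe_mul]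
  congr 1
  · simpa using h₂ g x.out s 1 (hle₂ hs) (hle₂ (one_mem _))
  · simpa using h₂ (g • x).out (cosetShift H g x : G) 1 (t : G) (hle₂ (one_mem _)) (hle₂ ht)

theorem corH₂_resH₂ (x : continuousH2 r A) :
    corH₂ H A hH (resH₂ r H A x) = H.index • x := by
  obtain ⟨c, rfl⟩ := cls₂_surjective x
  rw [resH₂_cls, corH₂_cls, ← map_nsmul, cls₂_eq_iff]
  refine ⟨- corResCochain (H := H) (c : G × G → A),
    (isLevelConstant₁_corResCochain H c.2.2 hH).comp Neg.neg, ?_⟩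
  show _ = cor₂ H A (fun p => (c : G × G → A) ((p.1 : G), (p.2 : G))) - H.index • (c : G × G → A)
  rw [← cor₂_res c.2.1, map_neg]
  abel

theorem resH₁_injective (hH : ∃ F : IntermediateField ℚ (AlgebraicClosure ℚ),
      FiniteDimensional ℚ F ∧ levelSubgroup r F ≤ H)
    (hu : IsUnit (H.index : k)) : Function.Injective (resH₁ r H A) := by
  rw [injective_iff_map_eq_zero]
  intro x hx
  have h := corH₁_resH₁ H hH x
  rw [hx, map_zero, ← Nat.cast_smul_eq_nsmul k] at h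
  exact (hu.smul_eq_zero).1 h.symm

theorem resH₂_injective (hH : ∃ F : IntermediateField ℚ (AlgebraicClosure ℚ),
      FiniteDimensional ℚ F ∧ levelSubgroup r F ≤ H)
    (hu : IsUnit (H.index : k)) : Function.Injective (resH₂ r H A) := by
  rw [injective_iff_map_eq_zero]
  intro x hx
  have h := corH₂_resH₂ H hH x
  rw [hx, map_zero, ← Nat.cast_smul_eq_nsmul k] at h
  exact (hu.smul_eq_zero).1 h.symm

variable {B C : Rep k G} {β : A →ₗ[k] B →ₗ[k] C}

omit [Fintype (G ⧸ H)] in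
/-- Restriction of an equivariant bilinear map. -/
theorem isEquivariantBilin_res (hβ : IsEquivariantBilin β) :
    IsEquivariantBilin (A := Rep.res H.subtype A) (B := Rep.res H.subtype B)
      (C := Rep.res H.subtype C) β := fun g a b => hβ (g : G) a b

/-- The projection formula on classes. -/
theorem corH₂_cup (hβ : IsEquivariantBilin β) (hB : IsSmooth r B)
    (x : continuousH1 r A) (y : continuousH1 (r.comp H.subtype) (Rep.res H.subtype B)) :
    corH₂ H C hH (cup (r.comp H.subtype) (A := Rep.res H.subtype A) (B := Rep.res H.subtype B)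
        (C := Rep.res H.subtype C) (isEquivariantBilin_res H hβ) (isSmooth_res H hB)
        (resH₁ r H A x) y)
      = cup r hβ hB x (corH₁ H B hH y) := by
  obtain ⟨x, rfl⟩ := cls₁_surjective x
  obtain ⟨y, rfl⟩ := cls₁_surjective y
  rw [resH₁_cls, cup_cls, corH₁_cls, cup_cls, cupZ, cupZ, corH₂_cls, cls₂_eq_iff]
  refine ⟨projectionCochain β (x.1 : G → A) (y.1 : H → B), ?_, ?_⟩
  · obtain ⟨F₀, hF₀, h₀⟩ := hH
    obtain ⟨F₁, hF₁, h₁⟩ := (zl x)
    obtain ⟨F₂, hF₂, h₂⟩ := (zl y)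
    have := hF₁; have := hF₂
    obtain ⟨E, hE, hn, hle₀, hle⟩ := exists_normal_sup (r := r) (F' := F₁ ⊔ F₂) hF₀ inferInstance
    refine ⟨E, hE, fun g s hs => Finset.sum_congr rfl fun z _ => ?_⟩
    obtain ⟨hfix, t, ht, he⟩ := cosetShift_mul_of_mem (N := levelSubgroup r E) (hle₀.trans h₀)
      g (s := s) hs z
    rw [mul_smul, hfix, he, h₂ _ t (levelSubgroup_anti r le_sup_right (hle ht))]
  · show _ = cor₂ H C (cup₁₁ (A := Rep.res H.subtype A) (B := Rep.res H.subtype B)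
      (C := Rep.res H.subtype C) β (fun h : H => (x.1 : G → A) (h : G)) (y.1 : H → B))
        - cup₁₁ β (x.1 : G → A) (cor₁ H B (y.1 : H → B))
    rw [cor₂_cup₁₁ hβ (zc x) (zc y), add_sub_cancel_left]

end ResCor

/-- A short exact sequence of smooth representations. -/
structure SmoothSES (r : G →* (AlgebraicClosure ℚ ≃ₐ[ℚ] AlgebraicClosure ℚ))
    (A B C : Rep k G) where
  /-- the inclusion -/
  ι : A →ₗ[k] B
  /-- the projection -/
  π : B →ₗ[k] C
  ι_equiv : ∀ (g : G) (a : A), ι (A.ρ g a) = B.ρ g (ι a)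
  π_equiv : ∀ (g : G) (b : B), π (B.ρ g b) = C.ρ g (π b)
  ι_injective : Function.Injective ι
  π_surjective : Function.Surjective π
  exact : ∀ b, π b = 0 ↔ ∃ a, ι a = b
  smooth : IsSmooth r B

namespace SmoothSES

variable {A B C : Rep k G} (E : SmoothSES r A B C)

theorem π_ι (a : A) : E.π (E.ι a) = 0 := (E.exact _).2 ⟨a, rfl⟩

/-- Preimage under the inclusion. -/
def pre (b : B) : A := Function.invFun E.ι b

theorem ι_pre {b : B} (h : E.π b = 0) : E.ι (E.pre b) = b := by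
  obtain ⟨a, ha⟩ := (E.exact b).1 h
  exact Function.invFun_eq ⟨a, ha⟩

theorem pre_ι (a : A) : E.pre (E.ι a) = a := Function.leftInverse_invFun E.ι_injective a

/-- A section of the projection. -/
def sec (c : C) : B := Function.surjInv E.π_surjective c

theorem π_sec (c : C) : E.π (E.sec c) = c := Function.surjInv_eq _ _

theorem cocycle_of_ι {f : G → A} (h : E.ι ∘ f ∈ cocycles₁ B) : f ∈ cocycles₁ A := by
  rw [mem_cocycles₁_iff] at h ⊢
  intro g g'
  apply E.ι_injective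
  simpa [E.ι_equiv] using h g g'

theorem cocycle₂_of_ι {f : G × G → A} (h : E.ι ∘ f ∈ cocycles₂ B) : f ∈ cocycles₂ A := by
  rw [mem_cocycles₂_iff] at h ⊢
  intro g g' j
  apply E.ι_injective
  simpa [E.ι_equiv] using h g g' j

theorem delta₀_pre {c : C} (hc : c ∈ C.ρ.invariants) {b : B} (hb : E.π b = c) (g : G) :
    E.ι (E.pre ((d₀₁ B).hom b g)) = (d₀₁ B).hom b g :=
  E.ι_pre (by rw [d₀₁_hom_apply, map_sub, E.π_equiv, hb, hc g, sub_self])

/-- The cocycle representing the connecting image of an invariant. -/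
def delta₀Z {c : C} (hc : c ∈ C.ρ.invariants) {b : B} (hb : E.π b = c) : levelCocycles₁ r A :=
  mkZ₁ (fun g => E.pre ((d₀₁ B).hom b g))
    (E.cocycle_of_ι (by
      have : E.ι ∘ (fun g => E.pre ((d₀₁ B).hom b g)) = (d₀₁ B).hom b :=
        funext fun g => E.delta₀_pre hc hb g
      rw [this]; exact d₀₁_mem_cocycles₁ b))
    ((isLevelConstant₁_d₀₁ E.smooth b).comp E.pre)

theorem delta₀Z_congr {c : C} (hc : c ∈ C.ρ.invariants) {b b' : B} (hb : E.π b = c)
    (hb' : E.π b' = c) : cls₁ r A (E.delta₀Z hc hb) = cls₁ r A (E.delta₀Z hc hb') := by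
  rw [cls₁_eq_iff]
  obtain ⟨a, ha⟩ := (E.exact (b - b')).1 (by rw [map_sub, hb, hb', sub_self])
  refine ⟨a, funext fun g => E.ι_injective ?_⟩
  show E.ι ((d₀₁ A).hom a g)
    = E.ι (E.pre ((d₀₁ B).hom b g) - E.pre ((d₀₁ B).hom b' g))
  rw [map_sub, E.delta₀_pre hc hb, E.delta₀_pre hc hb', d₀₁_hom_apply, d₀₁_hom_apply,
    d₀₁_hom_apply, map_sub, E.ι_equiv, ha, map_sub]
  abel

/-- The connecting map `C^G → H¹(A)`. -/
def delta₀ : C.ρ.invariants →ₗ[k] continuousH1 r A where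
  toFun c := cls₁ r A (E.delta₀Z c.2 (E.π_sec c.1))
  map_add' c c' := by
    rw [← map_add]
    refine (E.delta₀Z_congr (b' := E.sec c.1 + E.sec c'.1) (c + c').2 _
      (by rw [map_add, E.π_sec, E.π_sec]; rfl)).trans ?_
    congr 1
    refine Subtype.ext (Subtype.ext (funext fun g => E.ι_injective ?_))
    show E.ι (E.pre _) = E.ι (E.pre _ + E.pre _)
    rw [map_add E.ι, E.delta₀_pre (c + c').2 (by rw [map_add, E.π_sec, E.π_sec]; rfl),
      E.delta₀_pre c.2 (E.π_sec c.1), E.delta₀_pre c'.2 (E.π_sec c'.1), map_add]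
    rfl
  map_smul' a c := by
    rw [RingHom.id_apply, ← map_smul]
    refine (E.delta₀Z_congr (b' := a • E.sec c.1) (a • c).2 _
      (by rw [map_smul, E.π_sec]; rfl)).trans ?_
    congr 1
    refine Subtype.ext (Subtype.ext (funext fun g => E.ι_injective ?_))
    show E.ι (E.pre _) = E.ι (a • E.pre _)
    rw [map_smul E.ι, E.delta₀_pre (a • c).2 (by rw [map_smul, E.π_sec]; rfl),
      E.delta₀_pre c.2 (E.π_sec c.1), map_smul]
    rfl

theorem delta₁_pre {y : G → C} (hy : y ∈ cocycles₁ C) {yt : G → B} (hyt : ∀ g, E.π (yt g) = y g)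
    (p : G × G) : E.ι (E.pre ((d₁₂ B).hom yt p)) = (d₁₂ B).hom yt p := by
  obtain ⟨g, h⟩ := p
  refine E.ι_pre ?_
  rw [d₁₂_hom_apply]
  simp only [map_add, map_sub, E.π_equiv, hyt]
  exact (mem_cocycles₁_def y).1 hy g h

/-- The cocycle representing the connecting image of a one-cocycle. -/
def delta₁Z {y : G → C} (hy : y ∈ cocycles₁ C) {yt : G → B} (hyt : ∀ g, E.π (yt g) = y g)
    (hlev : IsLevelConstant₁ r yt) : levelCocycles₂ r A :=
  mkZ₂ (fun p => E.pre ((d₁₂ B).hom yt p))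
    (E.cocycle₂_of_ι (by
      have : E.ι ∘ (fun p => E.pre ((d₁₂ B).hom yt p)) = (d₁₂ B).hom yt :=
        funext fun p => E.delta₁_pre hy hyt p
      rw [this]; exact d₁₂_apply_mem_cocycles₂ yt))
    ((isLevelConstant₂_d₁₂ E.smooth hlev).comp E.pre)

theorem smooth_left (E : SmoothSES r A B C) : IsSmooth r A := by
  obtain ⟨F, hF, h⟩ := E.smooth
  refine ⟨F, hF, fun s hs => LinearMap.ext fun a => E.ι_injective ?_⟩
  rw [E.ι_equiv, h s hs]; rfl

theorem delta₁Z_congr {y y' : G → C} (hy : y ∈ cocycles₁ C) (hy' : y' ∈ cocycles₁ C)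
    {yt yt' : G → B} (hyt : ∀ g, E.π (yt g) = y g) (hyt' : ∀ g, E.π (yt' g) = y' g)
    (hlev : IsLevelConstant₁ r yt) (hlev' : IsLevelConstant₁ r yt') {c : C}
    (hc : (d₀₁ C).hom c = y - y') :
    cls₂ r A (E.delta₁Z hy hyt hlev) = cls₂ r A (E.delta₁Z hy' hyt' hlev') := by
  rw [cls₂_eq_iff]
  have hw : ∀ g, E.π (yt g - yt' g - (d₀₁ B).hom (E.sec c) g) = 0 := fun g => by
    rw [map_sub, map_sub, hyt, hyt', d₀₁_hom_apply, map_sub, E.π_equiv, E.π_sec]
    have := congrFun hc g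
    rw [d₀₁_hom_apply, Pi.sub_apply] at this
    rw [this, sub_self]
  refine ⟨fun g => E.pre (yt g - yt' g - (d₀₁ B).hom (E.sec c) g), ?_, ?_⟩
  · obtain ⟨F₁, hF₁, h₁⟩ := hlev
    obtain ⟨F₂, hF₂, h₂⟩ := hlev'
    obtain ⟨F₃, hF₃, h₃⟩ := isLevelConstant₁_d₀₁ E.smooth (E.sec c)
    have := hF₁; have := hF₂; have := hF₃
    refine ⟨F₁ ⊔ F₂ ⊔ F₃, inferInstance, fun g s hs => ?_⟩
    simp only [h₁ g s (levelSubgroup_anti r (le_sup_of_le_left le_sup_left) hs),
      h₂ g s (levelSubgroup_anti r (le_sup_of_le_left le_sup_right) hs),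
      h₃ g s (levelSubgroup_anti r le_sup_right hs)]
  · funext p
    obtain ⟨g, h⟩ := p
    apply E.ι_injective
    show E.ι _ = E.ι (E.pre ((d₁₂ B).hom yt (g, h)) - E.pre ((d₁₂ B).hom yt' (g, h)))
    rw [map_sub E.ι, E.delta₁_pre hy hyt, E.delta₁_pre hy' hyt']
    simp only [d₁₂_hom_apply, map_add, map_sub, E.ι_equiv, E.ι_pre (hw _)]
    simp only [d₀₁_hom_apply, map_sub, map_mul, Module.End.mul_apply]
    abel

/-- The connecting map `H¹(C) → H²(A)` on cocycles. -/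
def delta₁Cocycle : levelCocycles₁ r C →ₗ[k] continuousH2 r A where
  toFun y := cls₂ r A (E.delta₁Z (y := (y.1 : G → C)) (yt := fun g => E.sec ((y.1 : G → C) g))
    (zc y) (fun g => E.π_sec _) (IsLevelConstant₁.comp (zl y) E.sec))
  map_add' y y' := by
    rw [← map_add]
    refine (E.delta₁Z_congr (yt' := fun g => E.sec ((y.1 : G → C) g) + E.sec ((y'.1 : G → C) g))
      (zc (y + y')) (zc (y + y')) _ (fun g => by rw [map_add, E.π_sec, E.π_sec]; rfl) _
      (IsLevelConstant₁.add (IsLevelConstant₁.comp (zl y) E.sec)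
        (IsLevelConstant₁.comp (zl y') E.sec))
      (c := 0) (by rw [map_zero, sub_self])).trans ?_
    congr 1
    refine Subtype.ext (funext fun p => E.ι_injective ?_)
    show E.ι (E.pre _) = E.ι (E.pre _ + E.pre _)
    rw [map_add, E.delta₁_pre (zc (y + y')) (fun g => by rw [map_add, E.π_sec, E.π_sec]; rfl),
      E.delta₁_pre (zc y) (fun g => E.π_sec _), E.delta₁_pre (zc y') (fun g => E.π_sec _)]
    simp only [d₁₂_hom_apply, map_add]
    abel
  map_smul' a y := by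
    rw [RingHom.id_apply, ← map_smul]
    refine (E.delta₁Z_congr (yt' := fun g => a • E.sec ((y.1 : G → C) g))
      (zc (a • y)) (zc (a • y)) _ (fun g => by rw [map_smul, E.π_sec]; rfl) _
      (IsLevelConstant₁.comp (IsLevelConstant₁.comp (zl y) E.sec) (a • ·))
      (c := 0) (by rw [map_zero, sub_self])).trans ?_
    congr 1
    refine Subtype.ext (funext fun p => E.ι_injective ?_)
    show E.ι (E.pre _) = E.ι (a • E.pre _)
    rw [map_smul, E.delta₁_pre (zc (a • y)) (fun g => by rw [map_smul, E.π_sec]; rfl),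
      E.delta₁_pre (zc y) (fun g => E.π_sec _)]
    simp only [d₁₂_hom_apply, map_smul, smul_add, smul_sub]

/-- The connecting map `H¹(C) → H²(A)`. -/
def delta₁ : continuousH1 r C →ₗ[k] continuousH2 r A :=
  descendLin (V := levelCocycles₁ r C) (W := continuousH1 r C) (cls₁ r C) cls₁_surjective
    E.delta₁Cocycle fun y hy => by
    obtain ⟨c, hc⟩ := cls₁_eq_zero_iff.1 hy
    refine (E.delta₁Z_congr (zc y) (zero_mem (cocycles₁ C)) _ (fun g => map_zero E.π) _
      (isLevelConstant₁_const r (0 : B)) (c := c) (by rw [hc, sub_zero])).trans ?_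
    rw [cls₂_eq_zero_iff]
    refine ⟨0, isLevelConstant₁_const r (0 : A), funext fun p => E.ι_injective ?_⟩
    show _ = E.ι (E.pre ((d₁₂ B).hom (0 : G → B) p))
    rw [map_zero, map_zero, Pi.zero_apply, Pi.zero_apply, map_zero,
      show E.pre (0 : B) = 0 by simpa using E.pre_ι 0, map_zero]

theorem delta₁_cls (y : levelCocycles₁ r C) : E.delta₁ (cls₁ r C y) = E.delta₁Cocycle y :=
  descendLin_apply (V := levelCocycles₁ r C) (W := continuousH1 r C) (cls₁ r C) _ _ _ y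

/-- Exactness at `H¹(B)`. -/
theorem exact_H₁B {x : continuousH1 r B} (hx : mapH₁ r E.π E.π_equiv x = 0) :
    ∃ a, mapH₁ r E.ι E.ι_equiv a = x := by
  obtain ⟨x, rfl⟩ := cls₁_surjective x
  rw [mapH₁_cls, cls₁_eq_zero_iff] at hx
  obtain ⟨c, hc⟩ := hx
  have hker : ∀ g, E.π ((x.1 : G → B) g - (d₀₁ B).hom (E.sec c) g) = 0 := fun g => by
    rw [map_sub, d₀₁_hom_apply, map_sub, E.π_equiv, E.π_sec]
    have := congrFun hc g
    rw [d₀₁_hom_apply] at this
    rw [this]; exact sub_self _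
  have hlev : IsLevelConstant₁ r fun g => E.pre ((x.1 : G → B) g - (d₀₁ B).hom (E.sec c) g) := by
    obtain ⟨F₁, hF₁, h₁⟩ := (zl x)
    obtain ⟨F₂, hF₂, h₂⟩ := isLevelConstant₁_d₀₁ E.smooth (E.sec c)
    have := hF₁; have := hF₂
    refine ⟨F₁ ⊔ F₂, inferInstance, fun g s hs => ?_⟩
    simp only [h₁ g s (levelSubgroup_anti r le_sup_left hs),
      h₂ g s (levelSubgroup_anti r le_sup_right hs)]
  have hι : E.ι ∘ (fun g => E.pre ((x.1 : G → B) g - (d₀₁ B).hom (E.sec c) g))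
      = (x.1 : G → B) - (d₀₁ B).hom (E.sec c) := funext fun g => E.ι_pre (hker g)
  refine ⟨cls₁ r A (mkZ₁ _ (E.cocycle_of_ι ?_) hlev), ?_⟩
  · rw [hι]; exact sub_mem (zc x) (d₀₁_mem_cocycles₁ _)
  · rw [mapH₁_cls, cls₁_eq_iff]
    refine ⟨- E.sec c, ?_⟩
    refine Eq.trans (b := ((x.1 : G → B) - (d₀₁ B).hom (E.sec c)) - (x.1 : G → B)) ?_
      (congrArg (· - (x.1 : G → B)) hι.symm)
    rw [map_neg]
    abel

/-- Exactness at `H²(B)`. -/
theorem exact_H₂B {x : continuousH2 r B} (hx : mapH₂ r E.π E.π_equiv x = 0) :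
    ∃ a, mapH₂ r E.ι E.ι_equiv a = x := by
  obtain ⟨x, rfl⟩ := cls₂_surjective x
  rw [mapH₂_cls, cls₂_eq_zero_iff] at hx
  obtain ⟨c, hclev, hc⟩ := hx
  have hd : E.π ∘ (d₁₂ B).hom (E.sec ∘ c) = E.π ∘ (x : G × G → B) := by
    rw [d₁₂_comp E.π E.π_equiv]
    have : E.π ∘ (E.sec ∘ c) = c := funext fun g => E.π_sec _
    rw [this, hc]; rfl
  have hker : ∀ p, E.π ((x : G × G → B) p - (d₁₂ B).hom (E.sec ∘ c) p) = 0 := fun p => by
    rw [map_sub, sub_eq_zero]; exact (congrFun hd p).symm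
  have hι : E.ι ∘ (fun p => E.pre ((x : G × G → B) p - (d₁₂ B).hom (E.sec ∘ c) p))
      = (x : G × G → B) - (d₁₂ B).hom (E.sec ∘ c) := funext fun p => E.ι_pre (hker p)
  have hlev' := isLevelConstant₂_d₁₂ E.smooth (hclev.comp E.sec)
  have hlev : IsLevelConstant₂ r
      fun p => E.pre ((x : G × G → B) p - (d₁₂ B).hom (E.sec ∘ c) p) := by
    obtain ⟨F₁, hF₁, h₁⟩ := x.2.2
    obtain ⟨F₂, hF₂, h₂⟩ := hlev'
    have := hF₁; have := hF₂
    refine ⟨F₁ ⊔ F₂, inferInstance, fun g g' s s' hs hs' => ?_⟩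
    simp only [h₁ g g' s s' (levelSubgroup_anti r le_sup_left hs)
      (levelSubgroup_anti r le_sup_left hs'),
      h₂ g g' s s' (levelSubgroup_anti r le_sup_right hs)
        (levelSubgroup_anti r le_sup_right hs')]
  refine ⟨cls₂ r A (mkZ₂ _ (E.cocycle₂_of_ι ?_) hlev), ?_⟩
  · rw [hι]; exact sub_mem x.2.1 (d₁₂_apply_mem_cocycles₂ _)
  · rw [mapH₂_cls, cls₂_eq_iff]
    refine ⟨fun g => - (E.sec ∘ c) g, (hclev.comp E.sec).comp Neg.neg, ?_⟩
    refine Eq.trans (b := ((x : G × G → B) - (d₁₂ B).hom (E.sec ∘ c)) - (x : G × G → B)) ?_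
      (congrArg (· - (x : G × G → B)) hι.symm)
    rw [show (fun g => - (E.sec ∘ c) g) = - (E.sec ∘ c) from rfl, map_neg]
    abel

theorem mapH₁_delta₀ (c : C.ρ.invariants) : mapH₁ r E.ι E.ι_equiv (E.delta₀ c) = 0 := by
  show mapH₁ r E.ι E.ι_equiv (cls₁ r A _) = 0
  rw [mapH₁_cls, cls₁_eq_zero_iff]
  exact ⟨E.sec c.1, funext fun g => (E.delta₀_pre c.2 (E.π_sec c.1) g).symm⟩

theorem mapH₂_delta₁ (y : continuousH1 r C) : mapH₂ r E.ι E.ι_equiv (E.delta₁ y) = 0 := by
  obtain ⟨y, rfl⟩ := cls₁_surjective y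
  rw [delta₁_cls]
  show mapH₂ r E.ι E.ι_equiv (cls₂ r A _) = 0
  rw [mapH₂_cls, cls₂_eq_zero_iff]
  exact ⟨fun g => E.sec ((y.1 : G → C) g), IsLevelConstant₁.comp (zl y) E.sec,
    funext fun p => (E.delta₁_pre (zc y) (fun g => E.π_sec _) p).symm⟩

/-- Exactness at `H¹(C)`. -/
theorem exact_H₁C {y : continuousH1 r C} (hy : E.delta₁ y = 0) :
    ∃ b, mapH₁ r E.π E.π_equiv b = y := by
  obtain ⟨y, rfl⟩ := cls₁_surjective y
  rw [delta₁_cls] at hy
  obtain ⟨w, hwlev, hw⟩ := cls₂_eq_zero_iff.1 hy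
  have hb : (fun g => E.sec ((y.1 : G → C) g) - E.ι (w g)) ∈ cocycles₁ B := by
    rw [mem_cocycles₁_def]
    intro g h
    have h1 := congrArg E.ι (congrFun hw (g, h))
    change E.ι ((d₁₂ A).hom w (g, h)) = E.ι (E.pre _) at h1
    rw [E.delta₁_pre (zc y) (fun g => E.π_sec _)] at h1
    simp only [d₁₂_hom_apply, map_add, map_sub, E.ι_equiv] at h1
    simp only [map_sub]
    linear_combination (norm := abel) -h1
  have hlev : IsLevelConstant₁ r fun g => E.sec ((y.1 : G → C) g) - E.ι (w g) := by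
    obtain ⟨F₁, hF₁, h₁⟩ := (zl y)
    obtain ⟨F₂, hF₂, h₂⟩ := hwlev
    have := hF₁; have := hF₂
    refine ⟨F₁ ⊔ F₂, inferInstance, fun g s hs => ?_⟩
    simp only [h₁ g s (levelSubgroup_anti r le_sup_left hs),
      h₂ g s (levelSubgroup_anti r le_sup_right hs)]
  refine ⟨cls₁ r B (mkZ₁ _ hb hlev), ?_⟩
  rw [mapH₁_cls]
  congr 1
  refine Subtype.ext (Subtype.ext (funext fun g => ?_))
  show E.π (E.sec ((y.1 : G → C) g) - E.ι (w g)) = _
  rw [map_sub, E.π_sec, E.π_ι, sub_zero]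
  rfl

end SmoothSES

end FLTAgent.LocalDuality
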