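import Mathlib.GroupTheory.Coset.Defs
import Mathlib.GroupTheory.QuotientGroup.Defs
import Mathlib.Algebra.BigOperators.Group.Finset.Basic
import Mathlib.Data.ZMod.Basic
import Mathlib.Tactic.Abel
import Mathlib.Tactic.LinearCombination
import Mathlib.Algebra.Module.Basic
import Mathlib.Algebra.BigOperators.GroupWithZero.Action
import Mathlib.Tactic.Group

/-!
# Two-cocycles split by a cyclic subgroup of prime index

If a two-cocycle dies on the kernel `H` of a homomorphism onto `ZMod p` and `H` satisfies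
Hilbert 90, it is cohomologous to a carry cocycle; a carry cocycle is a coboundary only for norms.
Invariance under a normal subgroup `N` is carried along (this is the level).
-/

set_option autoImplicit false

namespace FLTAgent.LocalDuality

variable {G M : Type*} [Group G] [AddCommGroup M] [DistribMulAction G M]

/-- The carry cocycle attached to a homomorphism to `ZMod p`. -/
def carry {p : ℕ} (χ : G →* Multiplicative (ZMod p)) (g k : G) : ℕ :=
  ((χ g).toAdd.val + (χ k).toAdd.val) / p

variable {p : ℕ} [NeZero p] {χ : G →* Multiplicative (ZMod p)} {N : Subgroup G}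

variable (M N) in
/-- Hilbert 90 for the kernel of `χ`, at level `N`. -/
def KerHilbert90 (χ : G →* Multiplicative (ZMod p)) : Prop :=
  ∀ f : G → M, (∀ a ∈ χ.ker, ∀ b ∈ χ.ker, f (a * b) = a • f b + f a) →
    (∀ a ∈ χ.ker, ∀ s ∈ N, f (a * s) = f a) → ∃ m : M, ∀ a ∈ χ.ker, f a = a • m - m

omit [NeZero p] in
theorem exists_zero_on_ker [N.Normal] (hN : N ≤ χ.ker) (h90 : KerHilbert90 M N χ)
    {z : G → G → M} (hz : ∀ g h j, z (g * h) j + z g h = g • z h j + z g (h * j))
    (hzN : ∀ g h, ∀ s ∈ N, ∀ s' ∈ N, z (g * s) (h * s') = z g h)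
    (hzfix : ∀ g h, ∀ s ∈ N, s • z g h = z g h)
    {u : G → M} (hu : ∀ a ∈ χ.ker, ∀ b ∈ χ.ker, z a b = a • u b - u (a * b) + u a)
    (huN : ∀ a ∈ χ.ker, ∀ s ∈ N, u (a * s) = u a)
    (hufix : ∀ a ∈ χ.ker, ∀ s ∈ N, s • u a = u a) :
    ∃ W : G → M, (∀ g, ∀ s ∈ N, W (g * s) = W g) ∧
      ∀ g k, (g ∈ χ.ker ∨ k ∈ χ.ker) → z g k = g • W k - W (g * k) + W g := by
  classical
  set c := z 1 1
  have hc : ∀ k, z 1 k = c := fun k => by
    have := hz 1 1 k
    simp only [one_mul, one_smul] at this
    exact (add_left_cancel this).symm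
  let t : G → G := fun g => if g ∈ χ.ker then 1 else (QuotientGroup.mk g : G ⧸ χ.ker).out
  have htmem : ∀ g, (t g)⁻¹ * g ∈ χ.ker := fun g => by
    show (ite _ _ _)⁻¹ * g ∈ χ.ker
    split_ifs with hg
    · simpa using hg
    · exact QuotientGroup.eq.mp (QuotientGroup.out_eq' _)
  have ht : ∀ g h, h ∈ χ.ker → t (g * h) = t g := fun g h hh => by
    have e : (QuotientGroup.mk (g * h) : G ⧸ χ.ker) = QuotientGroup.mk g :=
      QuotientGroup.eq.mpr (by simpa using hh)
    show ite _ _ _ = ite _ _ _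
    rw [e, if_congr (Subgroup.mul_mem_cancel_right _ hh) rfl rfl]
  -- first step: kill `z g h` for `h` in the kernel
  let w : G → M := fun g =>
    t g • (u ((t g)⁻¹ * g) - c) - (z (t g) ((t g)⁻¹ * g) - t g • c) + c
  have hwH : ∀ a ∈ χ.ker, w a = u a := fun a ha => by
    show t a • (u ((t a)⁻¹ * a) - c) - (z (t a) ((t a)⁻¹ * a) - t a • c) + c = _
    rw [show t a = 1 from if_pos ha, inv_one, one_mul, one_smul, one_smul, hc]
    abel
  have hw : ∀ g, ∀ h ∈ χ.ker, z g h = g • w h - w (g * h) + w g := by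
    intro g h hh
    rw [hwH h hh]
    simp only [w, ht g h hh]
    have hmem := htmem g
    set τ := t g
    set a := τ⁻¹ * g with ha
    have hg : g = τ * a := by simp [a]
    rw [show τ⁻¹ * (g * h) = a * h by simp [a, mul_assoc]]
    have e1 := hz τ a h
    rw [← hg] at e1
    have e2 := congrArg (τ • ·) (hu a hmem h hh)
    simp only [smul_add, smul_sub, smul_smul, ← hg] at e2
    simp only [smul_sub]
    rw [eq_sub_of_add_eq e1, e2]
    abel
  have hwN : ∀ g, ∀ s ∈ N, w (g * s) = w g := by
    intro g s hs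
    simp only [w, ht g s (hN hs)]
    rw [← mul_assoc, huN _ (htmem g) s hs]
    have := hzN (t g) ((t g)⁻¹ * g) 1 (one_mem _) s hs
    rw [mul_one] at this
    rw [this]
  have hsfix : ∀ (x : G) (y : M), (∀ s ∈ N, s • y = y) → ∀ s ∈ N, s • x • y = x • y := by
    intro x y hy s hs
    have hs' : x⁻¹ * s * x ∈ N := by simpa using ‹N.Normal›.conj_mem s hs x⁻¹
    rw [smul_smul, show s * x = x * (x⁻¹ * s * x) by group, ← smul_smul, hy _ hs']
  have hcfix : ∀ s ∈ N, s • c = c := fun s hs => hzfix 1 1 s hs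
  have hwfix : ∀ g, ∀ s ∈ N, s • w g = w g := by
    intro g s hs
    simp only [w, smul_add, smul_sub]
    rw [hsfix _ _ (hufix _ (htmem g)) s hs, hsfix _ _ hcfix s hs, hzfix _ _ s hs, hcfix s hs]
  let z' : G → G → M := fun g k => z g k - (g • w k - w (g * k) + w g)
  have hz' : ∀ g h j, z' (g * h) j + z' g h = g • z' h j + z' g (h * j) := by
    intro g h j
    simp only [z', smul_sub, smul_add, smul_smul, mul_assoc]
    linear_combination (norm := abel) hz g h j
  have h0 : ∀ g, ∀ h ∈ χ.ker, z' g h = 0 := fun g h hh => sub_eq_zero.mpr (hw g h hh)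
  have hright : ∀ g j, ∀ h ∈ χ.ker, z' g (j * h) = z' g j := by
    intro g j h hh
    have := hz' g j h
    rw [h0 _ h hh, h0 _ h hh, smul_zero, zero_add, zero_add] at this
    exact this.symm
  have hleft : ∀ j g, ∀ s ∈ N, z' (g * s) j = z' g j := by
    intro j g s hs
    simp only [z']
    have hjs : j⁻¹ * s * j ∈ N := by simpa using ‹N.Normal›.conj_mem s hs j⁻¹
    have hzz := hzN g j s hs 1 (one_mem _)
    rw [mul_one] at hzz
    rw [hzz, hwN g s hs, mul_smul, hwfix j s hs,
      show g * s * j = g * j * (j⁻¹ * s * j) by group, hwN _ _ hjs]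
  have hm : ∀ j, ∃ m : M, ∀ a ∈ χ.ker, z' a j = a • m - m := by
    intro j
    refine h90 (fun a => z' a j) (fun a _ b hb => ?_) fun a _ s hs => hleft j a s hs
    have hj : j⁻¹ * b * j ∈ χ.ker := by simpa using χ.normal_ker.conj_mem b hb j⁻¹
    have := hz' a b j
    rw [h0 a b hb, add_zero, show b * j = j * (j⁻¹ * b * j) by group, hright a j _ hj] at this
    exact this
  choose m hm using hm
  let m' : G → M := fun j => if j ∈ χ.ker then 0 else m (t j)
  have hm'H : ∀ j h, h ∈ χ.ker → m' (j * h) = m' j := fun j h hh => by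
    show ite _ _ _ = ite _ _ _
    rw [ht j h hh, if_congr (Subgroup.mul_mem_cancel_right _ hh) rfl rfl]
  have hm' : ∀ a ∈ χ.ker, ∀ j, z' a j = a • m' j - m' j := by
    intro a ha j
    show _ = a • (ite _ _ _) - ite _ _ _
    split_ifs with hj
    · rw [h0 a j hj, smul_zero, sub_zero]
    · rw [← hm (t j) a ha]
      have := hright a (t j) ((t j)⁻¹ * j) (htmem j)
      rwa [mul_inv_cancel_left] at this
  refine ⟨fun g => w g + m' g, fun g s hs => by simp only [hwN g s hs, hm'H g s (hN hs)],
    fun g k hgk => ?_⟩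
  have key : z' g k = g • m' k - m' (g * k) + m' g := by
    by_cases hk : k ∈ χ.ker
    · rw [h0 g k hk, hm'H g k hk, show m' k = 0 from if_pos hk, smul_zero]
      abel
    · have hg : g ∈ χ.ker := hgk.resolve_right hk
      have hk' : k⁻¹ * g * k ∈ χ.ker := by simpa using χ.normal_ker.conj_mem g hg k⁻¹
      rw [hm' g hg k, show g * k = k * (k⁻¹ * g * k) by group, hm'H k _ hk',
        show m' g = 0 from if_pos hg, add_zero]
  simp only [z'] at key
  simp only [smul_add]
  linear_combination (norm := abel) key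

omit [NeZero p] in
theorem smul_eq_self_of_mem {z : G → G → M}
    (hz : ∀ g h j, z (g * h) j + z g h = g • z h j + z g (h * j))
    (h0 : ∀ g k, (g ∈ χ.ker ∨ k ∈ χ.ker) → z g k = 0) (g k : G) {a : G} (ha : a ∈ χ.ker) :
    a • z g k = z g k := by
  have ha' : g⁻¹ * a * g ∈ χ.ker := by simpa using χ.normal_ker.conj_mem a ha g⁻¹
  have h1 := hz a g k
  rw [h0 a g (.inl ha), h0 a (g * k) (.inl ha), add_zero, add_zero] at h1
  have h2 := hz g (g⁻¹ * a * g) k
  rw [h0 g _ (.inr ha'), h0 _ k (.inl ha'), smul_zero, add_zero, zero_add,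
    show g * (g⁻¹ * a * g) = a * g by group] at h2
  have hk : k⁻¹ * (g⁻¹ * a * g) * k ∈ χ.ker := by
    simpa using χ.normal_ker.conj_mem _ ha' k⁻¹
  have h3 := hz g k (k⁻¹ * (g⁻¹ * a * g) * k)
  rw [h0 _ _ (.inr hk), h0 _ _ (.inr hk), smul_zero, zero_add, zero_add,
    show k * (k⁻¹ * (g⁻¹ * a * g) * k) = g⁻¹ * a * g * k by group] at h3
  rw [← h1, h2, ← h3]

/-- The power of `σ` in the class of `g`. -/
theorem inv_pow_mul_mem {σ : G} (hσ : (χ σ).toAdd = 1) (g : G) :
    (σ ^ (χ g).toAdd.val)⁻¹ * g ∈ χ.ker := by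
  rw [MonoidHom.mem_ker, map_mul, map_inv, map_pow]
  apply Multiplicative.toAdd.injective
  simp [hσ]

/-- A two-cocycle split on the kernel of `χ` is a carry cocycle up to a coboundary. -/
theorem exists_carry [N.Normal] (hN : N ≤ χ.ker) (h90 : KerHilbert90 M N χ)
    {σ : G} (hσ : (χ σ).toAdd = 1)
    {z : G → G → M} (hz : ∀ g h j, z (g * h) j + z g h = g • z h j + z g (h * j))
    (hzN : ∀ g h, ∀ s ∈ N, ∀ s' ∈ N, z (g * s) (h * s') = z g h)
    (hzfix : ∀ g h, ∀ s ∈ N, s • z g h = z g h)
    {u : G → M} (hu : ∀ a ∈ χ.ker, ∀ b ∈ χ.ker, z a b = a • u b - u (a * b) + u a)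
    (huN : ∀ a ∈ χ.ker, ∀ s ∈ N, u (a * s) = u a)
    (hufix : ∀ a ∈ χ.ker, ∀ s ∈ N, s • u a = u a) :
    ∃ (b : M) (W : G → M), (∀ g : G, g • b = b) ∧ (∀ g, ∀ s ∈ N, W (g * s) = W g) ∧
      ∀ g k, z g k = carry χ g k • b + (g • W k - W (g * k) + W g) := by
  obtain ⟨W₀, hW₀, hzW⟩ := exists_zero_on_ker hN h90 hz hzN hzfix hu huN hufix
  set y : G → G → M := fun g k => z g k - (g • W₀ k - W₀ (g * k) + W₀ g) with hy
  have hyc : ∀ g h j, y (g * h) j + y g h = g • y h j + y g (h * j) := by
    intro g h j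
    simp only [y, smul_sub, smul_add, smul_smul, mul_assoc]
    linear_combination (norm := abel) hz g h j
  have hy0 : ∀ g k, (g ∈ χ.ker ∨ k ∈ χ.ker) → y g k = 0 := fun g k h =>
    sub_eq_zero.mpr (hzW g k h)
  have hright : ∀ g j, ∀ h ∈ χ.ker, y g (j * h) = y g j := by
    intro g j h hh
    have := hyc g j h
    rw [hy0 _ h (.inr hh), hy0 _ h (.inr hh), smul_zero, zero_add, zero_add] at this
    exact this.symm
  have hleft : ∀ g j, ∀ h ∈ χ.ker, y (g * h) j = y g j := by
    intro g j h hh
    have hj : j⁻¹ * h * j ∈ χ.ker := by simpa using χ.normal_ker.conj_mem h hh j⁻¹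
    have := hyc g h j
    rw [hy0 g h (.inr hh), hy0 h j (.inl hh), smul_zero, add_zero, zero_add,
      show h * j = j * (j⁻¹ * h * j) by group, hright g j _ hj] at this
    exact this
  -- values at powers of `σ`
  let f : ℕ → M := fun i => ∑ a ∈ Finset.range i, y (σ ^ a) σ
  have hf : ∀ k i, y (σ ^ i) (σ ^ k) = f (i + k) - σ ^ i • f k - f i := by
    intro k
    induction k with
    | zero => intro i; simp [f, hy0 _ 1 (.inr (one_mem _))]
    | succ k ih =>
      intro i
      have h1 := hyc (σ ^ i) (σ ^ k) σ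
      rw [← pow_add, ← pow_succ, ih i] at h1
      have h2 : f (i + (k + 1)) = f (i + k) + y (σ ^ (i + k)) σ := Finset.sum_range_succ _ _
      have h3 : f (k + 1) = f k + y (σ ^ k) σ := Finset.sum_range_succ _ _
      rw [h2, h3, smul_add]
      linear_combination (norm := abel) -h1
  have hσp : σ ^ p ∈ χ.ker := by
    rw [MonoidHom.mem_ker, map_pow]
    apply Multiplicative.toAdd.injective
    simp [hσ]
  set b := f p with hb
  have hper : ∀ k, f (p + k) = f k + b := by
    intro k
    induction k with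
    | zero => simp [f, b]
    | succ k ih =>
      have h2 : f (p + (k + 1)) = f (p + k) + y (σ ^ (p + k)) σ := Finset.sum_range_succ _ _
      have h3 : f (k + 1) = f k + y (σ ^ k) σ := Finset.sum_range_succ _ _
      have hk : (σ ^ k)⁻¹ * σ ^ p * σ ^ k ∈ χ.ker := by
        simpa using χ.normal_ker.conj_mem _ hσp (σ ^ k)⁻¹
      rw [h2, h3, ih, pow_add, show σ ^ p * σ ^ k = σ ^ k * ((σ ^ k)⁻¹ * σ ^ p * σ ^ k) by group,
        hleft _ _ _ hk]
      abel
  have hkerb : ∀ a ∈ χ.ker, a • b = b := fun a ha => by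
    simp only [b, f, Finset.smul_sum, smul_eq_self_of_mem hyc hy0 _ _ ha]
  have hσb : σ • b = b := by
    have h := hf p 1
    rw [pow_one, hy0 σ _ (.inr hσp), add_comm, hper 1] at h
    have hf1 : f 1 = y 1 σ := by simp [f]
    rw [hf1, hy0 1 σ (.inl (one_mem _))] at h
    rw [zero_add, sub_zero, eq_comm, sub_eq_zero] at h
    exact h.symm
  have hGb : ∀ g : G, g • b = b := by
    intro g
    have hpow : ∀ i : ℕ, σ ^ i • b = b := by
      intro i
      induction i with
      | zero => simp
      | succ i ih => rw [pow_succ, mul_smul, hσb, ih]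
    conv_lhs => rw [← mul_inv_cancel_left (σ ^ (χ g).toAdd.val) g, mul_smul,
      hkerb _ (inv_pow_mul_mem hσ g), hpow]
  refine ⟨b, fun g => W₀ g - f (χ g).toAdd.val, hGb, fun g s hs => ?_, fun g k => ?_⟩
  · simp only [hW₀ g s hs, map_mul, MonoidHom.mem_ker.mp (hN hs), mul_one]
  · set i := (χ g).toAdd.val
    set l := (χ k).toAdd.val
    have e1 : y g k = y (σ ^ i) (σ ^ l) := by
      conv_lhs => rw [← mul_inv_cancel_left (σ ^ i) g, hleft _ _ _ (inv_pow_mul_mem hσ g),
        ← mul_inv_cancel_left (σ ^ l) k, hright _ _ _ (inv_pow_mul_mem hσ k)]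
    have e2 : g • f l = σ ^ i • f l := by
      conv_lhs => rw [← mul_inv_cancel_left (σ ^ i) g, mul_smul]
      simp only [f, Finset.smul_sum]
      exact Finset.sum_congr rfl fun x _ => by
        rw [smul_eq_self_of_mem hyc hy0 _ _ (inv_pow_mul_mem hσ g)]
    have e3 : f (i + l) = f (χ (g * k)).toAdd.val + carry χ g k • b := by
      have hv : (χ (g * k)).toAdd.val = (i + l) % p := by
        rw [map_mul, toAdd_mul, ZMod.val_add]
      have hlt : carry χ g k = (i + l) / p := rfl
      have hi : i < p := ZMod.val_lt _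
      have hl : l < p := ZMod.val_lt _
      rw [hv, hlt]
      rcases lt_or_ge (i + l) p with h | h
      · rw [Nat.mod_eq_of_lt h, Nat.div_eq_of_lt h, zero_smul, add_zero]
      · rw [Nat.mod_eq_sub_mod h, Nat.mod_eq_of_lt (by omega),
          Nat.div_eq_of_lt_le (k := 1) (by omega) (by omega), one_smul, ← hper]
        congr 1
        omega
    have e4 := hf l i
    rw [← e1, ← e2, e3] at e4
    simp only [y] at e4
    simp only [smul_sub]
    linear_combination (norm := abel) e4

/-- A carry cocycle is a coboundary only for norms. -/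
theorem exists_norm_of_carry (h90 : KerHilbert90 M N χ) {σ : G}
    (hσ : (χ σ).toAdd = 1) (hp : 1 < p) {b : M} {W : G → M} (hW : ∀ g, ∀ s ∈ N, W (g * s) = W g)
    (hd : ∀ g k, carry χ g k • b = g • W k - W (g * k) + W g) :
    ∃ c : M, (∀ a ∈ χ.ker, a • c = c) ∧ b = ∑ i ∈ Finset.range p, σ ^ i • c := by
  have hcar : ∀ g, ∀ k ∈ χ.ker, carry χ g k = 0 ∧ carry χ k g = 0 := fun g k hk => by
    constructor <;>
    · simp only [carry, MonoidHom.mem_ker.mp hk, toAdd_one, ZMod.val_zero, add_zero, zero_add]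
      exact Nat.div_eq_of_lt (ZMod.val_lt _)
  obtain ⟨m, hm⟩ := h90 W (fun a ha c hc => by
    have := hd a c
    rw [(hcar a c hc).1, zero_smul] at this
    linear_combination (norm := abel) this) fun a _ s hs => hW a s hs
  set V : G → M := fun g => W g - (g • m - m) with hV
  have hdV : ∀ g k, carry χ g k • b = g • V k - V (g * k) + V g := by
    intro g k
    rw [hd]
    simp only [V, smul_sub, mul_smul]
    abel
  have hVH : ∀ a ∈ χ.ker, V a = 0 := fun a ha => sub_eq_zero.mpr (hm a ha)
  have hVr : ∀ g, ∀ a ∈ χ.ker, V (g * a) = V g := by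
    intro g a ha
    have := hdV g a
    rw [(hcar g a ha).1, zero_smul, hVH a ha, smul_zero] at this
    linear_combination (norm := abel) this
  have hVfix : ∀ g, ∀ a ∈ χ.ker, a • V g = V g := by
    intro g a ha
    have := hdV a g
    have hg : g⁻¹ * a * g ∈ χ.ker := by simpa using χ.normal_ker.conj_mem a ha g⁻¹
    rw [(hcar g a ha).2, zero_smul, hVH a ha, show a * g = g * (g⁻¹ * a * g) by group,
      hVr g _ hg] at this
    linear_combination (norm := abel) -this
  refine ⟨V σ, hVfix σ, ?_⟩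
  have hsum : ∀ i, i ≤ p →
      ∑ a ∈ Finset.range i, σ ^ a • V σ = V (σ ^ i) + (if i = p then b else 0) := by
    intro i
    induction i with
    | zero =>
      intro _
      simp [show V 1 = 0 from hVH 1 (one_mem _),
        Nat.pos_iff_ne_zero.mp (zero_lt_one.trans hp)|>.symm]
    | succ i ih =>
      intro hi
      have hne : i ≠ p := by omega
      rw [Finset.sum_range_succ, ih (by omega), if_neg hne, add_zero]
      have := hdV (σ ^ i) σ
      rw [← pow_succ] at this
      have hval : (χ (σ ^ i)).toAdd.val = i := by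
        rw [map_pow, toAdd_pow, hσ, nsmul_one, ZMod.val_natCast, Nat.mod_eq_of_lt (by omega)]
      have h1 : (χ σ).toAdd.val = 1 := by
        rw [hσ, ZMod.val_one'' (by omega)]
      simp only [carry, hval, h1] at this
      split_ifs with hip
      · rw [hip, Nat.div_self (by omega), one_smul] at this
        rw [this, hip]
        abel
      · rw [Nat.div_eq_of_lt (by omega), zero_smul] at this
        linear_combination (norm := abel) -this
  have hσp : σ ^ p ∈ χ.ker := by
    rw [MonoidHom.mem_ker, map_pow]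
    apply Multiplicative.toAdd.injective
    simp [hσ]
  rw [hsum p le_rfl, if_pos rfl, hVH _ hσp, zero_add]

/-- A norm gives a carry cocycle that is a coboundary. -/
theorem carry_smul_norm {σ : G} (hσ : (χ σ).toAdd = 1) {b c : M}
    (hc : ∀ a ∈ χ.ker, a • c = c) (hb : b = ∑ i ∈ Finset.range p, σ ^ i • c) (g k : G) :
    let W : G → M := fun g => ∑ i ∈ Finset.range (χ g).toAdd.val, σ ^ i • c
    carry χ g k • b = g • W k - W (g * k) + W g := by
  intro W
  have hσp : σ ^ p ∈ χ.ker := by
    rw [MonoidHom.mem_ker, map_pow]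
    apply Multiplicative.toAdd.injective
    simp [hσ]
  have hfix : ∀ a ∈ χ.ker, ∀ x : G, a • x • c = x • c := by
    intro a ha x
    have ha' : x⁻¹ * a * x ∈ χ.ker := by simpa using χ.normal_ker.conj_mem a ha x⁻¹
    rw [smul_smul, show a * x = x * (x⁻¹ * a * x) by group, ← smul_smul, hc _ ha']
  set i := (χ g).toAdd.val
  set l := (χ k).toAdd.val
  have e1 : g • W k = ∑ a ∈ Finset.range l, σ ^ (i + a) • c := by
    simp only [W, Finset.smul_sum]
    refine Finset.sum_congr rfl fun a _ => ?_
    conv_lhs => rw [← mul_inv_cancel_left (σ ^ i) g, mul_smul, hfix _ (inv_pow_mul_mem hσ g),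
      smul_smul, ← pow_add]
  have e2 : W g + g • W k = ∑ a ∈ Finset.range (i + l), σ ^ a • c := by
    rw [e1]; exact (Finset.sum_range_add _ _ _).symm
  have hi : i < p := ZMod.val_lt _
  have hl : l < p := ZMod.val_lt _
  have hv : (χ (g * k)).toAdd.val = (i + l) % p := by rw [map_mul, toAdd_mul, ZMod.val_add]
  have e3 : ∑ a ∈ Finset.range (i + l), σ ^ a • c = carry χ g k • b + W (g * k) := by
    simp only [W, hv, show carry χ g k = (i + l) / p from rfl]
    rcases lt_or_ge (i + l) p with h | h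
    · rw [Nat.mod_eq_of_lt h, Nat.div_eq_of_lt h, zero_smul, zero_add]
    · rw [Nat.mod_eq_sub_mod h, Nat.mod_eq_of_lt (by omega),
        Nat.div_eq_of_lt_le (k := 1) (by omega) (by omega), one_smul, hb]
      conv_lhs => rw [show i + l = p + (i + l - p) by omega, Finset.sum_range_add]
      congr 1
      refine Finset.sum_congr rfl fun a _ => ?_
      rw [add_comm p a, pow_add, mul_smul, hc _ hσp]
  rw [e3] at e2
  linear_combination (norm := abel) -e2

end FLTAgent.LocalDuality
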