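import Fermat.Agent.LocalDuality.Fields
import Fermat.Agent.LocalDuality.Classes
import Fermat.Agent.LocalDuality.Inflation
import Mathlib.LinearAlgebra.LinearIndependent.Basic
import Mathlib.RingTheory.RootsOfUnity.PrimitiveRoots

/-!
# Hilbert 90 and Kummer theory for level-constant cochains on local Galois groups

`hilbert90` and `kerHilbert90` for the units `AlgClUnits`, and the homomorphism `zetaPow` onto the
`p`-th roots of unity.
-/

set_option autoImplicit false

noncomputable section

open CategoryTheory groupCohomology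
open scoped IntermediateField

namespace FLTAgent.LocalDuality

variable {q : ℕ} [Fact q.Prime] {G : Type} [Group G] (j : G →* LocalGal q)

/-- The global Galois map attached to a local one. -/
abbrev locR : G →* (AlgebraicClosure ℚ ≃ₐ[ℚ] AlgebraicClosure ℚ) := (toGlobal q).comp j

/-- Finitely many elements are fixed by a level. -/
theorem exists_level_fix {S : Set (PadicAlgCl q)} (hS : S.Finite) :
    ∃ F : IntermediateField ℚ (AlgebraicClosure ℚ), FiniteDimensional ℚ F ∧
      ∀ s ∈ levelSubgroup (locR j) F, ∀ x ∈ S, j s x = x := by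
  have : FiniteDimensional ℚ_[q] (IntermediateField.adjoin ℚ_[q] S) :=
    haveI := hS.to_subtype
    IntermediateField.finiteDimensional_adjoin fun x _ => Algebra.IsIntegral.isIntegral x
  obtain ⟨F, hF, hle⟩ := exists_level_le q (IntermediateField.adjoin ℚ_[q] S)
  exact ⟨F, hF, fun s hs x hx => (IntermediateField.mem_fixingSubgroup_iff _ _).mp (hle hs) x
    (IntermediateField.subset_adjoin _ _ hx)⟩

/-- A level-constant function has finite range. -/
theorem finite_range_of_isLevelConstant₁ {β : Type} {f : G → β}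
    (hf : IsLevelConstant₁ (locR j) f) : (Set.range f).Finite := by
  classical
  obtain ⟨F, hF, h⟩ := hf
  have := hF
  let res : G → (F →ₐ[ℚ] AlgebraicClosure ℚ) := fun g => (locR j g).toAlgHom.comp F.val
  have hfac : ∀ g g', res g = res g' → f g = f g' := by
    intro g g' hgg'
    have hmem : g⁻¹ * g' ∈ levelSubgroup (locR j) F := by
      rw [mem_levelSubgroup, IntermediateField.mem_fixingSubgroup_iff]
      intro x hx
      rw [map_mul, map_inv, AlgEquiv.mul_apply]
      have := DFunLike.congr_fun hgg' ⟨x, hx⟩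
      show (locR j g).symm ((locR j g') x) = x
      rw [show (locR j g') x = (locR j g) x from this.symm, AlgEquiv.symm_apply_apply]
    rw [← h g _ hmem, mul_inv_cancel_left]
  have : Set.range f ⊆ Set.range fun φ : Set.range res => f φ.2.choose := by
    rintro _ ⟨g, rfl⟩
    exact ⟨⟨res g, g, rfl⟩, hfac _ _ (⟨g, rfl⟩ : res g ∈ Set.range res).choose_spec⟩
  exact (Set.finite_range _).subset this

/-- Hilbert 90 for level-constant cocycles with values in the units of the algebraic closure. -/
theorem hilbert90 (f : G → (PadicAlgCl q)ˣ)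
    (hf : ∀ g h, f (g * h) = Units.map (j g : PadicAlgCl q →* PadicAlgCl q) (f h) * f g)
    (hlev : IsLevelConstant₁ (locR j) f) :
    ∃ m : (PadicAlgCl q)ˣ, ∀ g, f g = Units.map (j g : PadicAlgCl q →* PadicAlgCl q) m / m := by
  classical
  obtain ⟨F, hF, h⟩ := hlev
  have := hF
  obtain ⟨L, hL, hle⟩ := exists_field_le_level q F
  have := hL
  let res : G → (L →ₐ[ℚ_[q]] PadicAlgCl q) := fun g => (j g).toAlgHom.comp L.val
  have hfac : ∀ g g', res g = res g' → f g = f g' := by
    intro g g' hgg'
    have hmem : g⁻¹ * g' ∈ levelSubgroup (locR j) F := by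
      show j (g⁻¹ * g') ∈ levelSubgroup (toGlobal q) F
      refine hle ((IntermediateField.mem_fixingSubgroup_iff _ _).mpr fun x hx => ?_)
      rw [map_mul, map_inv, AlgEquiv.mul_apply]
      have := DFunLike.congr_fun hgg' ⟨x, hx⟩
      show (j g).symm ((j g') x) = x
      rw [show (j g') x = (j g) x from this.symm, AlgEquiv.symm_apply_apply]
    rw [← h g _ hmem, mul_inv_cancel_left]
  let S : Finset (L →ₐ[ℚ_[q]] PadicAlgCl q) := Finset.univ.filter fun φ => ∃ g, res g = φ
  let c : (L →ₐ[ℚ_[q]] PadicAlgCl q) → PadicAlgCl q := fun φ =>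
    if hφ : ∃ g, res g = φ then (f hφ.choose : PadicAlgCl q) else 0
  have hc : ∀ g, c (res g) = f g := by
    intro g
    have hex : ∃ g', res g' = res g := ⟨g, rfl⟩
    simp only [c, dif_pos hex]
    exact congrArg _ (hfac _ _ hex.choose_spec)
  obtain ⟨z, hz⟩ : ∃ z : L, ∑ φ ∈ S, c φ * φ z ≠ 0 := by
    by_contra hall
    push Not at hall
    have hinj : Function.Injective fun φ : L →ₐ[ℚ_[q]] PadicAlgCl q => (φ : L →* PadicAlgCl q) :=
      fun a b hab => AlgHom.ext fun x => DFunLike.congr_fun hab x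
    have hli := (linearIndependent_monoidHom L (PadicAlgCl q)).comp _ hinj
    rw [linearIndependent_iff'] at hli
    have h0 := hli S c (funext fun x => by
      simpa [Finset.sum_apply] using hall x) (res 1) (by simp [S])
    rw [hc] at h0
    exact (f 1).ne_zero h0
  set B := ∑ φ ∈ S, c φ * φ z with hB
  have key : ∀ g, (f g : PadicAlgCl q) * j g B = B := by
    intro g
    let e : (L →ₐ[ℚ_[q]] PadicAlgCl q) → (L →ₐ[ℚ_[q]] PadicAlgCl q) :=
      fun φ => (j g).toAlgHom.comp φ
    have he : ∀ g', e (res g') = res (g * g') := fun g' => AlgHom.ext fun x => by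
      show j g (j g' (x : PadicAlgCl q)) = j (g * g') (x : PadicAlgCl q)
      rw [map_mul, AlgEquiv.mul_apply]
    have hmaps : ∀ φ ∈ S, e φ ∈ S := by
      intro φ hφ
      simp only [S, Finset.mem_filter, Finset.mem_univ, true_and] at hφ ⊢
      obtain ⟨g', rfl⟩ := hφ
      exact ⟨g * g', (he g').symm⟩
    have heinj : Function.Injective e := fun a b hab =>
      AlgHom.ext fun x => (j g).injective (DFunLike.congr_fun hab x)
    have himg : S.image e = S := Finset.eq_of_subset_of_card_le
      (Finset.image_subset_iff.mpr hmaps) (Finset.card_image_of_injective S heinj).ge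
    rw [hB, map_sum, Finset.mul_sum]
    conv_rhs => rw [← himg, Finset.sum_image (fun a _ b _ h => heinj h)]
    refine Finset.sum_congr rfl fun φ hφ => ?_
    simp only [S, Finset.mem_filter, Finset.mem_univ, true_and] at hφ
    obtain ⟨g', rfl⟩ := hφ
    rw [map_mul, hc, he, hc, hf g g', Units.val_mul, ← he]
    show _ = j g (f g' : PadicAlgCl q) * (f g : PadicAlgCl q) * j g (res g' z)
    ring
  refine ⟨(Units.mk0 B hz)⁻¹, fun g => ?_⟩
  rw [map_inv, inv_div_inv, eq_div_iff_mul_eq']
  exact Units.ext (key g)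

/-! ### The multiplicative group as an additive `G`-module -/

/-- The units of `PadicAlgCl q`, written additively, acted on through `j`. -/
def AlgClUnits (_j : G →* LocalGal q) : Type := Additive (PadicAlgCl q)ˣ

instance : AddCommGroup (AlgClUnits j) := inferInstanceAs (AddCommGroup (Additive (PadicAlgCl q)ˣ))

/-- From a unit to the additive module. -/
def toAU (u : (PadicAlgCl q)ˣ) : AlgClUnits j := Additive.ofMul u

/-- From the additive module to a unit. -/
def ofAU (u : AlgClUnits j) : (PadicAlgCl q)ˣ := Additive.toMul (α := (PadicAlgCl q)ˣ) u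

instance : DistribMulAction G (AlgClUnits j) where
  smul g u := toAU j (Units.map (j g : PadicAlgCl q →* PadicAlgCl q) (ofAU j u))
  one_smul u := by
    show toAU j _ = u
    refine congrArg (toAU j) (Units.ext ?_) |>.trans (by rfl : toAU j (ofAU j u) = u)
    show j 1 _ = _
    rw [map_one]; rfl
  mul_smul g h u := by
    refine congrArg (toAU j) (Units.ext ?_)
    show j (g * h) _ = j g (j h _)
    rw [map_mul]; rfl
  smul_zero g := congrArg (toAU j) (map_one _)
  smul_add g u v := congrArg (toAU j) (map_mul _ _ _)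

theorem coe_ofAU_smul (g : G) (u : AlgClUnits j) :
    (ofAU j (g • u) : PadicAlgCl q) = j g (ofAU j u : PadicAlgCl q) := rfl

theorem ofAU_add (u v : AlgClUnits j) : ofAU j (u + v) = ofAU j u * ofAU j v := rfl

theorem ofAU_nsmul (n : ℕ) (u : AlgClUnits j) : ofAU j (n • u) = ofAU j u ^ n := rfl

theorem ofAU_toAU (u : (PadicAlgCl q)ˣ) : ofAU j (toAU j u) = u := rfl

/-- Hilbert 90, additively. -/
theorem hilbert90_add (f : G → AlgClUnits j) (hf : ∀ g h, f (g * h) = g • f h + f g)
    (hlev : IsLevelConstant₁ (locR j) f) : ∃ m : AlgClUnits j, ∀ g, f g = g • m - m := by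
  obtain ⟨m, hm⟩ := hilbert90 j (fun g => ofAU j (f g))
    (fun g h => (congrArg (ofAU j) (hf g h)).trans (ofAU_add j _ _)) (hlev.comp (ofAU j))
  exact ⟨toAU j m, fun g => (hm g :)⟩

/-- Hilbert 90 on the kernel of a character, at any level. -/
theorem kerHilbert90 {p : ℕ} [NeZero p] (χ : G →* Multiplicative (ZMod p))
    {F : IntermediateField ℚ (AlgebraicClosure ℚ)} [FiniteDimensional ℚ F] :
    KerHilbert90 (AlgClUnits j) (levelSubgroup (locR j) F) χ := by
  intro f hf hlev
  obtain ⟨m, hm⟩ := hilbert90_add (j.comp χ.ker.subtype)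
    (fun a => toAU _ (ofAU j (f a))) (fun a b => hf a a.2 b b.2)
    ⟨F, inferInstance, fun a s hs => congrArg (fun u => toAU _ (ofAU j u)) (hlev a a.2 s hs)⟩
  exact ⟨toAU j (ofAU (j.comp χ.ker.subtype) m), fun a ha => (hm ⟨a, ha⟩ :)⟩

/-! ### Roots of unity -/

variable {p : ℕ} [Fact p.Prime] {ζ : (PadicAlgCl q)ˣ} (hζ : IsPrimitiveRoot ζ p)

/-- `i ↦ ζ ^ i`. -/
def zetaPow : ZMod p →+ AlgClUnits j :=
  ZMod.lift p ⟨zmultiplesHom _ (toAU j ζ), by
    show (p : ℤ) • toAU j ζ = 0
    rw [natCast_zsmul]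
    exact congrArg (toAU j) hζ.pow_eq_one⟩

theorem zetaPow_natCast (i : ℕ) : zetaPow j hζ (i : ZMod p) = toAU j (ζ ^ i) := by
  rw [zetaPow, ← Int.cast_natCast i, ZMod.lift_coe]
  exact natCast_zsmul _ _

theorem zetaPow_injective : Function.Injective (zetaPow j hζ) := by
  rw [zetaPow, ZMod.lift_injective]
  intro m hm
  have h : ζ ^ m = 1 := hm
  rw [hζ.zpow_eq_one_iff_dvd] at h
  exact (ZMod.intCast_zmod_eq_zero_iff_dvd m p).mpr h

theorem exists_zetaPow {u : AlgClUnits j} (hu : p • u = 0) : ∃ i, zetaPow j hζ i = u := by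
  have h1 : ofAU j u ^ p = 1 := hu
  have : NeZero p := ⟨(Fact.out : p.Prime).ne_zero⟩
  obtain ⟨i, -, hi⟩ := (IsPrimitiveRoot.coe_units_iff.mpr hζ).eq_pow_of_pow_eq_one
    (ξ := (ofAU j u : PadicAlgCl q)) (by rw [← Units.val_pow_eq_pow_val, h1, Units.val_one])
  exact ⟨i, by rw [zetaPow_natCast, Units.ext ((Units.val_pow_eq_pow_val _ _).trans hi)]; rfl⟩

theorem nsmul_zetaPow (i : ZMod p) : p • zetaPow j hζ i = 0 := by
  rw [← map_nsmul, nsmul_eq_mul, ZMod.natCast_self, zero_mul, map_zero]

theorem smul_zetaPow {E : IntermediateField ℚ_[q] (PadicAlgCl q)} (h : IsFieldGroup j E)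
    (hζE : (ζ : PadicAlgCl q) ∈ E) (g : G) (i : ZMod p) :
    g • zetaPow j hζ i = zetaPow j hζ i := by
  obtain ⟨n, rfl⟩ := ZMod.natCast_zmod_surjective i
  rw [zetaPow_natCast]
  refine congrArg (toAU j) (Units.ext ?_)
  show j g ((ofAU j (toAU j (ζ ^ n)) : (PadicAlgCl q)ˣ) : PadicAlgCl q) = _
  rw [ofAU_toAU, Units.val_pow_eq_pow_val, map_pow, h.apply_of_mem g hζE]

end FLTAgent.LocalDuality
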