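import Fermat.Agent.LocalDuality.NormIndex.Powers
import Fermat.Agent.LocalDuality.NormIndex.Units
import Mathlib.Analysis.Normed.Field.Krasner

/-!
# Norm index and power index for arbitrary finite extensions of `ℚ_q`

`local_index_norm_range` and `local_index_pow_range`, used by local and global duality.
-/

set_option autoImplicit false

noncomputable section

namespace FLTAgent.LocalDuality

variable (q : ℕ) [Fact q.Prime] (F : Type) [Field F] [Algebra ℚ_[q] F] [FiniteDimensional ℚ_[q] F]

include q in
/-- `[Fˣ : N Eˣ] = [E : F]` for `E/F` cyclic, `F` finite over `ℚ_q`. -/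
theorem local_index_norm_range (E : Type) [Field E] [Algebra F E] [FiniteDimensional F E]
    [IsGalois F E] [IsCyclic (E ≃ₐ[F] E)] :
    (Units.map (Algebra.norm F : E →* F)).range.index = Module.finrank F E := by
  let : Algebra ℚ_[q] E := ((algebraMap F E).comp (algebraMap ℚ_[q] F)).toAlgebra
  have : IsScalarTower ℚ_[q] F E := IsScalarTower.of_algebraMap_eq fun _ => rfl
  have : FiniteDimensional ℚ_[q] E := Module.Finite.trans F E
  let : NontriviallyNormedField F := spectralNorm.nontriviallyNormedField ℚ_[q] F
  let : NormedAlgebra ℚ_[q] F := spectralNorm.normedAlgebra ℚ_[q] F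
  let : NormedField E := spectralNorm.normedField ℚ_[q] E
  let : NormedAlgebra F E := spectralNorm.normedAlgebra' ℚ_[q] F E
  let : NormedAlgebra ℚ_[q] E := spectralNorm.normedAlgebra ℚ_[q] E
  have : IsUltrametricDist F := IsUltrametricDist.of_normedAlgebra ℚ_[q]
  have : IsUltrametricDist E := IsUltrametricDist.of_normedAlgebra ℚ_[q]
  have : ProperSpace F := FiniteDimensional.proper ℚ_[q] F
  obtain ⟨g, hg⟩ := IsCyclic.exists_zpow_surjective (G := E ≃ₐ[F] E)
  obtain ⟨π, hπ, -⟩ := exists_uniformizer F
  exact index_norm_range hg π.ne_zero hπ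

/-- `[Fˣ : Fˣᵖ] = #μ_p(F) p (p^[F:ℚ_p] if p = q)`. -/
theorem local_index_pow_range (p : ℕ) [Fact p.Prime] :
    (powMonoidHom p : Fˣ →* Fˣ).range.index
      = Nat.card (powMonoidHom p : Fˣ →* Fˣ).ker * p
        * (if p = q then p ^ Module.finrank ℚ_[q] F else 1) := by
  let : NormedField F := spectralNorm.normedField ℚ_[q] F
  let : NormedAlgebra ℚ_[q] F := spectralNorm.normedAlgebra ℚ_[q] F
  have : IsUltrametricDist F := IsUltrametricDist.of_normedAlgebra ℚ_[q]
  exact index_pow_range p

end FLTAgent.LocalDuality
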