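import Fermat.Agent.LocalDuality.OpenSubgroup

/-!
# A character of order `p` has a non-norm

`IsFieldGroup.exists_not_norm`: the norms from the cyclic extension cut out by such a character
miss some element. This follows from the local norm index.
-/

set_option autoImplicit false

noncomputable section

open groupCohomology

namespace FLTAgent.LocalDuality

variable {q : ℕ} [Fact q.Prime] {p : ℕ} [Fact p.Prime] {G : Type} [Group G] {j : G →* LocalGal q}
  {E : IntermediateField ℚ_[q] (PadicAlgCl q)}

theorem IsFieldGroup.exists_not_norm (h : IsFieldGroup j E) (χ : G →* Multiplicative (ZMod p))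
    (hlev : IsLevelConstant₁ (locR j) χ) {σ : G} (hσ : (χ σ).toAdd = 1) :
    ∃ b : Additive Eˣ, ¬ ∃ c : AlgClUnits j, (∀ g ∈ χ.ker, g • c = c) ∧
      KummerField.incl (j := j) b = ∑ i ∈ Finset.range p, σ ^ i • c := by
  classical
  obtain ⟨F, hF, hFχ⟩ := hlev
  have := h.finite
  have hle : levelSubgroup (locR j) F ≤ χ.ker := fun s hs => by
    rw [MonoidHom.mem_ker, ← one_mul s, hFχ 1 s hs, map_one]
  obtain ⟨E', hEE', h'⟩ := h.exists_sub χ.ker hF hle
  have := h'.finite
  set L : IntermediateField E (PadicAlgCl q) := IntermediateField.extendScalars hEE'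
  have : FiniteDimensional ℚ_[q] L := h'.finite
  have : FiniteDimensional E L := Module.Finite.of_restrictScalars_finite ℚ_[q] E L
  have hmaps : ∀ (g : G) (x : L), j g (x : PadicAlgCl q) ∈ L := fun g x => by
    show j g (x : PadicAlgCl q) ∈ E'
    refine h'.mem_of_fixed fun a => ?_
    have hmem : g⁻¹ * (a : G) * g ∈ χ.ker := by simpa using χ.normal_ker.conj_mem a a.2 g⁻¹
    have h1 := h'.apply_of_mem ⟨_, hmem⟩ (x.2 : (x : PadicAlgCl q) ∈ E')
    show j (a : G) (j g _) = _
    rw [← AlgEquiv.mul_apply, ← map_mul, show (a : G) * g = g * (g⁻¹ * (a : G) * g) by group,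
      map_mul, AlgEquiv.mul_apply]
    exact congrArg (j g) h1
  let act' : G → (L →ₐ[E] L) := fun g =>
    { toFun := fun x => ⟨j g x, hmaps g x⟩
      map_one' := Subtype.ext (map_one (j g))
      map_mul' := fun x y => Subtype.ext (map_mul (j g) _ _)
      map_zero' := Subtype.ext (map_zero (j g))
      map_add' := fun x y => Subtype.ext (map_add (j g) _ _)
      commutes' := fun x => Subtype.ext (h.apply_of_mem g x.2) }
  let act : G →* (L ≃ₐ[E] L) := (AlgEquiv.algHomUnitsEquiv E L).toMonoidHom.comp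
    (MonoidHom.toHomUnits
      { toFun := act'
        map_one' := AlgHom.ext fun x =>
          Subtype.ext (by show j 1 (x : PadicAlgCl q) = x; rw [map_one]; rfl)
        map_mul' := fun a b => AlgHom.ext fun x => Subtype.ext (by
          show j (a * b) (x : PadicAlgCl q) = j a (j b x)
          rw [map_mul]; rfl) })
  have hact : ∀ (g : G) (x : L), (act g x : PadicAlgCl q) = j g x := fun g x => rfl
  have hker : act.ker = χ.ker := by
    refine le_antisymm (fun g hg => ?_) fun g hg => ?_
    · have hfix : j g ∈ E'.fixingSubgroup := (IntermediateField.mem_fixingSubgroup_iff _ _).mpr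
        fun x hx => by
          have h1 := congrArg (fun e : L ≃ₐ[E] L => (e ⟨x, hx⟩ : PadicAlgCl q))
            (MonoidHom.mem_ker.mp hg)
          exact h1
      obtain ⟨a, ha⟩ := h'.exists_eq hfix
      rw [← h.injective ha]
      exact a.2
    · exact MonoidHom.mem_ker.mpr (AlgEquiv.ext fun x =>
        Subtype.ext (h'.apply_of_mem ⟨g, hg⟩ (x.2 : (x : PadicAlgCl q) ∈ E')))
  have hfixed : IntermediateField.fixedField act.range = ⊥ := by
    rw [eq_bot_iff]
    intro x hx
    have hmem : (x : PadicAlgCl q) ∈ E := h.mem_of_fixed fun g =>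
      congrArg Subtype.val ((IntermediateField.mem_fixedField_iff _ _).mp hx (act g) ⟨g, rfl⟩)
    exact ⟨⟨x, hmem⟩, Subtype.ext rfl⟩
  have htop : act.range = ⊤ := by
    have h1 := IntermediateField.fixingSubgroup_fixedField act.range
    rw [hfixed, IntermediateField.fixingSubgroup_bot] at h1
    exact h1.symm
  have : IsGalois E L := IsGalois.of_fixedField_eq_bot _ _ (by
    rw [← htop]; exact hfixed)
  have hcard : Nat.card (L ≃ₐ[E] L) = p := by
    rw [← Subgroup.card_top, ← htop, ← Subgroup.index_ker, hker, Subgroup.index_ker]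
    have hr : χ.range = ⊤ := MonoidHom.range_eq_top.mpr fun y =>
      ⟨σ ^ y.toAdd.val, Multiplicative.toAdd.injective (by
        rw [map_pow, toAdd_pow, hσ, nsmul_one, ZMod.natCast_zmod_val])⟩
    rw [hr, Subgroup.card_top, Nat.card_congr Multiplicative.toAdd, Nat.card_zmod]
  have : IsCyclic (L ≃ₐ[E] L) := isCyclic_of_prime_card hcard
  have hrank : Module.finrank E L = p := by rw [← IsGalois.card_aut_eq_finrank, hcard]
  have hN := local_index_norm_range q E L
  rw [hrank] at hN
  obtain ⟨b, hb⟩ : ∃ b : Eˣ, b ∉ (Units.map (Algebra.norm E : L →* E)).range := by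
    by_contra hall
    push Not at hall
    rw [Subgroup.index_eq_one.mpr (eq_top_iff.mpr fun b _ => hall b)] at hN
    exact (Fact.out : p.Prime).one_lt.ne hN
  refine ⟨Additive.ofMul b, ?_⟩
  rintro ⟨c, hc, hbc⟩
  have hcL : (ofAU j c : PadicAlgCl q) ∈ E' := h'.mem_of_fixed fun a =>
    congrArg (fun u => (ofAU j u : PadicAlgCl q)) (hc a a.2)
  refine hb ⟨Units.mk0 (⟨_, hcL⟩ : L) fun h0 => (ofAU j c).ne_zero (congrArg Subtype.val h0), ?_⟩
  let e : Fin p → (L ≃ₐ[E] L) := fun i => act (σ ^ (i : ℕ))
  have hinj : Function.Injective e := fun a a' haa => Fin.ext (by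
    have hmem : (σ ^ (a : ℕ))⁻¹ * σ ^ (a' : ℕ) ∈ χ.ker := hker ▸ (by
      rw [MonoidHom.mem_ker, map_mul, map_inv, inv_mul_eq_one]; exact haa)
    have h1 := congrArg Multiplicative.toAdd (MonoidHom.mem_ker.mp hmem)
    rw [map_mul, map_inv, map_pow, map_pow, toAdd_mul, toAdd_inv, toAdd_pow, toAdd_pow, hσ,
      nsmul_one, nsmul_one, toAdd_one, neg_add_eq_zero, ZMod.natCast_eq_natCast_iff',
      Nat.mod_eq_of_lt a.2, Nat.mod_eq_of_lt a'.2] at h1
    exact h1)
  have hbij : Function.Bijective e := (Fintype.bijective_iff_injective_and_card e).mpr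
    ⟨hinj, by rw [Fintype.card_fin, ← Nat.card_eq_fintype_card, hcard]⟩
  refine Units.ext (Subtype.ext ?_)
  have h1 : algebraMap E L (Algebra.norm E (⟨_, hcL⟩ : L)) = ∏ i : Fin p, e i ⟨_, hcL⟩ := by
    rw [Algebra.norm_eq_prod_automorphisms]
    exact (Fintype.prod_bijective e hbij _ _ fun i => rfl).symm
  have h2 := congrArg (fun u => (ofAU j u : PadicAlgCl q)) hbc
  rw [← Fin.sum_univ_eq_sum_range (fun i => σ ^ i • c), ofAU_sum, Units.coe_prod] at h2
  refine (congrArg Subtype.val h1).trans ((map_prod L.val _ _).trans ?_)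
  exact h2.symm

end FLTAgent.LocalDuality
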