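import Fermat.Agent.LocalDuality.OpenSubgroup
import Mathlib.GroupTheory.Sylow
import Mathlib.LinearAlgebra.Dimension.Finrank

/-!
# `H²(μ_p)` of a local field containing `μ_p` is one-dimensional, and the symbol is perfect

`finrank_H2`, the perfectness `exists_cup_ne_zero` and the nonvanishing `exists_corH₁_ne_zero` of
corestriction.
-/

set_option autoImplicit false

noncomputable section

open CategoryTheory groupCohomology

namespace FLTAgent.LocalDuality

variable {q : ℕ} [Fact q.Prime] {p : ℕ} [Fact p.Prime]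

namespace KummerField

variable {G : Type} [Group G] {j : G →* LocalGal q} {E : IntermediateField ℚ_[q] (PadicAlgCl q)}
  {ζ : (PadicAlgCl q)ˣ} (K : KummerField p j E ζ)

theorem cls₁_triv_injective :
    Function.Injective (cls₁ (locR j) (trivRep G p)) := by
  intro c c' h
  obtain ⟨a, ha⟩ := cls₁_eq_iff.1 h
  refine Subtype.ext (Subtype.ext (funext fun g => ?_))
  have h1 := congrFun ha g
  rw [d₀₁_hom_apply] at h1
  exact sub_eq_zero.1 (h1.symm.trans (sub_self a))

theorem kummer_surjective : Function.Surjective K.kummer := fun x => by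
  obtain ⟨c, rfl⟩ := cls₁_surjective x
  obtain ⟨b, rfl⟩ := K.kappa_surjective c
  exact ⟨b, rfl⟩

theorem kummer_eq_zero {b : Additive Eˣ} : K.kummer b = 0 ↔ K.kappa b = 0 :=
  map_eq_zero_iff _ cls₁_triv_injective

theorem sym_eq_mulCup (b a : Additive Eˣ) :
    K.sym b a = mulCup (locR j) (K.kummer b) (K.kummer a) := rfl

include K in
theorem finrank_range_cup {y : continuousH1 (locR j) (trivRep G p)} (hy : y ≠ 0) :
    Module.finrank (ZMod p) ((mulCup (locR j)).flip y).range = 1 := by
  obtain ⟨a, rfl⟩ := K.kummer_surjective y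
  have ha : K.kappa a ≠ 0 := fun h => hy (K.kummer_eq_zero.2 h)
  have hcard : Nat.card ((mulCup (locR j)).flip (K.kummer a)).range = p := by
    refine Eq.trans ?_ (K.index_ker_sym ha)
    rw [AddSubgroup.index_ker]
    refine Nat.card_congr (Equiv.subtypeEquivRight fun z => ?_)
    constructor
    · rintro ⟨x, rfl⟩
      obtain ⟨b, rfl⟩ := K.kummer_surjective x
      exact ⟨b, rfl⟩
    · rintro ⟨b, rfl⟩
      exact ⟨K.kummer b, rfl⟩
  have : Finite ((mulCup (locR j)).flip (K.kummer a)).range :=
    Nat.finite_of_card_ne_zero (by rw [hcard]; exact (Fact.out : p.Prime).ne_zero)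
  rw [Module.natCard_eq_pow_finrank (K := ZMod p), Nat.card_zmod] at hcard
  exact Nat.pow_right_injective (Fact.out : p.Prime).two_le (hcard.trans (pow_one p).symm)

include K in
theorem exists_cup_ne_zero {y : continuousH1 (locR j) (trivRep G p)} (hy : y ≠ 0) :
    ∃ x, mulCup (locR j) x y ≠ 0 := by
  by_contra h
  push Not at h
  have h0 : ((mulCup (locR j)).flip y).range = ⊥ :=
    LinearMap.range_eq_bot.mpr (LinearMap.ext fun x => h x)
  have := K.finrank_range_cup hy
  rw [h0, finrank_bot] at this
  exact zero_ne_one this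

theorem cup_skew (x y : continuousH1 (locR j) (trivRep G p)) (K : KummerField p j E ζ) :
    mulCup (locR j) y x = - mulCup (locR j) x y := by
  obtain ⟨b, rfl⟩ := K.kummer_surjective x
  obtain ⟨a, rfl⟩ := K.kummer_surjective y
  rw [← sym_eq_mulCup, ← sym_eq_mulCup]
  exact K.sym_antisymm b a

include K in
theorem mem_span_range {x y : continuousH1 (locR j) (trivRep G p)}
    (h : mulCup (locR j) x y ≠ 0) :
    ((mulCup (locR j)).flip y).range = Submodule.span (ZMod p) {mulCup (locR j) x y} := by
  have hy : y ≠ 0 := fun h0 => h (by rw [h0, map_zero])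
  have hle : Submodule.span (ZMod p) {mulCup (locR j) x y} ≤ ((mulCup (locR j)).flip y).range :=
    (Submodule.span_singleton_le_iff_mem _ _).mpr ⟨x, rfl⟩
  have : FiniteDimensional (ZMod p) ((mulCup (locR j)).flip y).range :=
    Module.finite_of_finrank_pos (by rw [K.finrank_range_cup hy]; exact one_pos)
  refine (Submodule.eq_of_le_of_finrank_le hle ?_).symm
  rw [K.finrank_range_cup hy, finrank_span_singleton h]

include K in
/-- All symbols lie on one line. -/
theorem cup_mem_span {x y : continuousH1 (locR j) (trivRep G p)}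
    (h : mulCup (locR j) x y ≠ 0) (x' y' : continuousH1 (locR j) (trivRep G p)) :
    mulCup (locR j) x' y' ∈ Submodule.span (ZMod p) {mulCup (locR j) x y} := by
  rw [← K.mem_span_range h]
  by_cases hy' : y' = 0
  · rw [hy', map_zero]; exact zero_mem _
  have hy : y ≠ 0 := fun h0 => h (by rw [h0, map_zero])
  -- some element pairs non-trivially with both
  obtain ⟨w, hw, hw'⟩ : ∃ w, mulCup (locR j) w y ≠ 0 ∧ mulCup (locR j) w y' ≠ 0 := by
    obtain ⟨w₁, h₁⟩ := K.exists_cup_ne_zero hy
    obtain ⟨w₂, h₂⟩ := K.exists_cup_ne_zero hy'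
    by_cases h₁' : mulCup (locR j) w₁ y' = 0
    · by_cases h₂' : mulCup (locR j) w₂ y = 0
      · refine ⟨w₁ + w₂, ?_, ?_⟩
        · rwa [map_add, LinearMap.add_apply, h₂', add_zero]
        · rwa [map_add, LinearMap.add_apply, h₁', zero_add]
      · exact ⟨w₂, h₂', h₂⟩
    · exact ⟨w₁, h₁, h₁'⟩
  have hyw : mulCup (locR j) y w ≠ 0 := by rw [cup_skew w y K]; exact neg_ne_zero.mpr hw
  have hy'w : mulCup (locR j) y' w ≠ 0 := by rw [cup_skew w y' K]; exact neg_ne_zero.mpr hw'
  have hmem : mulCup (locR j) w y' ∈ ((mulCup (locR j)).flip y).range := by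
    rw [K.mem_span_range hw, cup_skew y' w K, Submodule.neg_mem_iff]
    have h1 : mulCup (locR j) y' w ∈ ((mulCup (locR j)).flip w).range := ⟨y', rfl⟩
    rw [K.mem_span_range hyw] at h1
    rw [cup_skew y w K, ← neg_one_smul (ZMod p) (mulCup (locR j) y w),
      Submodule.span_singleton_smul_eq isUnit_one.neg]
    exact h1
  have h2 : mulCup (locR j) x' y' ∈ ((mulCup (locR j)).flip y').range := ⟨x', rfl⟩
  rw [K.mem_span_range hw'] at h2
  exact (Submodule.span_singleton_le_iff_mem _ _).mpr hmem h2

include K in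
theorem p_sq_le_index_pow :
    p ^ 2 ≤ (powMonoidHom p : Eˣ →* Eˣ).range.index := by
  have := K.finite
  have hζ : IsPrimitiveRoot (⟨(ζ : PadicAlgCl q), K.mem⟩ : E) p :=
    IsPrimitiveRoot.of_map_of_injective (f := E.val) (IsPrimitiveRoot.coe_units_iff.mpr K.prim)
      E.val.injective
  have : NeZero p := ⟨(Fact.out : p.Prime).ne_zero⟩
  rw [local_index_pow_range q E p]
  have : Nat.card (powMonoidHom p : Eˣ →* Eˣ).ker = p := by
    have e : (powMonoidHom p : Eˣ →* Eˣ).ker = rootsOfUnity p E := by
      ext x; simp [MonoidHom.mem_ker, mem_rootsOfUnity]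
    rw [e]
    exact hζ.card_rootsOfUnity
  rw [this, sq]
  refine Nat.le_mul_of_pos_right _ ?_
  split_ifs
  · exact pow_pos (Fact.out : p.Prime).pos _
  · exact one_pos

omit [Fact (Nat.Prime p)] in
theorem index_range_pow_eq : (powMonoidHom p : Eˣ →* Eˣ).range.toAddSubgroup.index
    = (powMonoidHom p : Eˣ →* Eˣ).range.index := Subgroup.index_toAddSubgroup

include K in
theorem ker_kummer_le : (K.kummer.ker : AddSubgroup (Additive Eˣ))
    ≤ (powMonoidHom p : Eˣ →* Eˣ).range.toAddSubgroup := by
  intro b hb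
  have h0 : K.kappa b = 0 := K.kummer_eq_zero.1 hb
  obtain ⟨c, rfl⟩ := K.exists_nsmul_of_kv_eq_zero (b := b) fun g => by
    have := congrArg (fun c : levelCocycles₁ (locR j) (trivRep G p) =>
      (c.1 : G → trivRep G p) g) h0
    exact this
  exact ⟨c.toMul, rfl⟩

include K in
/-- `H¹` is not spanned by one element. -/
theorem exists_notMem_span (y : continuousH1 (locR j) (trivRep G p)) :
    ∃ x, x ∉ Submodule.span (ZMod p) {y} := by
  classical
  by_contra h
  push Not at h
  have hcard : Nat.card (continuousH1 (locR j) (trivRep G p)) ≤ p := by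
    have hs : Function.Surjective fun i : ZMod p => i • y := fun x =>
      Submodule.mem_span_singleton.mp (h x)
    exact (Nat.card_le_card_of_surjective _ hs).trans_eq (Nat.card_zmod p)
  have hfin : Finite (continuousH1 (locR j) (trivRep G p)) :=
    Finite.of_surjective (fun i : ZMod p => i • y) fun x =>
      Submodule.mem_span_singleton.mp (h x)
  have hker : K.kummer.ker.index ≤ p := by
    rw [AddSubgroup.index_ker, AddMonoidHom.range_eq_top.mpr K.kummer_surjective]
    exact (Nat.card_congr AddSubgroup.topEquiv.toEquiv).trans_le hcard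
  have hdvd : (powMonoidHom p : Eˣ →* Eˣ).range.index ∣ K.kummer.ker.index :=
    index_range_pow_eq (E := E) (p := p) ▸ AddSubgroup.index_dvd_of_le K.ker_kummer_le
  have hpos : 0 < K.kummer.ker.index := by
    rw [AddSubgroup.index_ker]; exact Nat.card_pos
  have := K.p_sq_le_index_pow.trans ((Nat.le_of_dvd hpos hdvd).trans hker)
  nlinarith [(Fact.out : p.Prime).two_le]

include K in
theorem exists_ne_zero : ∃ y : continuousH1 (locR j) (trivRep G p), y ≠ 0 := by
  obtain ⟨x, hx⟩ := K.exists_notMem_span 0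
  exact ⟨x, fun h => hx (by rw [h]; exact zero_mem _)⟩

/-- Corestriction of a Kummer class is the Kummer class of the norm. -/
theorem corH₁_kummer (H : Subgroup G) [Fintype (G ⧸ H)]
    (hH : ∃ F : IntermediateField ℚ (AlgebraicClosure ℚ),
      FiniteDimensional ℚ F ∧ levelSubgroup (locR j) F ≤ H)
    {E' : IntermediateField ℚ_[q] (PadicAlgCl q)} (K' : KummerField p (j.comp H.subtype) E' ζ)
    (c : Additive E'ˣ) (b : Additive Eˣ)
    (hb : incl (j := j) b
      = ∑ x : G ⧸ H, x.out • toAU j (ofAU _ (incl (j := j.comp H.subtype) c))) :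
    corH₁ (r := locR j) H (trivRep G p) hH (K'.kummer c) = K.kummer b := by
  refine (corH₁_cls (r := locR j) (A := trivRep G p) H hH (K'.kappa c)).trans
    (congrArg (cls₁ (locR j) (trivRep G p)) (Subtype.ext (Subtype.ext (funext fun g =>
      zetaPow_injective j K.prim ?_))))
  show zetaPow j K.prim (∑ x : G ⧸ H, K'.kv c (cosetShift H g x)) = zetaPow j K.prim (K.kv b g)
  set β := root p (j.comp H.subtype) (incl (j := j.comp H.subtype) c)
  have hβ : p • β = incl (j := j.comp H.subtype) c := nsmul_root _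
  set β' : AlgClUnits j := toAU j (ofAU _ β)
  set B := ∑ x : G ⧸ H, x.out • β'
  have hB : p • B = incl (j := j) b := by
    rw [hb, Finset.smul_sum]
    refine Finset.sum_congr rfl fun x _ => ?_
    rw [smul_comm]
    exact congrArg (fun u => x.out • toAU j (ofAU _ u)) hβ
  rw [K.zetaPow_kv b g hB, map_sum]
  have hterm : ∀ x : G ⧸ H, zetaPow j K.prim (K'.kv c (cosetShift H g x))
      = (g • x.out • β') - (g • x).out • β' := by
    intro x
    have h1 : zetaPow j K.prim (K'.kv c (cosetShift H g x))
        = (cosetShift H g x : G) • β' - β' :=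
      K'.zetaPow_kv c (cosetShift H g x) hβ
    rw [← K.smul_zeta (g • x).out, h1, smul_sub, smul_smul, out_mul_cosetShift, mul_smul]
  simp only [hterm, Finset.sum_sub_distrib, B, Finset.smul_sum]
  congr 1
  exact sum_smul_eq g fun x => x.out • β'

include K in
theorem exists_kummer_cocycle (χ : G →* Multiplicative (ZMod p))
    (hlev : IsLevelConstant₁ (locR j) χ) : ∃ a, K.chi a = χ := by
  obtain ⟨a, ha⟩ := K.kappa_surjective (mkZ₁ (A := trivRep G p) (fun g => (χ g).toAdd)
    ((mem_cocycles₁_iff (A := trivRep G p) _).2 fun g h =>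
      show (χ (g * h)).toAdd = (χ h).toAdd + (χ g).toAdd by rw [map_mul, toAdd_mul, add_comm])
    (hlev.comp Multiplicative.toAdd))
  refine ⟨a, MonoidHom.ext fun g => Multiplicative.toAdd.injective ?_⟩
  exact congrArg (fun c : levelCocycles₁ (locR j) (trivRep G p) =>
    (c.1 : G → trivRep G p) g) ha

/-- Corestriction from the kernel of a character is non-zero on `H¹`. -/
theorem exists_corH₁_ne_zero {a : Additive Eˣ} {σ : G} (hσ : (K.chi a σ).toAdd = 1)
    [Fintype (G ⧸ (K.chi a).ker)]
    (hH : ∃ F : IntermediateField ℚ (AlgebraicClosure ℚ),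
      FiniteDimensional ℚ F ∧ levelSubgroup (locR j) F ≤ (K.chi a).ker)
    {E' : IntermediateField ℚ_[q] (PadicAlgCl q)}
    (K' : KummerField p (j.comp (K.chi a).ker.subtype) E' ζ) :
    ∃ y, corH₁ (r := locR j) (K.chi a).ker (trivRep G p) hH y ≠ 0 := by
  have ha : K.kappa a ≠ 0 := fun h0 => by
    have h1 := congrArg (fun c : levelCocycles₁ (locR j) (trivRep G p) =>
      (c.1 : G → trivRep G p) σ) h0
    exact one_ne_zero (hσ.symm.trans h1)
  have hne : ¬ (K.sym.flip a).ker ≤ K.kummer.ker := by
    intro hle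
    have hdvd : (powMonoidHom p : Eˣ →* Eˣ).range.index ∣ p := by
      have hd := AddSubgroup.index_dvd_of_le (hle.trans K.ker_kummer_le)
      rw [index_range_pow_eq, K.index_ker_sym ha] at hd
      exact hd
    have := K.p_sq_le_index_pow.trans (Nat.le_of_dvd (Fact.out : p.Prime).pos hdvd)
    nlinarith [(Fact.out : p.Prime).two_le]
  obtain ⟨b, hb, hb'⟩ := SetLike.not_le_iff_exists.mp hne
  obtain ⟨c, hc, hbc⟩ := (K.sym_eq_zero_iff b hσ).1 hb
  obtain ⟨c', hc'⟩ := K'.exists_incl (u := toAU _ (ofAU j c)) fun g => hc g g.2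
  refine ⟨K'.kummer c', ?_⟩
  rw [K.corH₁_kummer (K.chi a).ker hH K' c' b ?_]
  · exact hb'
  rw [hbc]
  let e : Fin p → G ⧸ (K.chi a).ker := fun i => QuotientGroup.mk (σ ^ (i : ℕ))
  have hpow : ∀ n : ℕ, (K.chi a (σ ^ n)).toAdd = (n : ZMod p) := fun n => by
    rw [map_pow, toAdd_pow, hσ, nsmul_one]
  have he : Function.Bijective e := by
    refine ⟨fun i i' hii => Fin.ext ?_, fun x => ?_⟩
    · have h1 := congrArg Multiplicative.toAdd (MonoidHom.mem_ker.mp (QuotientGroup.eq.mp hii))
      rw [map_mul, map_inv, toAdd_mul, toAdd_inv, hpow, hpow, toAdd_one, neg_add_eq_zero,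
        ZMod.natCast_eq_natCast_iff', Nat.mod_eq_of_lt i.2, Nat.mod_eq_of_lt i'.2] at h1
      exact h1
    · obtain ⟨g, rfl⟩ := QuotientGroup.mk_surjective x
      exact ⟨⟨_, ZMod.val_lt (K.chi a g).toAdd⟩, QuotientGroup.eq.mpr (inv_pow_mul_mem hσ g)⟩
  rw [← Fin.sum_univ_eq_sum_range (fun i => σ ^ i • c)]
  refine Fintype.sum_bijective e he _ _ fun i => ?_
  have hmem : (σ ^ (i : ℕ))⁻¹ * (e i).out ∈ (K.chi a).ker :=
    QuotientGroup.eq.mp (QuotientGroup.out_eq' _).symm
  rw [hc']
  show σ ^ (i : ℕ) • c = (e i).out • c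
  conv_rhs => rw [← mul_inv_cancel_left (σ ^ (i : ℕ)) (e i).out, mul_smul, hc _ hmem]

end KummerField

open KummerField in
/-- A class invariant at a level of `p`-power index is a multiple of a non-zero symbol. -/
theorem mem_line_of_level (n : ℕ) : ∀ {G : Type} [Group G] {j : G →* LocalGal q}
    {E : IntermediateField ℚ_[q] (PadicAlgCl q)} {ζ : (PadicAlgCl q)ˣ}
    (_K : KummerField p j E ζ) (F : IntermediateField ℚ (AlgebraicClosure ℚ))
    (_hF : FiniteDimensional ℚ F) (_hn : (levelSubgroup (locR j) F).Normal)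
    (_hidx : (levelSubgroup (locR j) F).index = p ^ n)
    (z : levelCocycles₂ (locR j) (trivRep G p))
    (_hz : ∀ g g' s s', s ∈ levelSubgroup (locR j) F → s' ∈ levelSubgroup (locR j) F →
      (z : G × G → trivRep G p) (g * s, g' * s') = (z : G × G → trivRep G p) (g, g'))
    {x y : continuousH1 (locR j) (trivRep G p)} (_hxy : mulCup (locR j) x y ≠ 0),
    cls₂ (locR j) (trivRep G p) z ∈ Submodule.span (ZMod p) {mulCup (locR j) x y} := by
  induction n with
  | zero =>
    intro G _ j E ζ K F hF hn hidx z hz x y _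
    rw [pow_zero, Subgroup.index_eq_one] at hidx
    have hconst : ∀ g g', (z : G × G → trivRep G p) (g, g') = (z : G × G → trivRep G p) (1, 1) :=
      fun g g' => by
        simpa using hz 1 1 g g' (hidx ▸ Subgroup.mem_top g) (hidx ▸ Subgroup.mem_top g')
    suffices h : cls₂ (locR j) (trivRep G p) z = 0 by rw [h]; exact zero_mem _
    rw [cls₂_eq_zero_iff]
    refine ⟨fun _ => (z : G × G → trivRep G p) (1, 1), isLevelConstant₁_const _ _,
      funext fun gk => ?_⟩
    obtain ⟨g, k⟩ := gk
    rw [hconst g k]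
    show (show ZMod p from (z : G × G → trivRep G p) (1, 1))
      - (show ZMod p from (z : G × G → trivRep G p) (1, 1))
      + (show ZMod p from (z : G × G → trivRep G p) (1, 1)) = _
    rw [sub_self, zero_add]
  | succ n ih =>
    intro G _ j E ζ K F hF hn hidx z hz x y hxy
    have := hn
    have := hF
    set N := levelSubgroup (locR j) F with hN
    have : Finite (G ⧸ N) := finite_quotient_level j hF
    have hQ : Nat.card (G ⧸ N) = p ^ (n + 1) := hidx
    obtain ⟨Q', hQ'⟩ := Sylow.exists_subgroup_card_pow_prime p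
      (n := n) (G := G ⧸ N) (hQ ▸ pow_dvd_pow p (Nat.le_succ n))
    have hQ'idx : Q'.index = p := by
      have h := Q'.card_mul_index
      rw [hQ', hQ, pow_succ] at h
      exact Nat.eq_of_mul_eq_mul_left (pow_pos (Fact.out : p.Prime).pos n) h
    have : Q'.Normal := Subgroup.normal_of_index_eq_minFac_card (by
      rw [hQ'idx, hQ, (Fact.out : p.Prime).pow_minFac (Nat.succ_ne_zero n)])
    have hcardq : Nat.card ((G ⧸ N) ⧸ Q') = p := hQ'idx
    have : IsCyclic ((G ⧸ N) ⧸ Q') := isCyclic_of_prime_card hcardq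
    let e : ((G ⧸ N) ⧸ Q') ≃* Multiplicative (ZMod p) :=
      mulEquivOfPrimeCardEq hcardq ((Nat.card_congr Multiplicative.toAdd).trans (Nat.card_zmod p))
    let χ : G →* Multiplicative (ZMod p) :=
      e.toMonoidHom.comp ((QuotientGroup.mk' Q').comp (QuotientGroup.mk' N))
    have hχN : N ≤ χ.ker := fun s hs => by
      rw [MonoidHom.mem_ker]
      show e (QuotientGroup.mk' Q' (QuotientGroup.mk' N s)) = 1
      rw [show QuotientGroup.mk' N s = 1 from (QuotientGroup.eq_one_iff s).mpr hs, map_one, map_one]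
    obtain ⟨a, ha⟩ := K.exists_kummer_cocycle χ ⟨F, hF, fun g s hs => by
      rw [map_mul, MonoidHom.mem_ker.mp (hχN hs), mul_one]⟩
    have hsurj : Function.Surjective χ := e.surjective.comp
      ((QuotientGroup.mk'_surjective Q').comp (QuotientGroup.mk'_surjective N))
    obtain ⟨σ, hσ'⟩ := hsurj (Multiplicative.ofAdd 1)
    have hσ : (K.chi a σ).toAdd = 1 := by rw [ha, hσ']; rfl
    rw [← ha] at hχN
    set H := (K.chi a).ker with hHdef
    have hHidx : H.index = p := by
      rw [hHdef, ha, Subgroup.index_ker, MonoidHom.range_eq_top.mpr hsurj, Subgroup.card_top,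
        Nat.card_congr Multiplicative.toAdd, Nat.card_zmod]
    have : H.FiniteIndex := ⟨by rw [hHidx]; exact (Fact.out : p.Prime).ne_zero⟩
    have : Finite (G ⧸ H) := Subgroup.finite_quotient_of_finiteIndex
    let : Fintype (G ⧸ H) := Fintype.ofFinite _
    have hlevH : ∃ F' : IntermediateField ℚ (AlgebraicClosure ℚ),
        FiniteDimensional ℚ F' ∧ levelSubgroup (locR j) F' ≤ H := ⟨F, hF, hχN⟩
    obtain ⟨E', K'⟩ := K.exists_sub H hF hχN
    have hidx' : (levelSubgroup (locR (j.comp H.subtype)) F).index = p ^ n := by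
      have h := Subgroup.relIndex_mul_index hχN
      rw [hidx, hHidx, pow_succ] at h
      exact Nat.eq_of_mul_eq_mul_right (Fact.out : p.Prime).pos h
    -- a class on `H` whose corestriction is non-zero
    obtain ⟨y', hy'⟩ := K.exists_corH₁_ne_zero hσ hlevH K'
    obtain ⟨a', ha'res, ha'⟩ : ∃ a', resH₁ (locR j) H (trivRep G p) a' ≠ 0 ∧
        mulCup (locR j) a' (corH₁ (r := locR j) H (trivRep G p) hlevH y') ≠ 0 := by
      obtain ⟨w, hw⟩ := K.exists_cup_ne_zero hy'
      set Y := corH₁ (r := locR j) H (trivRep G p) hlevH y'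
      by_cases hwr : resH₁ (locR j) H (trivRep G p) w = 0
      · -- perturb by something outside the kernel of restriction
        obtain ⟨w', hw'⟩ := K.exists_notMem_span (K.kummer a)
        have hker : ∀ v, resH₁ (locR j) H (trivRep G p) v = 0 →
            v ∈ Submodule.span (ZMod p) {K.kummer a} := by
          intro v hv
          obtain ⟨c, rfl⟩ := cls₁_surjective v
          have hc : ∀ h ∈ H, (show ZMod p from (c.1 : G → trivRep G p) h) = 0 := fun h hh => by
            obtain ⟨a₀, ha₀⟩ := cls₁_eq_zero_iff.1 ((resH₁_cls (r := locR j) H c).symm.trans hv)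
            exact (congrFun ha₀ ⟨h, hh⟩).symm.trans (sub_self a₀)
          rw [Submodule.mem_span_singleton]
          refine ⟨(show ZMod p from (c.1 : G → trivRep G p) σ), ?_⟩
          refine ((map_smul (cls₁ (locR j) (trivRep G p)) _ _).symm).trans
            (congrArg _ (Subtype.ext (Subtype.ext (funext fun g => ?_))))
          show (show ZMod p from (c.1 : G → trivRep G p) σ) * K.kv a g
            = (show ZMod p from (c.1 : G → trivRep G p) g)
          have hlin : ∀ g h : G, (show ZMod p from (c.1 : G → trivRep G p) (g * h))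
              = (show ZMod p from (c.1 : G → trivRep G p) h)
                + (show ZMod p from (c.1 : G → trivRep G p) g) := fun g h =>
            (mem_cocycles₁_iff (A := trivRep G p) _).1 (zc c) g h
          have hpow : ∀ m : ℕ, (show ZMod p from (c.1 : G → trivRep G p) (σ ^ m))
              = (m : ZMod p) * (show ZMod p from (c.1 : G → trivRep G p) σ) := by
            intro m
            induction m with
            | zero => rw [pow_zero, hc 1 (one_mem _), Nat.cast_zero, zero_mul]
            | succ m ihm => rw [pow_succ, hlin, ihm]; push_cast; ring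
          conv_rhs => rw [← mul_inv_cancel_left (σ ^ (K.chi a g).toAdd.val) g]
          rw [hlin, hc _ (inv_pow_mul_mem hσ g), zero_add, hpow, ZMod.natCast_zmod_val,
            KummerField.toAdd_chi, mul_comm]
        have hw'r : resH₁ (locR j) H (trivRep G p) w' ≠ 0 := fun h0 => hw' (hker _ h0)
        by_cases hw'Y : mulCup (locR j) w' Y = 0
        · refine ⟨w + w', ?_, ?_⟩
          · rwa [map_add, hwr, zero_add]
          · rwa [map_add, LinearMap.add_apply, hw'Y, add_zero]
        · exact ⟨w', hw'r, hw'Y⟩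
      · exact ⟨w, hwr, hw⟩
    set uH : continuousH2 (locR (j.comp H.subtype)) (trivRep H p) :=
      mulCup (locR (j.comp H.subtype)) (resH₁ (locR j) H (trivRep G p) a') y' with huH
    have hcor : corH₂ (r := locR j) H (trivRep G p) hlevH uH
        = mulCup (locR j) a' (corH₁ (r := locR j) H (trivRep G p) hlevH y') :=
      corH₂_cup (r := locR j) H hlevH isEquivariantBilin_mul (isSmooth_trivRep _) a' y'
    have huH0 : mulCup (locR (j.comp H.subtype))
        (resH₁ (locR j) H (trivRep G p) a') y' ≠ 0 := fun h0 => ha' (by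
      rw [← hcor, huH, h0]; exact map_zero _)
    have hmem := ih K' F hF (Subgroup.Normal.comap hn H.subtype) hidx'
      (mkZ₂ (A := trivRep H p) (fun t => (z : G × G → trivRep G p) ((t.1 : G), (t.2 : G)))
        ((mem_cocycles₂_iff (A := trivRep H p) _).2 fun g h k =>
          (mem_cocycles₂_iff (A := trivRep G p) _).1 z.2.1 g h k)
        (IsLevelConstant₂.precomp (rH := locR j) H.subtype (fun _ => rfl) z.2.2))
      (fun g g' s s' hs hs' => hz g g' s s' hs hs') huH0
    obtain ⟨t, ht⟩ := Submodule.mem_span_singleton.mp hmem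
    have hres : resH₂ (locR j) H (trivRep G p) (cls₂ (locR j) (trivRep G p) z) = t • uH := by
      rw [huH]; exact ht.symm
    have hcores : H.index • cls₂ (locR j) (trivRep G p) z
        = t • mulCup (locR j) a' (corH₁ (r := locR j) H (trivRep G p) hlevH y') :=
      (corH₂_resH₂ (r := locR j) H hlevH _).symm.trans
        ((congrArg (corH₂ (r := locR j) H (trivRep G p) hlevH) hres).trans
          (((corH₂ (r := locR j) H (trivRep G p) hlevH).map_smul t uH).trans
            (congrArg (t • ·) hcor)))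
    rw [hHidx, ← Nat.cast_smul_eq_nsmul (ZMod p), ZMod.natCast_self,
      zero_smul, eq_comm, smul_eq_zero] at hcores
    have ht0 : t = 0 := hcores.resolve_right ha'
    rw [ht0, zero_smul] at hres
    obtain ⟨b, hb⟩ := K.exists_eq_sym hσ hres
    rw [hb, KummerField.sym_eq_mulCup]
    exact K.cup_mem_span hxy _ _

namespace KummerField

variable {G : Type} [Group G] {j : G →* LocalGal q} {E : IntermediateField ℚ_[q] (PadicAlgCl q)}
  {ζ : (PadicAlgCl q)ˣ} (K : KummerField p j E ζ)

include K in
/-- Every class is a multiple of a non-zero symbol. -/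
theorem mem_line {x y : continuousH1 (locR j) (trivRep G p)}
    (hxy : mulCup (locR j) x y ≠ 0) (z : continuousH2 (locR j) (trivRep G p)) :
    z ∈ Submodule.span (ZMod p) {mulCup (locR j) x y} := by
  obtain ⟨z, rfl⟩ := cls₂_surjective z
  obtain ⟨F₀, hF₀, hz₀⟩ := z.2.2
  have := hF₀
  obtain ⟨F, hF, hle, hn⟩ := exists_normal_level (locR j) F₀
  have := hn
  have := hF
  set N := levelSubgroup (locR j) F with hN
  have hNle : N ≤ levelSubgroup (locR j) F₀ := levelSubgroup_anti _ hle
  have : Finite (G ⧸ N) := finite_quotient_level j hF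
  obtain ⟨P⟩ : Nonempty (Sylow p (G ⧸ N)) := inferInstance
  set H := (P : Subgroup (G ⧸ N)).comap (QuotientGroup.mk' N) with hHdef
  have hNH : N ≤ H := fun s hs => by
    show QuotientGroup.mk' N s ∈ (P : Subgroup (G ⧸ N))
    rw [show QuotientGroup.mk' N s = 1 from (QuotientGroup.eq_one_iff s).mpr hs]
    exact one_mem _
  have hHidx : H.index = (P : Subgroup (G ⧸ N)).index :=
    Subgroup.index_comap_of_surjective _ (QuotientGroup.mk'_surjective N)
  have : H.FiniteIndex := ⟨by rw [hHidx]; exact Subgroup.index_ne_zero_of_finite⟩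
  have : Finite (G ⧸ H) := Subgroup.finite_quotient_of_finiteIndex
  let : Fintype (G ⧸ H) := Fintype.ofFinite _
  have hlevH : ∃ F' : IntermediateField ℚ (AlgebraicClosure ℚ),
      FiniteDimensional ℚ F' ∧ levelSubgroup (locR j) F' ≤ H := ⟨F, hF, hNH⟩
  have hunit : IsUnit ((H.index : ℕ) : ZMod p) := by
    rw [hHidx, isUnit_iff_ne_zero, Ne, ZMod.natCast_eq_zero_iff]
    exact P.not_dvd_index
  obtain ⟨n, hcard⟩ := IsPGroup.iff_card.mp P.isPGroup'
  obtain ⟨E', K'⟩ := K.exists_sub H hF hNH
  have hidx' : (levelSubgroup (locR (j.comp H.subtype)) F).index = p ^ n := by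
    have h := Subgroup.relIndex_mul_index hNH
    have hNidx : N.index = Nat.card (P : Subgroup (G ⧸ N)) * (P : Subgroup (G ⧸ N)).index :=
      ((P : Subgroup (G ⧸ N)).card_mul_index).symm
    rw [hHidx, hNidx, hcard] at h
    exact Nat.eq_of_mul_eq_mul_right (Nat.pos_of_ne_zero Subgroup.index_ne_zero_of_finite) h
  obtain ⟨y₀, hy₀⟩ := K.exists_ne_zero
  have hres₀ : resH₁ (locR j) H (trivRep G p) y₀ ≠ 0 := fun h0 =>
    hy₀ (resH₁_injective H hlevH hunit (h0.trans (map_zero _).symm))
  obtain ⟨x', hx'⟩ := K'.exists_cup_ne_zero hres₀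
  have hx'' : mulCup (locR (j.comp H.subtype)) (resH₁ (locR j) H (trivRep G p) y₀) x' ≠ 0 := by
    intro h0
    exact hx' ((cup_skew _ x' K').trans ((congrArg Neg.neg h0).trans neg_zero))
  have hmem := mem_line_of_level n K' F hF (Subgroup.Normal.comap hn H.subtype) hidx'
    (mkZ₂ (A := trivRep H p) (fun t => (z : G × G → trivRep G p) ((t.1 : G), (t.2 : G)))
      ((mem_cocycles₂_iff (A := trivRep H p) _).2 fun g h k =>
        (mem_cocycles₂_iff (A := trivRep G p) _).1 z.2.1 g h k)
      (IsLevelConstant₂.precomp (rH := locR j) H.subtype (fun _ => rfl) z.2.2))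
    (fun g g' s s' hs hs' => hz₀ g g' s s' (hNle hs) (hNle hs')) hx''
  obtain ⟨t, ht⟩ := Submodule.mem_span_singleton.mp hmem
  have hres : resH₂ (locR j) H (trivRep G p) (cls₂ (locR j) (trivRep G p) z)
      = t • mulCup (locR (j.comp H.subtype)) (resH₁ (locR j) H (trivRep G p) y₀) x' := ht.symm
  have hcores : H.index • cls₂ (locR j) (trivRep G p) z
      = t • corH₂ (r := locR j) H (trivRep G p) hlevH
        (mulCup (locR (j.comp H.subtype)) (resH₁ (locR j) H (trivRep G p) y₀) x') :=
    (corH₂_resH₂ (r := locR j) H hlevH _).symm.trans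
      ((congrArg (corH₂ (r := locR j) H (trivRep G p) hlevH) hres).trans
        ((corH₂ (r := locR j) H (trivRep G p) hlevH).map_smul t _))
  have hc : corH₂ (r := locR j) H (trivRep G p) hlevH
      (mulCup (locR (j.comp H.subtype)) (resH₁ (locR j) H (trivRep G p) y₀) x')
      = mulCup (locR j) y₀ (corH₁ (r := locR j) H (trivRep G p) hlevH x') :=
    corH₂_cup (r := locR j) H hlevH isEquivariantBilin_mul (isSmooth_trivRep _) y₀ x'
  rw [hc, ← Nat.cast_smul_eq_nsmul (ZMod p)] at hcores
  have hm := Submodule.smul_mem (Submodule.span (ZMod p) {mulCup (locR j) x y}) t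
    (K.cup_mem_span hxy y₀ (corH₁ (r := locR j) H (trivRep G p) hlevH x'))
  rw [← hcores] at hm
  exact (Submodule.smul_mem_iff _ hunit.ne_zero).mp hm

include K in
/-- `H²(μ_p)` is one-dimensional. -/
theorem finrank_H2 : Module.finrank (ZMod p) (continuousH2 (locR j) (trivRep G p)) = 1 := by
  obtain ⟨y, hy⟩ := K.exists_ne_zero
  obtain ⟨x, hx⟩ := K.exists_cup_ne_zero hy
  refine finrank_eq_one (mulCup (locR j) x y) hx fun z => ?_
  exact Submodule.mem_span_singleton.mp (K.mem_line hx z)

end KummerField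

end FLTAgent.LocalDuality
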