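import Fermat.Agent.LocalDuality.Symbol
import Mathlib.FieldTheory.Galois.Infinite

/-!
# Subgroups containing a level are Galois groups of finite extensions

`IsFieldGroup.exists_sub` and `KummerField.exists_sub` for such subgroups, with
`finite_quotient_level`.
-/

set_option autoImplicit false

noncomputable section

open groupCohomology

namespace FLTAgent.LocalDuality

variable {q : ℕ} [Fact q.Prime] {G : Type} [Group G] {j : G →* LocalGal q}
  {E : IntermediateField ℚ_[q] (PadicAlgCl q)}

/-- A subgroup containing a level is the group of a finite extension. -/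
theorem IsFieldGroup.exists_sub (h : IsFieldGroup j E) (H : Subgroup G)
    {F : IntermediateField ℚ (AlgebraicClosure ℚ)} (hF : FiniteDimensional ℚ F)
    (hle : levelSubgroup (locR j) F ≤ H) :
    ∃ E' : IntermediateField ℚ_[q] (PadicAlgCl q),
      E ≤ E' ∧ IsFieldGroup (j.comp H.subtype) E' := by
  have := hF; have := h.finite
  obtain ⟨L, hL, hLF⟩ := exists_field_le_level q F
  have := hL
  have hsub : (L ⊔ E).fixingSubgroup ≤ H.map j := by
    intro τ hτ
    obtain ⟨g, rfl⟩ := h.exists_eq (IntermediateField.fixingSubgroup_antitone le_sup_right hτ)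
    exact ⟨g, hle (hLF (IntermediateField.fixingSubgroup_antitone le_sup_left hτ)), rfl⟩
  have hopen : IsOpen (H.map j : Set (LocalGal q)) :=
    Subgroup.isOpen_mono hsub (IntermediateField.fixingSubgroup_isOpen _)
  set C : ClosedSubgroup (LocalGal q) :=
    ⟨H.map j, OpenSubgroup.isClosed ⟨H.map j, hopen⟩⟩
  have hfix : (IntermediateField.fixedField (H.map j)).fixingSubgroup = H.map j :=
    InfiniteGalois.fixingSubgroup_fixedField C
  have hleL : IntermediateField.fixedField (H.map j) ≤ L ⊔ E := by
    intro x hx
    rw [← InfiniteGalois.fixedField_fixingSubgroup (L ⊔ E), IntermediateField.mem_fixedField_iff]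
    intro τ hτ
    exact (IntermediateField.mem_fixedField_iff _ _).mp hx τ (hsub hτ)
  refine ⟨IntermediateField.fixedField (H.map j), fun x hx => ?_,
    fun a b hab => Subtype.ext (h.injective hab), ?_, ?_⟩
  · rw [IntermediateField.mem_fixedField_iff]
    rintro _ ⟨g, -, rfl⟩
    exact h.apply_of_mem g hx
  · rw [hfix, MonoidHom.range_eq_map, ← Subgroup.map_map, ← MonoidHom.range_eq_map,
      Subgroup.range_subtype]
  · exact Module.Finite.of_injective (IntermediateField.inclusion hleL).toLinearMap
      (IntermediateField.inclusion hleL).toRingHom.injective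

variable {p : ℕ} [Fact p.Prime] {ζ : (PadicAlgCl q)ˣ}

omit [Fact (Nat.Prime p)] in
/-- Kummer fields pass to open subgroups. -/
theorem KummerField.exists_sub (K : KummerField p j E ζ) (H : Subgroup G)
    {F : IntermediateField ℚ (AlgebraicClosure ℚ)} (hF : FiniteDimensional ℚ F)
    (hle : levelSubgroup (locR j) F ≤ H) :
    ∃ E' : IntermediateField ℚ_[q] (PadicAlgCl q),
      KummerField p (j.comp H.subtype) E' ζ := by
  obtain ⟨E', hEE', h⟩ := K.toIsFieldGroup.exists_sub H hF hle
  exact ⟨E', { toIsFieldGroup := h, prim := K.prim, mem := hEE' K.mem }⟩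

/-- A level has finite index. -/
theorem finite_quotient_level (j : G →* LocalGal q)
    {F : IntermediateField ℚ (AlgebraicClosure ℚ)} (hF : FiniteDimensional ℚ F) :
    Finite (G ⧸ levelSubgroup (locR j) F) := by
  have hlev : IsLevelConstant₁ (locR j) (QuotientGroup.mk : G → G ⧸ levelSubgroup (locR j) F) :=
    ⟨F, hF, fun g s hs => QuotientGroup.eq.mpr (by
      rw [mul_inv_rev, inv_mul_cancel_right]
      exact inv_mem hs)⟩
  exact Set.finite_univ_iff.mp ((finite_range_of_isLevelConstant₁ j hlev).subset
    fun x _ => QuotientGroup.mk_surjective x)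

end FLTAgent.LocalDuality
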