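import Fermat.Agent.LocalDuality.Kummer
import Fermat.Agent.LocalDuality.NormIndex
import Mathlib.FieldTheory.KummerExtension

/-!
# The `p`-th power symbol `Eˣ × Eˣ → H²(μ_p)` of a local field containing `μ_p`

In a `KummerField` the symbol `sym` is the cup product of Kummer classes `kummer`.
`sym_eq_zero_iff` identifies its vanishing with being a norm, and `index_ker_sym` shows that the
kernel of `sym · a` has index `p` for a nontrivial class `a`.
-/

set_option autoImplicit false

noncomputable section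

open CategoryTheory groupCohomology Polynomial
open scoped IntermediateField

namespace FLTAgent.LocalDuality

variable {q : ℕ} [Fact q.Prime] {G : Type} [Group G] {p : ℕ} [Fact p.Prime]

/-- The trivial module `ZMod p`. -/
abbrev trivRep (G : Type) [Group G] (p : ℕ) : Rep (ZMod p) G := Rep.trivial (ZMod p) G (ZMod p)

theorem isEquivariantBilin_mul :
    IsEquivariantBilin (A := trivRep G p) (B := trivRep G p) (C := trivRep G p)
      (LinearMap.mul (ZMod p) (ZMod p)) := fun _ _ _ => rfl

omit [Fact (Nat.Prime p)] in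
theorem isSmooth_trivRep (r : G →* (AlgebraicClosure ℚ ≃ₐ[ℚ] AlgebraicClosure ℚ)) :
    IsSmooth r (trivRep G p) := ⟨⊥, inferInstance, fun _ _ => rfl⟩

variable (p) in
/-- The data of a local field `E` containing `μ_p`, seen through `j`. -/
structure KummerField (j : G →* LocalGal q) (E : IntermediateField ℚ_[q] (PadicAlgCl q))
    (ζ : (PadicAlgCl q)ˣ) : Prop extends IsFieldGroup j E where
  prim : IsPrimitiveRoot ζ p
  mem : (ζ : PadicAlgCl q) ∈ E

theorem ofAU_sum {j : G →* LocalGal q} {κ : Type*} (s : Finset κ) (f : κ → AlgClUnits j) :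
    ofAU j (∑ i ∈ s, f i) = ∏ i ∈ s, ofAU j (f i) := by
  classical
  induction s using Finset.induction_on with
  | empty => rfl
  | @insert a t ha ih => rw [Finset.sum_insert ha, Finset.prod_insert ha, ofAU_add, ih]

namespace KummerField

variable {j : G →* LocalGal q} {E : IntermediateField ℚ_[q] (PadicAlgCl q)} {ζ : (PadicAlgCl q)ˣ}
  (K : KummerField p j E ζ)

/-- A unit of `E` in the additive module. -/
def incl : Additive Eˣ →+ AlgClUnits j where
  toFun b := toAU j (Units.map (E.val : E →* PadicAlgCl q) b.toMul)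
  map_zero' := congrArg (toAU j) (map_one _)
  map_add' a b := congrArg (toAU j) (map_mul _ a.toMul b.toMul)

theorem coe_ofAU_incl (b : Additive Eˣ) :
    (ofAU j (incl (j := j) b) : PadicAlgCl q) = ((b.toMul : Eˣ) : E) := rfl

theorem incl_injective : Function.Injective (incl (j := j) (E := E)) := fun a b hab => by
  have h := congrArg (fun u : (PadicAlgCl q)ˣ => (u : PadicAlgCl q)) (congrArg (ofAU j) hab)
  simp only [coe_ofAU_incl] at h
  exact Additive.toMul.injective (Units.ext (Subtype.ext h))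

include K in
omit [Fact (Nat.Prime p)] in
theorem smul_incl (g : G) (b : Additive Eˣ) : g • incl (j := j) b = incl (j := j) b :=
  congrArg (toAU j) (Units.ext (K.apply_of_mem g (b.toMul : E).2))

include K in
omit [Fact (Nat.Prime p)] in
theorem exists_incl {u : AlgClUnits j} (hu : ∀ g : G, g • u = u) :
    ∃ b : Additive Eˣ, incl (j := j) b = u := by
  have hmem : (ofAU j u : PadicAlgCl q) ∈ E := K.toIsFieldGroup.mem_of_fixed fun g =>
    congrArg (fun v => (ofAU j v : PadicAlgCl q)) (hu g)
  refine ⟨Additive.ofMul (Units.mk0 ⟨_, hmem⟩ fun h0 => (ofAU j u).ne_zero ?_), ?_⟩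
  · exact congrArg Subtype.val h0
  · exact congrArg (toAU j) (Units.ext rfl)

include K in
theorem smul_zeta (g : G) (i : ZMod p) : g • zetaPow j K.prim i = zetaPow j K.prim i :=
  smul_zetaPow j K.prim K.toIsFieldGroup K.mem g i

variable (p) in
theorem exists_root (u : AlgClUnits j) : ∃ β : AlgClUnits j, p • β = u := by
  obtain ⟨z, hz⟩ := IsAlgClosed.exists_pow_nat_eq (ofAU j u : PadicAlgCl q)
    (Fact.out : p.Prime).pos
  have hz0 : z ≠ 0 := by
    rintro rfl
    exact (ofAU j u).ne_zero (by rw [← hz, zero_pow (Fact.out : p.Prime).ne_zero])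
  have h1 : Units.mk0 z hz0 ^ p = ofAU j u :=
    Units.ext ((Units.val_pow_eq_pow_val _ p).trans hz)
  exact ⟨toAU j (Units.mk0 z hz0), (congrArg (toAU j) h1).trans rfl⟩

variable (p j) in
/-- A chosen `p`-th root. -/
def root (u : AlgClUnits j) : AlgClUnits j := (exists_root (j := j) p u).choose

theorem nsmul_root (u : AlgClUnits j) : p • root p j u = u := (exists_root (j := j) p u).choose_spec

/-- The Kummer function of a unit. -/
def kv (b : Additive Eˣ) (g : G) : ZMod p :=
  Function.invFun (zetaPow j K.prim) (g • root p j (incl (j := j) b) - root p j (incl (j := j) b))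

theorem zetaPow_kv (b : Additive Eˣ) (g : G) {β : AlgClUnits j} (hβ : p • β = incl (j := j) b) :
    zetaPow j K.prim (K.kv b g) = g • β - β := by
  set β₀ := root p j (incl (j := j) b)
  have h0 : p • β₀ = incl (j := j) b := nsmul_root _
  have hfix : p • (g • β₀ - β₀) = 0 := by
    rw [smul_sub, smul_comm, h0, K.smul_incl, sub_self]
  rw [kv, Function.invFun_eq (exists_zetaPow j K.prim hfix)]
  obtain ⟨i, hi⟩ := exists_zetaPow j K.prim (u := β - β₀) (by rw [smul_sub, hβ, h0, sub_self])
  have := K.smul_zeta g i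
  rw [hi, smul_sub] at this
  linear_combination (norm := abel) -this

theorem kv_mul (b : Additive Eˣ) (g h : G) : K.kv b (g * h) = K.kv b g + K.kv b h := by
  apply zetaPow_injective j K.prim
  obtain hβ := nsmul_root (p := p) (incl (j := j) b)
  rw [map_add, K.zetaPow_kv b _ hβ, K.zetaPow_kv b g hβ]
  conv_rhs => rw [← K.smul_zeta g (K.kv b h), K.zetaPow_kv b h hβ]
  rw [smul_sub, mul_smul]
  abel

theorem kv_level (b : Additive Eˣ) : IsLevelConstant₁ (locR j) (K.kv b) := by
  obtain ⟨F, hF, hfix⟩ := exists_level_fix j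
    (Set.finite_singleton (ofAU j (root p j (incl (j := j) b)) : PadicAlgCl q))
  refine ⟨F, hF, fun g s hs => zetaPow_injective j K.prim ?_⟩
  have hβ := nsmul_root (p := p) (incl (j := j) b)
  have hs' : s • root p j (incl (j := j) b) = root p j (incl (j := j) b) :=
    congrArg (toAU j) (Units.ext (hfix s hs _ rfl))
  rw [K.zetaPow_kv b _ hβ, K.zetaPow_kv b g hβ, mul_smul, hs']

/-- The Kummer cocycle map. -/
def kappa : Additive Eˣ →+ levelCocycles₁ (locR j) (trivRep G p) where
  toFun b := mkZ₁ (A := trivRep G p) (K.kv b)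
    ((mem_cocycles₁_iff (A := trivRep G p) _).2 fun g h =>
      show K.kv b (g * h) = K.kv b h + K.kv b g by rw [K.kv_mul, add_comm]) (K.kv_level b)
  map_zero' := Subtype.ext (Subtype.ext (funext fun g => zetaPow_injective j K.prim
    (show zetaPow j K.prim (K.kv 0 g) = zetaPow j K.prim 0 by
      rw [K.zetaPow_kv 0 g (β := 0) (by rw [smul_zero, map_zero]), smul_zero, sub_zero, map_zero])))
  map_add' a b := Subtype.ext (Subtype.ext (funext fun g => zetaPow_injective j K.prim
    (show zetaPow j K.prim (K.kv (a + b) g) = zetaPow j K.prim (K.kv a g + K.kv b g) by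
      rw [map_add, K.zetaPow_kv a g (nsmul_root _), K.zetaPow_kv b g (nsmul_root _),
        K.zetaPow_kv (a + b) g (β := root p j (incl (j := j) a) + root p j (incl (j := j) b))
          (by rw [smul_add, nsmul_root, nsmul_root, map_add]), smul_add]
      abel)))

theorem exists_nsmul_of_kv_eq_zero {b : Additive Eˣ} (hb : ∀ g, K.kv b g = 0) :
    ∃ c : Additive Eˣ, p • c = b := by
  have hβ := nsmul_root (p := p) (incl (j := j) b)
  obtain ⟨c, hc⟩ := K.exists_incl (u := root p j (incl (j := j) b)) fun g => by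
    have := K.zetaPow_kv b g hβ
    rw [hb g, map_zero, eq_comm, sub_eq_zero] at this
    exact this
  exact ⟨c, incl_injective (by rw [map_nsmul, hc, hβ])⟩

theorem kappa_surjective : Function.Surjective K.kappa := by
  intro f
  have hlin : ∀ g h, (f.1 : G → trivRep G p) (g * h)
      = (f.1 : G → trivRep G p) h + (f.1 : G → trivRep G p) g := fun g h =>
    (mem_cocycles₁_iff (A := trivRep G p) _).1 (zc f) g h
  set F : G → ZMod p := fun g => (f.1 : G → trivRep G p) g
  obtain ⟨m, hm⟩ := hilbert90_add j (fun g => zetaPow j K.prim (F g))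
    (fun g h => by
      rw [K.smul_zeta, ← map_add]
      exact congrArg _ (hlin g h))
    ((zl f).comp (zetaPow j K.prim))
  obtain ⟨b, hb⟩ := K.exists_incl (u := p • m) fun g => by
    have := nsmul_zetaPow j K.prim (F g)
    rw [hm g, smul_sub, sub_eq_zero] at this
    rw [smul_comm]; exact this
  refine ⟨b, Subtype.ext (Subtype.ext (funext fun g => zetaPow_injective j K.prim
    (show zetaPow j K.prim (K.kv b g) = zetaPow j K.prim (F g) by
      rw [K.zetaPow_kv b g hb.symm, hm g])))⟩

/-- The Kummer character as a homomorphism. -/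
def chi (a : Additive Eˣ) : G →* Multiplicative (ZMod p) :=
  MonoidHom.mk' (fun g => Multiplicative.ofAdd (K.kv a g)) fun g h => by rw [K.kv_mul]; rfl

theorem toAdd_chi (a : Additive Eˣ) (g : G) : (K.chi a g).toAdd = K.kv a g := rfl

theorem exists_chi_eq_one {a : Additive Eˣ} (ha : K.kappa a ≠ 0) : ∃ σ, (K.chi a σ).toAdd = 1 := by
  obtain ⟨g, hg⟩ : ∃ g, K.kv a g ≠ 0 := by
    by_contra hall
    push Not at hall
    exact ha (Subtype.ext (Subtype.ext (funext hall)))
  refine ⟨g ^ ((K.kv a g)⁻¹).val, ?_⟩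
  rw [map_pow, toAdd_pow, nsmul_eq_mul, ZMod.natCast_zmod_val, toAdd_chi, inv_mul_cancel₀ hg]

/-- The Kummer map to `H¹`. -/
def kummer : Additive Eˣ →+ continuousH1 (locR j) (trivRep G p) :=
  (cls₁ (locR j) (trivRep G p)).toAddMonoidHom.comp K.kappa

/-- The cup product on `H¹` of the trivial module. -/
abbrev mulCup (r : G →* (AlgebraicClosure ℚ ≃ₐ[ℚ] AlgebraicClosure ℚ)) :
    continuousH1 r (trivRep G p) →ₗ[ZMod p] continuousH1 r (trivRep G p) →ₗ[ZMod p]
      continuousH2 r (trivRep G p) :=
  cup r isEquivariantBilin_mul (isSmooth_trivRep r)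

/-- The symbol, as a cup product of Kummer classes. -/
def sym : Additive Eˣ →+ Additive Eˣ →+ continuousH2 (locR j) (trivRep G p) :=
  AddMonoidHom.mk' (fun b => (mulCup (locR j) (K.kummer b)).toAddMonoidHom.comp K.kummer)
    fun b b' => AddMonoidHom.ext fun a => by
      simp only [AddMonoidHom.comp_apply, LinearMap.toAddMonoidHom_coe, AddMonoidHom.add_apply,
        map_add, LinearMap.add_apply]

theorem sym_eq (b a : Additive Eˣ) :
    K.sym b a = cupZ isEquivariantBilin_mul (isSmooth_trivRep _) (K.kappa b) (K.kappa a) :=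
  cup_cls _ _ _ _

theorem sym_antisymm (b a : Additive Eˣ) : K.sym a b = - K.sym b a := by
  rw [sym_eq, sym_eq, ← cup_cls, ← cup_cls]
  have hflip : (LinearMap.mul (ZMod p) (ZMod p)).flip = LinearMap.mul (ZMod p) (ZMod p) :=
    LinearMap.ext fun x => LinearMap.ext fun y => mul_comm y x
  have hβ' : IsEquivariantBilin (A := trivRep G p) (B := trivRep G p) (C := trivRep G p)
      (LinearMap.mul (ZMod p) (ZMod p)).flip := fun _ _ _ => rfl
  have h := cup_flip (r := locR j) (A := trivRep G p) (B := trivRep G p) (C := trivRep G p)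
    (β := LinearMap.mul (ZMod p) (ZMod p)) isEquivariantBilin_mul (isSmooth_trivRep _)
    (isSmooth_trivRep _) hβ' (cls₁ _ _ (K.kappa b)) (cls₁ _ _ (K.kappa a))
  refine Eq.trans ?_ h
  congr 1
  simp only [hflip]

/-- A two-cocycle in `μ_p` that becomes a coboundary of units is a coboundary. -/
theorem cls₂_eq_zero_of_units (z : levelCocycles₂ (locR j) (trivRep G p)) {V : G → AlgClUnits j}
    (hV : IsLevelConstant₁ (locR j) V)
    (h : ∀ g k, zetaPow j K.prim (show ZMod p from (z : G × G → trivRep G p) (g, k))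
      = g • V k - V (g * k) + V g) :
    cls₂ (locR j) (trivRep G p) z = 0 := by
  have hpc : ∀ g k, p • V (g * k) = g • (p • V k) + p • V g := fun g k => by
    have := congrArg (p • ·) (h g k)
    simp only [nsmul_zetaPow, smul_add, smul_sub] at this
    rw [smul_comm g]
    linear_combination (norm := abel) this
  obtain ⟨m, hm⟩ := hilbert90_add j (fun g => p • V g) hpc (hV.comp (p • ·))
  set m' := root p j m
  set V' : G → AlgClUnits j := fun g => V g - (g • m' - m') with hV'
  have hpV : ∀ g, p • V' g = 0 := fun g => by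
    simp only [V', smul_sub, smul_comm p g, m', nsmul_root, hm g]
    abel
  choose f hf using fun g => exists_zetaPow j K.prim (hpV g)
  have hlevf : IsLevelConstant₁ (locR j) f := by
    obtain ⟨F₁, hF₁, h₁⟩ := hV
    obtain ⟨F₂, hF₂, h₂⟩ := exists_level_fix j
      (Set.finite_singleton (ofAU j m' : PadicAlgCl q))
    have := hF₁; have := hF₂
    refine ⟨F₁ ⊔ F₂, inferInstance, fun g s hs => zetaPow_injective j K.prim ?_⟩
    have hs' : s • m' = m' := congrArg (toAU j)
      (Units.ext (h₂ s (levelSubgroup_anti _ le_sup_right hs) _ rfl))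
    simp only [hf, V', h₁ g s (levelSubgroup_anti _ le_sup_left hs), mul_smul, hs']
  rw [cls₂_eq_zero_iff]
  refine ⟨f, hlevf, funext fun gk => zetaPow_injective j K.prim ?_⟩
  obtain ⟨g, k⟩ := gk
  show zetaPow j K.prim (f k - f (g * k) + f g) = _
  rw [h g k, map_add, map_sub, ← K.smul_zeta g (f k), hf, hf, hf]
  simp only [V', smul_sub, mul_smul]
  abel

/-- The symbol as a carry cocycle in units. -/
theorem exists_carry_sym (b a : Additive Eˣ) :
    ∃ W : G → AlgClUnits j, IsLevelConstant₁ (locR j) W ∧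
      ∀ g k, zetaPow j K.prim (K.kv b g * K.kv a k)
        = (g • W k - W (g * k) + W g) - carry (K.chi a) g k • incl (j := j) b := by
  set β := root p j (incl (j := j) b)
  have hβ : p • β = incl (j := j) b := nsmul_root _
  refine ⟨fun g => (K.kv a g).val • β, (K.kv_level a).comp fun i : ZMod p => i.val • β,
    fun g k => ?_⟩
  have hc : carry (K.chi a) g k * p + (K.kv a (g * k)).val = (K.kv a g).val + (K.kv a k).val := by
    rw [K.kv_mul, ZMod.val_add, mul_comm]
    exact Nat.div_add_mod _ _
  have e1 : zetaPow j K.prim (K.kv b g * K.kv a k) = (K.kv a k).val • (g • β - β) := by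
    rw [← K.zetaPow_kv b g hβ, ← map_nsmul, nsmul_eq_mul, ZMod.natCast_zmod_val, mul_comm]
  have e2 := congrArg (fun n : ℕ => n • β) hc
  simp only [add_smul, mul_smul, hβ] at e2
  rw [e1]
  simp only [smul_sub, smul_comm g]
  linear_combination (norm := abel) e2

/-- `z = d f` in the trivial module, pushed to units. -/
theorem zetaPow_coboundary {z : G × G → trivRep G p} {f : G → trivRep G p}
    (h : (d₁₂ (trivRep G p)).hom f = z) (g k : G) :
    zetaPow j K.prim (show ZMod p from z (g, k))
      = g • zetaPow j K.prim (show ZMod p from f k) - zetaPow j K.prim (show ZMod p from f (g * k))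
        + zetaPow j K.prim (show ZMod p from f g) := by
  rw [K.smul_zeta, ← map_sub, ← map_add]
  exact congrArg _ (congrFun h (g, k)).symm

theorem sym_eq_zero_iff (b : Additive Eˣ) {a : Additive Eˣ} {σ : G}
    (hσ : (K.chi a σ).toAdd = 1) :
    K.sym b a = 0 ↔ ∃ c : AlgClUnits j, (∀ h ∈ (K.chi a).ker, h • c = c) ∧
      incl (j := j) b = ∑ i ∈ Finset.range p, σ ^ i • c := by
  obtain ⟨W, hWlev, hW⟩ := K.exists_carry_sym b a
  rw [sym_eq]
  constructor
  · intro h0
    obtain ⟨f, hf, hdf⟩ := cls₂_eq_zero_iff.1 h0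
    have hz : ∀ g k, zetaPow j K.prim (K.kv b g * K.kv a k)
        = g • zetaPow j K.prim (show ZMod p from f k)
          - zetaPow j K.prim (show ZMod p from f (g * k))
          + zetaPow j K.prim (show ZMod p from f g) := fun g k => K.zetaPow_coboundary hdf g k
    obtain ⟨F₁, hF₁, h₁⟩ := hWlev
    obtain ⟨F₂, hF₂, h₂⟩ := hf
    have := hF₁; have := hF₂
    refine exists_norm_of_carry (N := levelSubgroup (locR j) (F₁ ⊔ F₂))
      (W := fun g => W g - zetaPow j K.prim (show ZMod p from f g))
      (kerHilbert90 j _) hσ (Fact.out : p.Prime).one_lt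
      (fun g s hs => congrArg₂ (fun u (v : ZMod p) => u - zetaPow j K.prim v)
        (h₁ g s (levelSubgroup_anti _ le_sup_left hs))
        (h₂ g s (levelSubgroup_anti _ le_sup_right hs))) fun g k => ?_
    have h := hW g k
    rw [hz g k] at h
    simp only [smul_sub]
    linear_combination (norm := abel) h
  · rintro ⟨c, hc, hb⟩
    obtain ⟨F₁, hF₁, h₁⟩ := hWlev
    obtain ⟨F₂, hF₂, h₂⟩ := K.kv_level a
    have := hF₁; have := hF₂
    let W' : G → AlgClUnits j :=
      fun g => ∑ i ∈ Finset.range (K.kv a g).val, σ ^ i • c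
    refine K.cls₂_eq_zero_of_units _ (V := fun g => W g - W' g) ?_ fun g k => ?_
    · refine ⟨F₁ ⊔ F₂, inferInstance, fun g s hs => ?_⟩
      simp only [W', h₁ g s (levelSubgroup_anti _ le_sup_left hs),
        h₂ g s (levelSubgroup_anti _ le_sup_right hs)]
    · show zetaPow j K.prim (K.kv b g * K.kv a k) = _
      have h2 : carry (K.chi a) g k • incl (j := j) b = g • W' k - W' (g * k) + W' g :=
        carry_smul_norm hσ hc hb g k
      rw [hW g k, h2]
      simp only [smul_sub]
      abel

/-- A class split by the Kummer extension of `a` is a symbol `(b, a)`. -/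
theorem exists_eq_sym {a : Additive Eˣ} {σ : G} (hσ : (K.chi a σ).toAdd = 1)
    {z : continuousH2 (locR j) (trivRep G p)}
    (hz : resH₂ (locR j) (K.chi a).ker (trivRep G p) z = 0) :
    ∃ b, z = K.sym b a := by
  classical
  obtain ⟨z, rfl⟩ := cls₂_surjective z
  rw [resH₂_cls, cls₂_eq_zero_iff] at hz
  obtain ⟨f, hf, hdf⟩ := hz
  obtain ⟨F₁, hF₁, h₁⟩ := z.2.2
  obtain ⟨F₂, hF₂, h₂⟩ := hf
  obtain ⟨F₃, hF₃, h₃⟩ := K.kv_level a
  have := hF₁; have := hF₂; have := hF₃
  obtain ⟨F, hF, hle, hn⟩ := exists_normal_level (locR j) (F₁ ⊔ F₂ ⊔ F₃)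
  have := hF; have := hn
  set N := levelSubgroup (locR j) F
  have hN₁ : N ≤ levelSubgroup (locR j) F₁ :=
    levelSubgroup_anti _ ((le_sup_of_le_left le_sup_left).trans hle)
  have hN₂ : N ≤ levelSubgroup (locR j) F₂ :=
    levelSubgroup_anti _ ((le_sup_of_le_left le_sup_right).trans hle)
  have hN₃ : N ≤ levelSubgroup (locR j) F₃ := levelSubgroup_anti _ (le_sup_right.trans hle)
  have hkv0 : K.kv a 1 = 0 := by
    have h11 := K.kv_mul a 1 1
    rw [mul_one] at h11
    linear_combination -h11
  have hNker : N ≤ (K.chi a).ker := fun s hs => by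
    rw [MonoidHom.mem_ker]
    apply Multiplicative.toAdd.injective
    have h := h₃ 1 s (hN₃ hs)
    rw [one_mul, hkv0] at h
    exact h
  let U : G → AlgClUnits j := fun g =>
    if hg : g ∈ (K.chi a).ker then zetaPow j K.prim (show ZMod p from f ⟨g, hg⟩) else 0
  have hU : ∀ g (hg : g ∈ (K.chi a).ker),
      U g = zetaPow j K.prim (show ZMod p from f ⟨g, hg⟩) := fun g hg => dif_pos hg
  have hcoc := (mem_cocycles₂_iff (A := trivRep G p) _).1 z.2.1
  obtain ⟨b', W, hb', hW, hzW⟩ := exists_carry (M := AlgClUnits j) hNker (kerHilbert90 j _) hσ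
    (z := fun g k => zetaPow j K.prim (show ZMod p from (z : G × G → trivRep G p) (g, k)))
    (fun g h k => by
      simp only [K.smul_zeta, ← map_add]
      exact congrArg _ (hcoc g h k))
    (fun g h s hs s' hs' => congrArg _ (h₁ g h s s' (hN₁ hs) (hN₁ hs')))
    (fun g h s _ => K.smul_zeta s _)
    (u := U)
    (fun x hx y hy => by
      show zetaPow j K.prim _ = _
      rw [hU y hy, hU (x * y) (mul_mem hx hy), hU x hx, K.smul_zeta, ← map_sub, ← map_add]
      exact congrArg _ (congrFun hdf (⟨x, hx⟩, ⟨y, hy⟩)).symm)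
    (fun x hx s hs => by
      rw [hU x hx, hU (x * s) (mul_mem hx (hNker hs))]
      exact congrArg _ (h₂ ⟨x, hx⟩ ⟨s, hNker hs⟩ (hN₂ hs)))
    (fun x hx s _ => by rw [hU x hx]; exact K.smul_zeta s _)
  obtain ⟨b, rfl⟩ := K.exists_incl hb'
  obtain ⟨W', hW'lev, hW'⟩ := K.exists_carry_sym b a
  obtain ⟨F₄, hF₄, h₄⟩ := hW'lev
  have := hF₄
  refine ⟨-b, ?_⟩
  rw [map_neg, AddMonoidHom.neg_apply, sym_eq, cupZ, eq_neg_iff_add_eq_zero, ← map_add]
  refine K.cls₂_eq_zero_of_units _ (V := fun g => W g + W' g)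
    ⟨F ⊔ F₄, inferInstance, fun g s hs => by
      simp only [hW g s (levelSubgroup_anti _ le_sup_left hs),
        h₄ g s (levelSubgroup_anti _ le_sup_right hs)]⟩ fun g k => ?_
  show zetaPow j K.prim ((show ZMod p from (z : G × G → trivRep G p) (g, k))
    + K.kv b g * K.kv a k) = _
  rw [map_add, hW' g k, hzW g k]
  simp only [smul_add]
  abel

/-- The kernel of `b ↦ (b, a)` has index `p`. -/
theorem index_ker_sym {a : Additive Eˣ} (ha : K.kappa a ≠ 0) :
    (K.sym.flip a).ker.index = p := by
  obtain ⟨σ, hσ⟩ := K.exists_chi_eq_one ha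
  have := K.finite
  have : NeZero p := ⟨(Fact.out : p.Prime).ne_zero⟩
  set ζE : E := ⟨(ζ : PadicAlgCl q), K.mem⟩
  have hζE : IsPrimitiveRoot ζE p :=
    IsPrimitiveRoot.of_map_of_injective (f := E.val) (IsPrimitiveRoot.coe_units_iff.mpr K.prim)
      E.val.injective
  have hroots : (primitiveRoots p E).Nonempty :=
    ⟨ζE, (mem_primitiveRoots (Fact.out : p.Prime).pos).mpr hζE⟩
  set aE : E := ((a.toMul : Eˣ) : E) with haE
  have hnp : ∀ b : E, b ^ p ≠ aE := by
    intro b hb
    have hb0 : b ≠ 0 := by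
      rintro rfl
      exact (a.toMul).ne_zero (by rw [← haE, ← hb, zero_pow (Fact.out : p.Prime).ne_zero])
    refine ha ?_
    have : a = p • Additive.ofMul (Units.mk0 b hb0) := Additive.toMul.injective
      (Units.ext (hb.symm.trans (Units.val_pow_eq_pow_val (Units.mk0 b hb0) p).symm))
    rw [this, map_nsmul]
    refine Subtype.ext (Subtype.ext (funext fun g => ?_))
    show p • K.kv _ g = (0 : ZMod p)
    rw [nsmul_eq_mul, ZMod.natCast_self, zero_mul]
  have H : Irreducible (X ^ p - C aE) := X_pow_sub_C_irreducible_of_prime Fact.out hnp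
  have := Fact.mk H
  set E' := AdjoinRoot (X ^ p - C aE)
  have : IsSplittingField E E' (X ^ p - C aE) :=
    isSplittingField_AdjoinRoot_X_pow_sub_C hroots H
  have : FiniteDimensional E E' :=
    Polynomial.IsSplittingField.finiteDimensional E' (X ^ p - C aE)
  have : IsGalois E E' := isGalois_of_isSplittingField_X_pow_sub_C hroots H E'
  have : IsCyclic (E' ≃ₐ[E] E') := isCyclic_of_isSplittingField_X_pow_sub_C hroots H E'
  have hrank : Module.finrank E E' = p := finrank_of_isSplittingField_X_pow_sub_C hroots H E'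
  have hN := local_index_norm_range q E E'
  rw [hrank] at hN
  set α := root p j (incl (j := j) a)
  have hα : p • α = incl (j := j) a := nsmul_root _
  have hαp : (ofAU j α : PadicAlgCl q) ^ p = (aE : PadicAlgCl q) := by
    have h := congrArg (fun u => (ofAU j u : PadicAlgCl q)) hα
    simp only [ofAU_nsmul, Units.val_pow_eq_pow_val, coe_ofAU_incl] at h
    exact h
  let ι : E' →ₐ[E] PadicAlgCl q :=
    AdjoinRoot.liftAlgHom (X ^ p - C aE) (Algebra.ofId E (PadicAlgCl q)) (ofAU j α : PadicAlgCl q)
      (by rw [eval₂_sub, eval₂_X_pow, eval₂_C, sub_eq_zero]; exact hαp)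
  have hιroot : ι (AdjoinRoot.root _) = (ofAU j α : PadicAlgCl q) :=
    AdjoinRoot.liftAlgHom_root _ _ _ _
  let jE : G → (PadicAlgCl q →ₐ[E] PadicAlgCl q) := fun g =>
    { (j g).toAlgHom.toRingHom with commutes' := fun x => K.apply_of_mem g x.2 }
  let ψ : Fin p → (E' →ₐ[E] PadicAlgCl q) := fun i => (jE (σ ^ (i : ℕ))).comp ι
  have hψ : ∀ i : Fin p, ψ i (AdjoinRoot.root _)
      = (ofAU j (σ ^ (i : ℕ) • α) : PadicAlgCl q) := by
    intro i
    show j (σ ^ (i : ℕ)) (ι _) = _
    rw [hιroot, coe_ofAU_smul]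
  have hψinj : Function.Injective ψ := by
    intro i i' hii
    have h := DFunLike.congr_fun hii (AdjoinRoot.root _)
    rw [hψ, hψ] at h
    have h' : σ ^ (i : ℕ) • α = σ ^ (i' : ℕ) • α := congrArg (toAU j) (Units.ext h)
    have hkv : K.kv a (σ ^ (i : ℕ)) = K.kv a (σ ^ (i' : ℕ)) := by
      apply zetaPow_injective j K.prim
      rw [K.zetaPow_kv a _ hα, K.zetaPow_kv a _ hα, h']
    have hpow : ∀ n : ℕ, K.kv a (σ ^ n) = (n : ZMod p) := fun n => by
      rw [← toAdd_chi, map_pow, toAdd_pow, hσ, nsmul_one]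
    rw [hpow, hpow, ZMod.natCast_eq_natCast_iff', Nat.mod_eq_of_lt i.2,
      Nat.mod_eq_of_lt i'.2] at hkv
    exact Fin.ext hkv
  have hψbij : Function.Bijective ψ := (Fintype.bijective_iff_injective_and_card ψ).mpr
    ⟨hψinj, by rw [Fintype.card_fin, AlgHom.card, hrank]⟩
  have hnorm : ∀ x : E'ˣ, incl (j := j) (Additive.ofMul (Units.map (Algebra.norm E) x))
      = ∑ i ∈ Finset.range p, σ ^ i • toAU j (Units.map (ι : E' →* PadicAlgCl q) x) := by
    intro x
    have h1 : algebraMap E (PadicAlgCl q) (Algebra.norm E (x : E'))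
        = ∏ i : Fin p, j (σ ^ (i : ℕ)) (ι (x : E')) := by
      rw [Algebra.norm_eq_prod_embeddings E (PadicAlgCl q)]
      exact (Fintype.prod_bijective ψ hψbij _ _ fun i => rfl).symm
    rw [← Fin.sum_univ_eq_sum_range (fun i =>
      σ ^ i • toAU j (Units.map (ι : E' →* PadicAlgCl q) x))]
    have h2 : Units.map (E.val : E →* PadicAlgCl q) (Units.map (Algebra.norm E) x)
        = ofAU j (∑ i : Fin p, σ ^ (i : ℕ) • toAU j (Units.map (ι : E' →* PadicAlgCl q) x)) := by
      rw [ofAU_sum]
      refine Units.ext ?_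
      show algebraMap E (PadicAlgCl q) (Algebra.norm E (x : E')) = _
      rw [h1, Units.coe_prod]
      rfl
    exact congrArg (toAU j) h2
  have hfixed : ∀ x : E', ∀ h ∈ (K.chi a).ker, j h (ι x) = ι x := by
    intro x h hh
    have hroot : h • α = α := by
      have h2 := K.zetaPow_kv a h hα
      rw [show K.kv a h = 0 from congrArg Multiplicative.toAdd hh, map_zero, eq_comm,
        sub_eq_zero] at h2
      exact h2
    induction x using AdjoinRoot.induction_on with
    | ih P =>
      have hP : ι (AdjoinRoot.mk _ P) = Polynomial.aeval (ofAU j α : PadicAlgCl q) P := by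
        rw [← AdjoinRoot.aeval_eq, ← Polynomial.aeval_algHom_apply, hιroot]
      rw [hP]
      show jE h (Polynomial.aeval (ofAU j α : PadicAlgCl q) P) = _
      have hα' : jE h (ofAU j α : PadicAlgCl q) = (ofAU j α : PadicAlgCl q) := by
        show j h _ = _
        rw [← coe_ofAU_smul, hroot]
      rw [← Polynomial.aeval_algHom_apply, hα']
  have hrange : ∀ c : AlgClUnits j, (∀ h ∈ (K.chi a).ker, h • c = c) →
      ∃ x : E'ˣ, toAU j (Units.map (ι : E' →* PadicAlgCl q) x) = c := by
    intro c hc
    set E'' : IntermediateField ℚ_[q] (PadicAlgCl q) := ι.fieldRange.restrictScalars ℚ_[q]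
    have : FiniteDimensional ℚ_[q] E' := Module.Finite.trans E E'
    have : FiniteDimensional ℚ_[q] E'' :=
      Module.Finite.of_surjective (ι.restrictScalars ℚ_[q]).rangeRestrict.toLinearMap
        (ι.restrictScalars ℚ_[q]).rangeRestrict_surjective
    have hle : E ≤ E'' := fun x hx => ⟨algebraMap E E' ⟨x, hx⟩, ι.commutes _⟩
    have hmem : (ofAU j c : PadicAlgCl q) ∈ E'' :=
      (K.toIsFieldGroup.sub hle).mem_of_fixed fun g => by
      refine congrArg (fun u => (ofAU j u : PadicAlgCl q)) (hc (g : G) ?_)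
      rw [MonoidHom.mem_ker]
      apply Multiplicative.toAdd.injective
      apply zetaPow_injective j K.prim
      rw [toAdd_chi, K.zetaPow_kv a _ hα, toAdd_one, map_zero, sub_eq_zero]
      refine congrArg (toAU j) (Units.ext ?_) |>.trans (by rfl : toAU j (ofAU j α) = α)
      exact (IntermediateField.mem_fixingSubgroup_iff _ _).mp g.2 _
        ⟨AdjoinRoot.root _, hιroot⟩
    obtain ⟨x, hx⟩ := hmem
    have hx0 : x ≠ 0 := by
      rintro rfl
      exact (ofAU j c).ne_zero (hx.symm.trans (map_zero _))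
    exact ⟨Units.mk0 x hx0, congrArg (toAU j) (Units.ext hx)⟩
  have key : (K.sym.flip a).ker = (Units.map (Algebra.norm E : E' →* E)).range.toAddSubgroup := by
    ext b
    rw [AddMonoidHom.mem_ker]
    show K.sym b a = 0 ↔ b.toMul ∈ (Units.map (Algebra.norm E : E' →* E)).range
    rw [K.sym_eq_zero_iff b hσ]
    constructor
    · rintro ⟨c, hc, hb⟩
      obtain ⟨x, rfl⟩ := hrange c hc
      exact ⟨x, congrArg Additive.toMul (incl_injective ((hnorm x).trans hb.symm))⟩
    · rintro ⟨x, hx⟩
      refine ⟨toAU j (Units.map (ι : E' →* PadicAlgCl q) x),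
        fun h hh => congrArg (toAU j) (Units.ext (hfixed (x : E') h hh)), ?_⟩
      rw [← hnorm x, hx]
      rfl
  rw [key, Subgroup.index_toAddSubgroup]
  exact hN

end KummerField

end FLTAgent.LocalDuality
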