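import Fermat.Agent.LocalDuality.Cochain
import Mathlib.GroupTheory.GroupAction.Quotient
import Mathlib.GroupTheory.Index

/-!
# Corestriction on inhomogeneous cochains and the projection formula

For a subgroup `H` of finite index we define corestriction on cochains of degree `0, 1, 2` by
transfer, show that it commutes with the differentials, that corestriction after restriction is
multiplication by the index, and the projection formula.
-/

set_option autoImplicit false

noncomputable section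

open CategoryTheory groupCohomology

namespace FLTAgent.LocalDuality

variable {k G : Type} [CommRing k] [Group G] (H : Subgroup G)

/-- The `H`-component of left translation of a coset representative. -/
def cosetShift (g : G) (x : G ⧸ H) : H :=
  ⟨(g • x).out⁻¹ * g * x.out, by
    rw [mul_assoc, ← QuotientGroup.eq, QuotientGroup.out_eq']
    show g • x = g • (x.out : G ⧸ H)
    rw [QuotientGroup.out_eq']⟩

theorem out_mul_cosetShift (g : G) (x : G ⧸ H) :
    (g • x).out * (cosetShift H g x : G) = g * x.out := by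
  simp [cosetShift, mul_assoc]

theorem cosetShift_mul (g h : G) (x : G ⧸ H) :
    cosetShift H (g * h) x = cosetShift H g (h • x) * cosetShift H h x := by
  apply Subtype.ext
  show ((g * h) • x).out⁻¹ * (g * h) * x.out
    = ((g • h • x).out⁻¹ * g * (h • x).out) * ((h • x).out⁻¹ * h * x.out)
  rw [mul_smul]
  simp [mul_assoc]

variable {H}

theorem ρ_out_shift {A : Rep k G} (g : G) (x : G ⧸ H) (a : A) :
    A.ρ (g • x).out (A.ρ (cosetShift H g x : G) a) = A.ρ g (A.ρ x.out a) := by
  rw [← Module.End.mul_apply, ← map_mul, out_mul_cosetShift, map_mul, Module.End.mul_apply]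

theorem sum_smul_eq {M : Type*} [AddCommMonoid M] [Fintype (G ⧸ H)] (g : G) (f : G ⧸ H → M) :
    ∑ x, f (g • x) = ∑ x, f x :=
  Equiv.sum_comp (MulAction.toPerm g) f

variable (H) [Fintype (G ⧸ H)]

/-- Corestriction on zero-cochains. -/
def cor₀ (A : Rep k G) (a : A) : A := ∑ x : G ⧸ H, A.ρ x.out a

/-- Corestriction on one-cochains. -/
def cor₁ (A : Rep k G) : (H → A) →ₗ[k] (G → A) where
  toFun f g := ∑ x : G ⧸ H, A.ρ (g • x).out (f (cosetShift H g x))
  map_add' f f' := by ext g; simp [Finset.sum_add_distrib]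
  map_smul' c f := by ext g; simp [Finset.smul_sum]

/-- Corestriction on two-cochains. -/
def cor₂ (A : Rep k G) : (H × H → A) →ₗ[k] (G × G → A) where
  toFun z p := ∑ x : G ⧸ H,
    A.ρ (p.1 • p.2 • x).out (z (cosetShift H p.1 (p.2 • x), cosetShift H p.2 x))
  map_add' f f' := by ext g; simp [Finset.sum_add_distrib]
  map_smul' c f := by ext g; simp [Finset.smul_sum]

variable {H} {A : Rep k G}

theorem cor₁_apply (f : H → A) (g : G) :
    cor₁ H A f g = ∑ x : G ⧸ H, A.ρ (g • x).out (f (cosetShift H g x)) := rfl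

theorem cor₂_apply (z : H × H → A) (g h : G) :
    cor₂ H A z (g, h) = ∑ x : G ⧸ H,
      A.ρ (g • h • x).out (z (cosetShift H g (h • x), cosetShift H h x)) := rfl

theorem cor₁_d₀₁ (a : A) :
    cor₁ H A ((d₀₁ (Rep.res H.subtype A)).hom a) = (d₀₁ A).hom (cor₀ H A a) := by
  funext g
  simp only [cor₁_apply, d₀₁_hom_apply, cor₀, map_sum, map_sub, Finset.sum_sub_distrib]
  congr 1
  · refine Finset.sum_congr rfl fun x _ => ?_
    exact ρ_out_shift g x a
  · exact sum_smul_eq g fun x => A.ρ x.out a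

theorem cor₂_d₁₂ (f : H → A) :
    cor₂ H A ((d₁₂ (Rep.res H.subtype A)).hom f) = (d₁₂ A).hom (cor₁ H A f) := by
  funext p
  obtain ⟨g, h⟩ := p
  simp only [cor₂_apply, d₁₂_hom_apply, cor₁_apply, map_sum, map_sub, map_add,
    Finset.sum_add_distrib, Finset.sum_sub_distrib]
  congr 1
  · congr 1
    · refine Finset.sum_congr rfl fun x _ => ?_
      exact ρ_out_shift g (h • x) _
    · refine Finset.sum_congr rfl fun x _ => ?_
      rw [← cosetShift_mul, mul_smul]
  · exact sum_smul_eq h fun x => A.ρ (g • x).out (f (cosetShift H g x))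

theorem cor₁_mem_cocycles₁ {f : H → A} (hf : f ∈ cocycles₁ (Rep.res H.subtype A)) :
    cor₁ H A f ∈ cocycles₁ A := by
  have h0 : (d₁₂ (Rep.res H.subtype A)).hom f = 0 := hf
  show (d₁₂ A).hom (cor₁ H A f) = 0
  rw [← cor₂_d₁₂, h0]
  exact map_zero _

theorem cor₂_mem_cocycles₂ {z : H × H → A} (hz : z ∈ cocycles₂ (Rep.res H.subtype A)) :
    cor₂ H A z ∈ cocycles₂ A := by
  rw [mem_cocycles₂_iff] at hz ⊢
  intro g h j
  simp only [cor₂_apply, map_sum]
  rw [← sum_smul_eq j fun x => A.ρ (g • h • x).out (z (cosetShift H g (h • x), cosetShift H h x)),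
    ← Finset.sum_add_distrib, ← Finset.sum_add_distrib]
  refine Finset.sum_congr rfl fun x _ => ?_
  rw [mul_smul, cosetShift_mul, cosetShift_mul, mul_smul, ← map_add, hz, map_add]
  congr 1
  exact ρ_out_shift g (h • j • x) _

/-- Corestriction after restriction on one-cocycles. -/
theorem cor₁_res {f : G → A} (hf : f ∈ cocycles₁ A) :
    cor₁ H A (fun h => f (h : G))
      = H.index • f + (d₀₁ A).hom (∑ x : G ⧸ H, f x.out) := by
  rw [mem_cocycles₁_iff] at hf
  funext g
  have key : ∀ x : G ⧸ H, A.ρ (g • x).out (f (cosetShift H g x : G))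
      = A.ρ g (f x.out) + f g - f (g • x).out := fun x => by
    have h1 := hf (g • x).out (cosetShift H g x : G)
    rw [out_mul_cosetShift, hf g x.out] at h1
    exact eq_sub_of_add_eq h1.symm
  simp only [cor₁_apply, Pi.add_apply, Pi.smul_apply, d₀₁_hom_apply, map_sum, Finset.sum_apply, key,
    Finset.sum_sub_distrib, Finset.sum_add_distrib, Finset.sum_const, Finset.card_univ]
  rw [sum_smul_eq g fun x => f x.out, Subgroup.index, Nat.card_eq_fintype_card]
  abel

/-- The auxiliary cochain in `cor₂_res`. -/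
def corResCochain (z : G × G → A) (g : G) : A :=
  ∑ x : G ⧸ H, (z (g, x.out) - z ((g • x).out, (cosetShift H g x : G)))

/-- Corestriction after restriction on two-cocycles. -/
theorem cor₂_res {z : G × G → A} (hz : z ∈ cocycles₂ A) :
    cor₂ H A (fun p => z ((p.1 : G), (p.2 : G))) + (d₁₂ A).hom (corResCochain (H := H) z)
      = H.index • z := by
  rw [mem_cocycles₂_iff] at hz
  funext p
  obtain ⟨g, h⟩ := p
  simp only [Pi.add_apply, cor₂_apply, d₁₂_hom_apply, Pi.smul_apply, corResCochain, map_sum,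
    map_sub]
  rw [← sum_smul_eq h fun x => z (g, x.out) - z ((g • x).out, (cosetShift H g x : G)),
    ← Finset.sum_sub_distrib, ← Finset.sum_add_distrib, ← Finset.sum_add_distrib,
    Subgroup.index, Nat.card_eq_fintype_card, ← Finset.card_univ, ← Finset.sum_const]
  refine Finset.sum_congr rfl fun x _ => ?_
  have e1 := hz g h x.out
  have e2 := hz g (h • x).out (cosetShift H h x : G)
  have e3 := hz (g • h • x).out (cosetShift H g (h • x) : G) (cosetShift H h x : G)
  rw [out_mul_cosetShift] at e2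
  rw [out_mul_cosetShift] at e3
  rw [cosetShift_mul, mul_smul, Subgroup.coe_mul]
  linear_combination (norm := abel) -e1 + e2 - e3

variable {B C : Rep k G} {β : A →ₗ[k] B →ₗ[k] C}

/-- The auxiliary cochain in the projection formula. -/
def projectionCochain (β : A →ₗ[k] B →ₗ[k] C) (f : G → A) (y : H → B) (g : G) : C :=
  ∑ x : G ⧸ H, β (f (g • x).out) (B.ρ (g • x).out (y (cosetShift H g x)))

/-- The projection formula `cor (res f ∪ y) = f ∪ cor y`, up to an explicit coboundary. -/
theorem cor₂_cup₁₁ (hβ : IsEquivariantBilin β) {f : G → A} (hf : f ∈ cocycles₁ A)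
    {y : H → B} (hy : y ∈ cocycles₁ (Rep.res H.subtype B)) :
    cor₂ H C (cup₁₁ (A := Rep.res H.subtype A) (B := Rep.res H.subtype B)
        (C := Rep.res H.subtype C) β (fun h => f (h : G)) y)
      = cup₁₁ β f (cor₁ H B y) + (d₁₂ C).hom (projectionCochain β f y) := by
  rw [mem_cocycles₁_iff] at hf hy
  funext p
  obtain ⟨g, h⟩ := p
  simp only [Pi.add_apply, cor₂_apply, cup₁₁_apply, cor₁_apply, d₁₂_hom_apply, projectionCochain,
    map_sum]
  rw [← sum_smul_eq h fun x => β (f (g • x).out) (B.ρ (g • x).out (y (cosetShift H g x))),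
    ← Finset.sum_sub_distrib, ← Finset.sum_add_distrib, ← Finset.sum_add_distrib]
  refine Finset.sum_congr rfl fun x _ => ?_
  rw [cosetShift_mul, hy, mul_smul, ← hβ, ← hβ]
  show β (A.ρ (g • h • x).out (f (cosetShift H g (h • x) : G)))
      (B.ρ (g • h • x).out (B.ρ (cosetShift H g (h • x) : G) (y (cosetShift H h x))))
    = β (f g) (B.ρ g (B.ρ (h • x).out (y (cosetShift H h x))))
      + (β (A.ρ g (f (h • x).out)) (B.ρ g (B.ρ (h • x).out (y (cosetShift H h x))))
        - β (f (g • h • x).out) (B.ρ (g • h • x).out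
            (B.ρ (cosetShift H g (h • x) : G) (y (cosetShift H h x))
              + y (cosetShift H g (h • x))))
        + β (f (g • h • x).out) (B.ρ (g • h • x).out (y (cosetShift H g (h • x)))))
  have h1 := hf (g • h • x).out (cosetShift H g (h • x) : G)
  rw [out_mul_cosetShift, hf g (h • x).out] at h1
  rw [eq_sub_of_add_eq h1.symm, map_add]
  simp only [map_add, map_sub, LinearMap.add_apply, LinearMap.sub_apply, ρ_out_shift]
  abel

section Level

variable (r : G →* (AlgebraicClosure ℚ ≃ₐ[ℚ] AlgebraicClosure ℚ))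

omit [Fintype (G ⧸ H)] in
theorem cosetShift_mul_of_mem {N : Subgroup G} [N.Normal] (hN : N ≤ H) (g : G) {s : G}
    (hs : s ∈ N) (x : G ⧸ H) :
    s • x = x ∧ ∃ t : H, (t : G) ∈ N ∧ cosetShift H (g * s) x = cosetShift H g x * t := by
  have hfix : s • x = x := by
    induction x using QuotientGroup.induction_on with
    | H a =>
      show ((s * a : G) : G ⧸ H) = (a : G ⧸ H)
      rw [QuotientGroup.eq]
      refine hN ?_
      have := ‹N.Normal›.conj_mem s⁻¹ (inv_mem hs) a⁻¹
      simpa [mul_assoc] using this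
  refine ⟨hfix, ⟨x.out⁻¹ * s * x.out, hN ?_⟩, ?_, ?_⟩
  · simpa using ‹N.Normal›.conj_mem s hs x.out⁻¹
  · simpa using ‹N.Normal›.conj_mem s hs x.out⁻¹
  · apply Subtype.ext
    show ((g * s) • x).out⁻¹ * (g * s) * x.out
      = (g • x).out⁻¹ * g * x.out * (x.out⁻¹ * s * x.out)
    rw [mul_smul, hfix]
    simp [mul_assoc]

variable {r}

theorem isLevelConstant₁_cor₁ (hH : ∃ F : IntermediateField ℚ (AlgebraicClosure ℚ),
      FiniteDimensional ℚ F ∧ levelSubgroup r F ≤ H)
    {f : H → A} (hf : IsLevelConstant₁ (r.comp H.subtype) f) :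
    IsLevelConstant₁ r (cor₁ H A f) := by
  obtain ⟨F₁, hF₁, h₁⟩ := hH
  obtain ⟨F₂, hF₂, h₂⟩ := hf
  obtain ⟨E, hE, hn, hle₁, hle₂⟩ := exists_normal_sup (r := r) hF₁ hF₂
  refine ⟨E, hE, fun g s hs => ?_⟩
  simp only [cor₁_apply]
  refine Finset.sum_congr rfl fun x _ => ?_
  obtain ⟨hfix, t, ht, he⟩ := cosetShift_mul_of_mem (N := levelSubgroup r E) (hle₁.trans h₁)
    g (s := s) hs x
  rw [mul_smul, hfix, he, h₂ _ t (hle₂ ht)]

theorem isLevelConstant₂_cor₂ (hH : ∃ F : IntermediateField ℚ (AlgebraicClosure ℚ),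
      FiniteDimensional ℚ F ∧ levelSubgroup r F ≤ H)
    {z : H × H → A} (hz : IsLevelConstant₂ (r.comp H.subtype) z) :
    IsLevelConstant₂ r (cor₂ H A z) := by
  obtain ⟨F₁, hF₁, h₁⟩ := hH
  obtain ⟨F₂, hF₂, h₂⟩ := hz
  obtain ⟨E, hE, hn, hle₁, hle₂⟩ := exists_normal_sup (r := r) hF₁ hF₂
  refine ⟨E, hE, fun g g' s s' hs hs' => ?_⟩
  simp only [cor₂_apply]
  refine Finset.sum_congr rfl fun x _ => ?_
  obtain ⟨hfix', t', ht', he'⟩ := cosetShift_mul_of_mem (N := levelSubgroup r E) (hle₁.trans h₁)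
    g' (s := s') hs' x
  rw [mul_smul g' s', hfix', he']
  obtain ⟨hfix, t, ht, he⟩ := cosetShift_mul_of_mem (N := levelSubgroup r E) (hle₁.trans h₁)
    g (s := s) hs (g' • x)
  rw [mul_smul g s, hfix, he, h₂ _ _ t t' (hle₂ ht) (hle₂ ht')]

end Level

end FLTAgent.LocalDuality
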